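/-
GATE-E (S59) / RISK-6 = node **SQ3** (`p = 3`: level `4 L ⟹ 2 L`), FINAL file (helper90, SQ3 sub-gate
owner).

* `CoreStmt`  : the GROUP-THEORETIC core (no curve, no modular form, no localisation): `N` odd with a
  prime divisor `r ≡ 2 (3)`, `O` a `ℤ`-torsion-free ring, Hecke symbols `pr s ∤ 4 N`; if a Hecke
  polynomial `t` kills `Hom(Γ₀(2N), O)` then `t · (T_{s₀} − (s₀ + 1)) · t` maps `Hom(Γ₀(4N), O)` into
  `3 · Hom(Γ₀(4N), O)`.  (Proof = helper17's `KillerAbs.Killer3.killer` fed by ONE cyclic step of order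
  `3`, `GE8/CaseB3/CycPlug3.cycStepSL3` at `K = Γ₀(N) ∩ Γ(2) ◁ G²`, and the two involutions of
  `Hom(K, O)`; instance seats.)
* `SQ3SqStmt` : node SQ3 at SQUAREFREE levels: `W` semistable, `ρ̄_{W,3}` irreducible, `L'` squarefree,
  `2 ∣ L'`, `3 ∤ L'`: level `L' * 2 ⟹` level `L'`.
* `sq3Sq_of_core : CoreStmt → SQ3SqStmt` — proved here: auxiliary prime `r ≡ 11 (12)`
  (`GE8/AuxR/Sigma`, removed by `GE8/AuxR/Remove`), `O = ℤ_[3]`, `Θ : O[X_ℓ] → ZMod 3`;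
  `ResMod₃(4N)` gives a non-zero `ker Θ`-primary class `x` of `Hom(Γ₀(4N), O)`
  (`GB/Setup/DPosPlug.exists_isLoc_ne_zero`); `¬ ResMod₃(2N)` gives the old-killer `t` of the PARABOLIC
  classes of level `2N` (`GB/B7/HBase.exists_killer_elem`), and `t' = t (X_{s₀} − (s₀+1))` kills ALL
  classes (`2N` squarefree: `GB/B7/HBnd.cohT_apply_of_parabolic`), `Θ t' ≠ 0` for a non-Eisenstein
  `s₀` (`GF/Setup/NonEisW`); by the core `Q = t' E t'` has `Q · Hom ⊆ 3 · Hom`, `Θ Q ≠ 0`, so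
  `x = Qⁿ yₙ ∈ 3ⁿ Hom` for all `n`, `x = 0`: contradiction.
-/
import Mathlib
import Fermat.Agent.GE8.SQ.AuxPlug
import Fermat.Agent.GB.Setup.DPosPlug
import Fermat.Agent.GB.B7.HBase
import Fermat.Agent.GB.B7.HBnd
import Fermat.Agent.GF.Setup.NonEisW

set_option autoImplicit false
set_option linter.unusedSectionVars false
set_option linter.style.haveILetI false

open scoped MatrixGroups
open CongruenceSubgroup ModularCurve.Period

noncomputable section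

namespace Fermat.Agent.GE8.SQ3.Final

open MvPolynomial
open Fermat.Agent.S16_helper49 Fermat.Agent.GM.B Fermat.Agent.GK.New
open Fermat.Agent.GB.B3.RealLevel Fermat.Agent.GB.B8.LevelGen

/-- **the group-theoretic core of SQ3.** -/
def CoreStmt : Prop :=
  ∀ (N : ℕ) [NeZero N] (_ : ¬ 2 ∣ N) (_ : ¬ 3 ∣ N) (r : ℕ) (_ : r.Prime) (_ : r ∣ N)
    (_ : r % 3 = 2)
    (O : Type) [CommRing O] [IsDomain O] [Module.IsTorsionFree ℤ O]
    (σ : Type) (pr : σ → ℕ) (hpr : ∀ s, (pr s).Prime) (_ : Function.Injective pr)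
    (_ : ∀ s, ¬ pr s ∣ N * 2 * 2)
    (t : MvPolynomial σ O)
    (_ : ∀ φ : Additive (Gamma0 (N * 2)) →+ O, actN O pr hpr (N * 2) t φ = 0)
    (s₀ : σ) (x : Additive (Gamma0 (N * 2 * 2)) →+ O),
    ∃ u : Additive (Gamma0 (N * 2 * 2)) →+ O,
      actN O pr hpr (N * 2 * 2) (t * (X s₀ - C (((pr s₀ + 1 : ℕ) : O))) * t) x = (3 : O) • u

/-- **node SQ3 at squarefree levels.** -/
def SQ3SqStmt : Prop :=
  ∀ (W : WeierstrassCurve ℤ) (_ : W.IsSemistableModel) (_ : W.Δ ≠ 0)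
    (_ : W.ModRepIsIrreducible 3)
    (L' : ℕ) [NeZero L'] (_ : 2 ∣ L') (_ : Squarefree L') (_ : ¬ 3 ∣ L')
    (_ : W.IsResiduallyModularOfLevel 3 (L' * 2)), W.IsResiduallyModularOfLevel 3 L'

/-! ### `3`-adic divisibility -/

/-- an element of `ℤ_[3]` divisible by every power of `3` is zero. -/
theorem padic_eq_zero_of_forall_pow_dvd (a : ℤ_[3])
    (h : ∀ n : ℕ, ∃ b : ℤ_[3], a = (3 : ℤ_[3]) ^ n * b) : a = 0 := by
  by_contra ha
  have hpos : 0 < ‖a‖ := norm_pos_iff.mpr ha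
  have h3 : ‖(3 : ℤ_[3])‖ = (3 : ℝ)⁻¹ := by
    have := PadicInt.norm_p (p := 3)
    simpa using this
  obtain ⟨n, hn⟩ := exists_pow_lt_of_lt_one hpos (by norm_num : (3 : ℝ)⁻¹ < 1)
  obtain ⟨b, hb⟩ := h n
  have h1 : ‖a‖ ≤ (3 : ℝ)⁻¹ ^ n := by
    rw [hb, norm_mul, norm_pow, h3]
    calc (3 : ℝ)⁻¹ ^ n * ‖b‖ ≤ (3 : ℝ)⁻¹ ^ n * 1 :=
          mul_le_mul_of_nonneg_left (PadicInt.norm_le_one b) (by positivity)
      _ = (3 : ℝ)⁻¹ ^ n := mul_one _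
  exact absurd (lt_of_le_of_lt h1 hn) (lt_irrefl _)

/-! ### the analytic-free half: everything from the core -/

section Key

variable (W : WeierstrassCurve ℤ) (hΔ : W.Δ ≠ 0)

/-- the Hecke symbols: primes outside `S`. -/
abbrev idxPr (S : Finset ℕ) : PrimeIdx S → ℕ := fun i => i.1

theorem idxPr_prime (S : Finset ℕ) (i : PrimeIdx S) : (idxPr S i).Prime := i.2.1

/-- the residual eigencharacter `ℤ_[3][X_ℓ] → ZMod 3`, `X_ℓ ↦ a_ℓ(W)`. -/
def thetaW (S : Finset ℕ) : MvPolynomial (PrimeIdx S) ℤ_[3] →+* ZMod 3 :=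
  MvPolynomial.eval₂Hom (PadicInt.toZMod (p := 3))
    (fun i => ((W.apOfModel i.1 : ℤ) : ZMod 3))

theorem thetaW_X (S : Finset ℕ) (i : PrimeIdx S) :
    thetaW W S (X i) = ((W.apOfModel i.1 : ℤ) : ZMod 3) := by
  unfold thetaW
  rw [MvPolynomial.coe_eval₂Hom, MvPolynomial.eval₂_X]

theorem thetaW_C (S : Finset ℕ) (a : ℤ_[3]) :
    thetaW W S (C a) = PadicInt.toZMod (p := 3) a := by
  unfold thetaW
  rw [MvPolynomial.coe_eval₂Hom, MvPolynomial.eval₂_C]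

theorem thetaW_surjective (S : Finset ℕ) : Function.Surjective (thetaW W S) := by
  intro z
  obtain ⟨a, ha⟩ := ZMod.ringHom_surjective (PadicInt.toZMod (p := 3)) z
  exact ⟨C a, by rw [thetaW_C, ha]⟩

end Key


/-! ### the key step: `ResMod₃(4N) ∧ ¬ ResMod₃(2N)` is absurd -/

section Main

open Fermat.Agent.GB.A.A6.ECDet

/-- **from the core**: for `N` odd with `2N` squarefree and a prime divisor `r ≡ 2 (3)`, `ρ̄_{W,3}`
irreducible: `ResMod₃(4N) ⟹ ResMod₃(2N)`. -/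
theorem resMod_two_of_four (hcore : CoreStmt) (W : WeierstrassCurve ℤ) (hΔ : W.Δ ≠ 0)
    (hirr : W.ModRepIsIrreducible 3) (hcard : Nat.card (Tp W 3) = 3 ^ 2)
    (N : ℕ) [NeZero N] (hN2 : ¬ 2 ∣ N) (hN3 : ¬ 3 ∣ N) (hsq : Squarefree (N * 2))
    (r : ℕ) (hr : r.Prime) (hrN : r ∣ N) (hr3 : r % 3 = 2)
    (hres4 : W.IsResiduallyModularOfLevel 3 (N * 2 * 2)) :
    W.IsResiduallyModularOfLevel 3 (N * 2) := by
  classical
  by_contra hno2
  haveI : Fact (Nat.Prime 3) := ⟨Nat.prime_three⟩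
  have hp : (3 : ℕ).Prime := Nat.prime_three
  have hN0 : N ≠ 0 := NeZero.ne N
  haveI : NeZero (N * 2 * 2) := ⟨mul_ne_zero (mul_ne_zero hN0 (by norm_num)) (by norm_num)⟩
  haveI : NeZero (N * 2) := ⟨mul_ne_zero hN0 (by norm_num)⟩
  have hΔabs : W.Δ.natAbs ≠ 0 := Int.natAbs_ne_zero.2 hΔ
  have hn0 : N * 2 * 2 * 3 * W.Δ.natAbs ≠ 0 :=
    mul_ne_zero (mul_ne_zero (mul_ne_zero (mul_ne_zero hN0 (by norm_num)) (by norm_num)) (by norm_num)) hΔabs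
  set S : Finset ℕ := (N * 2 * 2 * 3 * W.Δ.natAbs).primeFactors with hS
  have hmemS : ∀ q : ℕ, q.Prime → q ∣ N * 2 * 2 * 3 * W.Δ.natAbs → q ∈ S := fun q hq hd =>
    Nat.mem_primeFactors.2 ⟨hq, hd, hn0⟩
  have hS4 : ∀ q : ℕ, q.Prime → q ∣ N * 2 * 2 → q ∈ S := fun q hq hd =>
    hmemS q hq (Dvd.dvd.mul_right (Dvd.dvd.mul_right hd 3) _)
  have hS2 : ∀ q : ℕ, q.Prime → q ∣ N * 2 → q ∈ S := fun q hq hd =>
    hS4 q hq (Dvd.dvd.mul_right hd 2)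
  have h3S : 3 ∈ S := hmemS 3 hp (Dvd.dvd.mul_right (Dvd.intro_left _ rfl) _)
  have hΔS : ∀ q : ℕ, q.Prime → (q : ℤ) ∣ W.Δ → q ∈ S := fun q hq hd =>
    hmemS q hq (Dvd.dvd.mul_left (Int.natCast_dvd.1 hd) _)
  -- the symbols
  let ℓ : PrimeIdx S → Nat.Primes := fun i => ⟨i.1, i.2.1⟩
  have hpr4 : ∀ i : PrimeIdx S, ¬ idxPr S i ∣ N * 2 * 2 := fun i hd => i.2.2 (hS4 i.1 i.2.1 hd)
  have hpr2 : ∀ i : PrimeIdx S, ¬ idxPr S i ∣ N * 2 := fun i hd => i.2.2 (hS2 i.1 i.2.1 hd)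
  have hpr3 : ∀ i : PrimeIdx S, idxPr S i ≠ 3 := fun i h => i.2.2 (by
    have h' : i.1 = 3 := h
    rw [h']
    exact h3S)
  have hgood : ∀ i : PrimeIdx S, W.IsGoodPrimeFor (idxPr S i) := fun i hd =>
    i.2.2 (hΔS i.1 i.2.1 hd)
  -- the two actions
  set act4 := actN ℤ_[3] (idxPr S) (idxPr_prime S) (N * 2 * 2) with hact4
  set act2 := actN ℤ_[3] (idxPr S) (idxPr_prime S) (N * 2) with hact2
  have hact4X : ∀ (i : PrimeIdx S) (φ : Additive (Gamma0 (N * 2 * 2)) →+ ℤ_[3]),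
      act4 (X i) φ = cohGen (N * 2 * 2) ℤ_[3] (ℓ i) φ := fun i φ => by
    rw [hact4, actN_X_of_not_dvd ℤ_[3] (idxPr S) (idxPr_prime S) i (hpr4 i) φ,
      cohGen_of_not_dvd (N * 2 * 2) ℤ_[3] (ℓ i) (hpr4 i)]
  have hact2X : ∀ (i : PrimeIdx S) (φ : Additive (Gamma0 (N * 2)) →+ ℤ_[3]),
      act2 (X i) φ = cohGen (N * 2) ℤ_[3] (ℓ i) φ := fun i φ => by
    rw [hact2, actN_X_of_not_dvd ℤ_[3] (idxPr S) (idxPr_prime S) i (hpr2 i) φ,
      cohGen_of_not_dvd (N * 2) ℤ_[3] (ℓ i) (hpr2 i)]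
  -- the residual character
  set Θ := thetaW W S with hΘ
  have hΘp : (((3 : ℕ) : ℕ) : ZMod 3) = 0 := ZMod.natCast_self 3
  have hΘX : ∀ i : PrimeIdx S, Θ (X i) = ((W.apOfModel (ℓ i) : ℤ) : ZMod 3) := fun i =>
    thetaW_X W S i
  haveI h𝔪 : (RingHom.ker Θ).IsMaximal :=
    RingHom.ker_isMaximal_of_surjective Θ (thetaW_surjective W S)
  -- (⟹) at level `4N`
  obtain ⟨x, hx0, hxloc⟩ := Fermat.Agent.GB.Setup.DPosPlug.exists_isLoc_ne_zero ℓ hp W hres4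
    (fun i => ⟨hgood i, hpr4 i, hpr3 i⟩) act4 hact4X Θ hΘp hΘX (RingHom.ker Θ) rfl
  -- (⟸) at level `2N`: the killer of the parabolic classes
  obtain ⟨t, ht1, htkill⟩ := Fermat.Agent.GB.B7.HBase.exists_killer_elem (O := ℤ_[3])
    (fun n a hn h => by
      rcases smul_eq_zero.mp h with h | h
      · exact absurd h hn
      · exact h)
    ℓ hp W hΔ hno2 S hS2 (fun q hq hqS => ⟨⟨q, hq, hqS⟩, rfl⟩) act2
    (fun i φ _ => hact2X i φ) Θ hΘp (fun i _ => hΘX i)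
  -- a non-Eisenstein symbol
  obtain ⟨ℓ₀, hℓ₀, hℓ₀S, -, -, hne₀⟩ :=
    Fermat.Agent.GF.Setup.NonEisW.exists_prime_ne_succ hΔ hcard hirr (by norm_num) S
  set s₀ : PrimeIdx S := ⟨ℓ₀, hℓ₀, hℓ₀S⟩ with hs₀
  set E₀ : MvPolynomial (PrimeIdx S) ℤ_[3] := X s₀ - C (((idxPr S s₀ + 1 : ℕ) : ℤ_[3])) with hE₀
  have hΘE : Θ E₀ ≠ 0 := by
    rw [hE₀, map_sub, hΘX, hΘ, thetaW_C, map_natCast, sub_ne_zero]
    intro h
    apply hne₀
    rw [h]
    push_cast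
    rfl
  -- `t' = t E₀` kills ALL classes of level `2N` (squarefree: the boundary is Eisenstein)
  set t' : MvPolynomial (PrimeIdx S) ℤ_[3] := t * E₀ with ht'
  have hkill : ∀ φ : Additive (Gamma0 (N * 2)) →+ ℤ_[3], act2 t' φ = 0 := by
    intro φ
    rw [ht', map_mul, Module.End.mul_apply]
    apply htkill
    intro γ hγ
    haveI : Fact (idxPr S s₀).Prime := ⟨idxPr_prime S s₀⟩
    have h1 : act2 E₀ φ = cohT (hpr2 s₀) ℤ_[3] φ - (((idxPr S s₀ + 1 : ℕ) : ℤ_[3])) • φ := by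
      rw [hE₀, map_sub, LinearMap.sub_apply, hact2,
        actN_X_of_not_dvd ℤ_[3] (idxPr S) (idxPr_prime S) s₀ (hpr2 s₀) φ]
      congr 1
      have h2 : (C (((idxPr S s₀ + 1 : ℕ) : ℤ_[3])) : MvPolynomial (PrimeIdx S) ℤ_[3])
          = algebraMap ℤ_[3] (MvPolynomial (PrimeIdx S) ℤ_[3]) (((idxPr S s₀ + 1 : ℕ) : ℤ_[3])) :=
        rfl
      rw [h2, AlgHom.commutes, Module.algebraMap_end_apply]
    rw [h1]
    show cohT (hpr2 s₀) ℤ_[3] φ (Additive.ofMul γ)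
      - (((idxPr S s₀ + 1 : ℕ) : ℤ_[3])) • φ (Additive.ofMul γ) = 0
    rw [Fermat.Agent.GB.B7.HBnd.cohT_apply_of_parabolic (hpr2 s₀) hsq φ γ hγ,
      Nat.cast_smul_eq_nsmul, sub_self]
  -- the core
  set Q : MvPolynomial (PrimeIdx S) ℤ_[3] := t' * E₀ * t' with hQ
  have hQdiv : ∀ y : Additive (Gamma0 (N * 2 * 2)) →+ ℤ_[3],
      ∃ u : Additive (Gamma0 (N * 2 * 2)) →+ ℤ_[3], act4 Q y = (3 : ℤ_[3]) • u := fun y =>
    hcore N hN2 hN3 r hr hrN hr3 ℤ_[3] (PrimeIdx S) (idxPr S) (idxPr_prime S)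
      (fun _ _ h => Subtype.ext h) hpr4 t' hkill s₀ y
  have hΘQ : Θ Q ≠ 0 := by
    rw [hQ, ht', map_mul, map_mul, map_mul, ht1, one_mul]
    exact mul_ne_zero (mul_ne_zero hΘE hΘE) hΘE
  have hQn : ∀ n : ℕ, Q ^ n ∉ RingHom.ker Θ := by
    intro n hmem
    rw [RingHom.mem_ker, map_pow] at hmem
    exact hΘQ (eq_zero_of_pow_eq_zero hmem)
  -- `Qⁿ` maps everything into `3ⁿ Hom`
  have hQpow : ∀ (n : ℕ) (y : Additive (Gamma0 (N * 2 * 2)) →+ ℤ_[3]),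
      ∃ u : Additive (Gamma0 (N * 2 * 2)) →+ ℤ_[3], act4 (Q ^ n) y = ((3 : ℤ_[3]) ^ n) • u := by
    intro n
    induction n with
    | zero => exact fun y => ⟨y, by rw [pow_zero, pow_zero, map_one, Module.End.one_apply, one_smul]⟩
    | succ n ih =>
      intro y
      obtain ⟨u, hu⟩ := hQdiv y
      obtain ⟨u', hu'⟩ := ih u
      refine ⟨u', ?_⟩
      rw [pow_succ, map_mul, Module.End.mul_apply, hu, map_smul, hu', smul_smul]
      congr 1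
      rw [pow_succ, mul_comm]
  -- the primary class is divisible by every power of `3`, hence zero
  apply hx0
  refine AddMonoidHom.ext fun γ => ?_
  rw [AddMonoidHom.zero_apply]
  apply padic_eq_zero_of_forall_pow_dvd
  intro n
  obtain ⟨y, hy⟩ := hxloc (Q ^ n) (hQn n)
  obtain ⟨u, hu⟩ := hQpow n y
  refine ⟨u γ, ?_⟩
  rw [← hy, hu]
  rfl

/-- **`CoreStmt → SQ3SqStmt`**: the auxiliary prime `r ≡ 11 (12)` is chosen and removed here. -/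
theorem sq3Sq_of_core (hcore : CoreStmt) : SQ3SqStmt := by
  intro W hss hΔ hirr L' _ h2L' hsqL' h3L' hres
  haveI : Fact (Nat.Prime 3) := ⟨Nat.prime_three⟩
  have hp : (3 : ℕ).Prime := Nat.prime_three
  have hp2 : (3 : ℕ) ≠ 2 := by norm_num
  have hL'0 : L' ≠ 0 := NeZero.ne L'
  have hcard : Nat.card (Tp W 3) = 3 ^ 2 := Fermat.Agent.GE8.Irr2.Transv.card_tors W hΔ hp
  -- the auxiliary prime
  have hn0 : L' * 2 * 3 ≠ 0 := mul_ne_zero (mul_ne_zero hL'0 (by norm_num)) (by norm_num)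
  obtain ⟨r, hr, hrn, h12, hrp, hgoodr, hne⟩ :=
    Fermat.Agent.GE8.AuxR.Sigma.exists_aux_prime_not_dvd W hss hΔ hp2 hirr hn0
  have hrL' : ¬ r ∣ L' := fun h => hrn (Dvd.dvd.mul_right (Dvd.dvd.mul_right h 2) 3)
  have hr3 : r % 3 = 2 := by omega
  -- `L' = L * 2`, `N = L * r`
  obtain ⟨L, rfl⟩ : ∃ L, L' = L * 2 := by
    obtain ⟨L, hL⟩ := h2L'
    exact ⟨L, by rw [hL, mul_comm]⟩
  have hL0 : L ≠ 0 := fun h => hL'0 (by rw [h, zero_mul])
  have h2L : ¬ 2 ∣ L := by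
    rintro ⟨c, rfl⟩
    have h4 : 2 * 2 ∣ 2 * c * 2 := ⟨c, by ring⟩
    exact absurd (hsqL' 2 h4) (by norm_num)
  have hr2 : ¬ 2 ∣ r := by
    intro h
    have : r % 2 = 0 := Nat.mod_eq_zero_of_dvd h
    omega
  haveI : NeZero (L * r) := ⟨mul_ne_zero hL0 hr.ne_zero⟩
  have hN2 : ¬ 2 ∣ L * r := by
    intro h
    rcases (Nat.Prime.dvd_mul Nat.prime_two).mp h with h | h
    · exact h2L h
    · exact hr2 h
  have hN3 : ¬ 3 ∣ L * r := by
    intro h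
    rcases (Nat.Prime.dvd_mul hp).mp h with h | h
    · exact h3L' (Dvd.dvd.mul_right h 2)
    · exact hrp ((Nat.prime_dvd_prime_iff_eq hp hr).mp h).symm
  have hsq : Squarefree (L * r * 2) := by
    have h1 : L * r * 2 = L * 2 * r := by ring
    rw [h1, Nat.squarefree_mul_iff]
    exact ⟨((Nat.Prime.coprime_iff_not_dvd hr).mpr hrL').symm, hsqL', hr.squarefree⟩
  -- raise the level by `r`, lower `4 → 2`, remove `r`
  have hres4 : W.IsResiduallyModularOfLevel 3 (L * r * 2 * 2) :=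
    Fermat.Agent.GB.Top.SplitT.isResiduallyModularOfLevel_of_dvd hres ⟨r, by ring⟩
      (mul_ne_zero (mul_ne_zero (mul_ne_zero hL0 hr.ne_zero) (by norm_num)) (by norm_num))
  have hlow : W.IsResiduallyModularOfLevel 3 (L * r * 2) :=
    resMod_two_of_four hcore W hΔ hirr hcard (L * r) hN2 hN3 hsq r hr (Dvd.intro_left L rfl) hr3
      hres4
  have hlow' : W.IsResiduallyModularOfLevel 3 (L * 2 * r) := by
    have h1 : L * 2 * r = L * r * 2 := by ring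
    rw [h1]
    exact hlow
  exact Fermat.Agent.GE8.AuxR.Remove.removableAux hp2 hΔ hirr hr hrp hgoodr hne (L * 2) hL'0 hrL'
    hlow'

end Main


end Fermat.Agent.GE8.SQ3.Final
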