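/-
GATE-E (S59) / RISK-6, node SQ3 (level `4L ⟹ 2L` at `p = 3`), slice (B2-δ) (helper42):
**the `δ`-transport `Hom(K, A) ≅ Hom(Γ₀(4L), A)`**, `K = Γ₀(L) ∩ Γ(2)`, `δ = diag(2, 1)`, and the
comparison of ANY Hecke coset system on `K` with representatives `≡ I (mod 2)` with the landed
`cohT` at level `4L`.  Levels are spelled `L`, `L * 2`, `L * 2 * 2` (the `N * q` form of
`GM/B/Degeneracy`, no casts).

* `IsK2 L K` : `g ∈ K ↔ g ∈ Γ₀(L) ∧ 2 ∣ g₀₁ ∧ 2 ∣ g₁₀` (binder form of `K = ker (mod 2)`);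
* `dK hK : Γ₀(L*2*2) →* K` (`g ↦ δ g δ⁻¹`), `dK_rel`, `dK_injective`, `dK_surjective`, `dKEquiv`;
* `dSys`, `dSysInv` : the two `CosetSys.single`; `conjD hK hL A : Hom(K, A) ≃+ Hom(Γ₀(L*2*2), A)`,
  `conjDₗ` (`≃ₗ[O]`), `conjD_isParabolicHom_iff`;
* `uT s = (1, s; 0, 1)`, `Even2 ℓ x s`, `half`, `halfEquiv`;
* `delta_rep` : the matrix identity `δ α_{x/2} = γ (T^s α_x) δ`, `γ = T^t ∈ K`;
* **`conjD_op`** : for `S : CosetSys embR K K`, `e : S.ι ≃ P¹(𝔽_ℓ)` and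
  `S.a i = embR (uT s_i) * heckeRep ℓ (e i)` with `Even2 ℓ (e i) s_i`:
  `conjD (S.op φ) = cohT hℓ (conjD φ)`.
-/
import Mathlib
import Fermat.Agent.GM.B.System
import Fermat.Agent.GM.B.System2
import Fermat.Agent.GM.B.System3
import Fermat.Agent.GM.B.Hecke
import Fermat.Agent.GM.B.Distinct
import Fermat.Agent.GM.B.Degeneracy
import Fermat.Agent.GM.B.Par

set_option autoImplicit false
set_option linter.unusedSectionVars false

open scoped MatrixGroups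
open CongruenceSubgroup Matrix Matrix.SpecialLinearGroup ModularCurve.Period
open P2MW.S_ModularForm_heckeT_slash_eq_self_of_mem_Gamma0.ModularForm.HeckeSlashInvariance
open P2MW.S_ModularForm_heckeT_slash_eq_self_of_mem_Gamma0.ModularForm
open Fermat.Agent.S16_helper49
open Fermat.Agent.GM.Amalgam
open Fermat.Agent.GM.B
open scoped OnePoint

namespace Fermat.Agent.GE8.SQ3.Delta

/-- `K = Γ₀(L) ∩ Γ(2)`, characterised by membership -/
def IsK2 (L : ℕ) (K : Subgroup SL(2, ℤ)) : Prop :=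
  ∀ g : SL(2, ℤ), g ∈ K ↔ g ∈ Gamma0 L ∧ (2 : ℤ) ∣ g 0 1 ∧ (2 : ℤ) ∣ g 1 0

variable {L : ℕ} {K : Subgroup SL(2, ℤ)}

theorem IsK2.le_Gamma0 (hK : IsK2 L K) : K ≤ Gamma0 L := fun g hg => ((hK g).mp hg).1

/-! ### the isomorphism `Γ₀(4L) ≃ K` -/

theorem degenDelta_mem (hK : IsK2 L K) (g : Gamma0 (L * 2 * 2)) :
    ((degenDelta (L * 2) 2 g : Gamma0 (L * 2)) : SL(2, ℤ)) ∈ K := by
  obtain ⟨-, h01, -, -⟩ := degenDelta_entries g
  have hmem := dvd_of_mem_Gamma0 (degenDelta (L * 2) 2 g)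
  rw [hK]
  refine ⟨mem_Gamma0_of_dvd (dvd_trans ⟨2, by push_cast; ring⟩ hmem), ⟨_, h01⟩,
    dvd_trans ⟨(L : ℤ), by push_cast; ring⟩ hmem⟩

/-- `g ↦ δ g δ⁻¹ = (a, 2 b; c / 2, d)`, `Γ₀(4L) → K` -/
noncomputable def dK (hK : IsK2 L K) : Gamma0 (L * 2 * 2) →* K :=
  ((Gamma0 (L * 2)).subtype.comp (degenDelta (L * 2) 2)).codRestrict K (degenDelta_mem hK)

theorem coe_dK (hK : IsK2 L K) (g : Gamma0 (L * 2 * 2)) :
    ((dK hK g : K) : SL(2, ℤ)) = ((degenDelta (L * 2) 2 g : Gamma0 (L * 2)) : SL(2, ℤ)) := rfl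

theorem dK_rel (hK : IsK2 L K) (g : Gamma0 (L * 2 * 2)) :
    dlt 2 * embR (g : SL(2, ℤ)) = embR ((dK hK g : K) : SL(2, ℤ)) * dlt 2 :=
  dlt_rel_degenDelta g

theorem dK_entries (hK : IsK2 L K) (g : Gamma0 (L * 2 * 2)) :
    ((dK hK g : K) : SL(2, ℤ)) 0 0 = (g : SL(2, ℤ)) 0 0 ∧
    ((dK hK g : K) : SL(2, ℤ)) 0 1 = 2 * (g : SL(2, ℤ)) 0 1 ∧
    2 * ((dK hK g : K) : SL(2, ℤ)) 1 0 = (g : SL(2, ℤ)) 1 0 ∧
    ((dK hK g : K) : SL(2, ℤ)) 1 1 = (g : SL(2, ℤ)) 1 1 := by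
  obtain ⟨h00, h01, h10, h11⟩ := degenDelta_entries g
  exact ⟨h00, by rw [coe_dK, h01]; norm_num, by rw [coe_dK, ← h10]; norm_num, h11⟩

theorem dK_injective (hK : IsK2 L K) : Function.Injective (dK hK) := by
  intro g g' h
  have h1 := dK_rel hK g
  rw [h, ← dK_rel hK g'] at h1
  exact Subtype.ext (embR_injective (mul_left_cancel h1))

theorem dK_surjective (hK : IsK2 L K) (hL : ¬ 2 ∣ L) : Function.Surjective (dK hK) := by
  intro k
  obtain ⟨hk0, ⟨b', hb'⟩, hc2⟩ := (hK k).mp k.2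
  have hcL : (L : ℤ) ∣ (k : SL(2, ℤ)) 1 0 := dvd_of_mem_Gamma0 ⟨(k : SL(2, ℤ)), hk0⟩
  have hdet := det_eq_one (k : SL(2, ℤ))
  have hcop : IsCoprime (L : ℤ) (2 : ℤ) := by
    have h2 : Nat.Coprime L 2 := (Nat.Prime.coprime_iff_not_dvd Nat.prime_two).mpr hL |>.symm
    exact_mod_cast Nat.isCoprime_iff_coprime.mpr h2
  have hcL2 : (L : ℤ) * 2 ∣ (k : SL(2, ℤ)) 1 0 := hcop.mul_dvd hcL hc2
  set g : SL(2, ℤ) := mkZ ((k : SL(2, ℤ)) 0 0) b' (2 * (k : SL(2, ℤ)) 1 0) ((k : SL(2, ℤ)) 1 1)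
    (by rw [hb'] at hdet; linarith) with hg
  have hgmem : g ∈ Gamma0 (L * 2 * 2) := by
    refine mem_Gamma0_of_dvd ?_
    rw [hg, mkZ_10]
    obtain ⟨c', hc'⟩ := hcL2
    exact ⟨c', by rw [hc']; push_cast; ring⟩
  refine ⟨⟨g, hgmem⟩, ?_⟩
  obtain ⟨h00, h01, h10, h11⟩ := dK_entries hK ⟨g, hgmem⟩
  apply Subtype.ext
  ext i j
  fin_cases i <;> fin_cases j
  · exact h00
  · show ((dK hK ⟨g, hgmem⟩ : K) : SL(2, ℤ)) 0 1 = (k : SL(2, ℤ)) 0 1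
    rw [h01, hb']
    rfl
  · show ((dK hK ⟨g, hgmem⟩ : K) : SL(2, ℤ)) 1 0 = (k : SL(2, ℤ)) 1 0
    have : (2 : ℤ) * ((dK hK ⟨g, hgmem⟩ : K) : SL(2, ℤ)) 1 0 = 2 * (k : SL(2, ℤ)) 1 0 := h10
    linarith
  · exact h11

/-- `Γ₀(4L) ≃* K` -/
noncomputable def dKEquiv (hK : IsK2 L K) (hL : ¬ 2 ∣ L) : Gamma0 (L * 2 * 2) ≃* K :=
  MulEquiv.ofBijective (dK hK) ⟨dK_injective hK, dK_surjective hK hL⟩

@[simp] theorem dKEquiv_apply (hK : IsK2 L K) (hL : ¬ 2 ∣ L) (g : Gamma0 (L * 2 * 2)) :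
    dKEquiv hK hL g = dK hK g := rfl

theorem dK_symm_apply (hK : IsK2 L K) (hL : ¬ 2 ∣ L) (k : K) :
    dK hK ((dKEquiv hK hL).symm k) = k :=
  (dKEquiv hK hL).apply_symm_apply k

theorem dK_symm_rel (hK : IsK2 L K) (hL : ¬ 2 ∣ L) (k : K) :
    (dlt 2)⁻¹ * embR ((k : K) : SL(2, ℤ))
      = embR ((((dKEquiv hK hL).symm k : Gamma0 (L * 2 * 2))) : SL(2, ℤ)) * (dlt 2)⁻¹ := by
  have h := dK_rel hK ((dKEquiv hK hL).symm k)
  rw [dK_symm_apply] at h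
  rw [inv_mul_eq_iff_eq_mul, ← mul_assoc, h, mul_assoc, mul_inv_cancel, mul_one]

/-! ### the transport of homomorphisms -/

/-- the coset system of `φ ↦ φ ∘ dK` -/
noncomputable def dSys (hK : IsK2 L K) : CosetSys embR K (Gamma0 (L * 2 * 2)) :=
  CosetSys.single embR (dlt 2) (dK hK) (dK_rel hK)

/-- the coset system of `ψ ↦ ψ ∘ dK⁻¹` -/
noncomputable def dSysInv (hK : IsK2 L K) (hL : ¬ 2 ∣ L) : CosetSys embR (Gamma0 (L * 2 * 2)) K :=
  CosetSys.single embR (dlt 2)⁻¹ (dKEquiv hK hL).symm.toMonoidHom (dK_symm_rel hK hL)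

variable {A : Type*} [AddCommGroup A]

theorem dSys_op_apply (hK : IsK2 L K) (φ : Additive K →+ A) (g : Gamma0 (L * 2 * 2)) :
    (dSys hK).op A φ (Additive.ofMul g) = φ (Additive.ofMul (dK hK g)) :=
  CosetSys.single_op_apply _ _ _ φ g

theorem dSysInv_op_apply (hK : IsK2 L K) (hL : ¬ 2 ∣ L) (ψ : Additive (Gamma0 (L * 2 * 2)) →+ A)
    (k : K) :
    (dSysInv hK hL).op A ψ (Additive.ofMul k) = ψ (Additive.ofMul ((dKEquiv hK hL).symm k)) :=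
  CosetSys.single_op_apply _ _ _ ψ k

variable (A) in
/-- **the `δ`-transport** `Hom(K, A) ≃ Hom(Γ₀(4L), A)`, `φ ↦ φ ∘ dK` -/
noncomputable def conjD (hK : IsK2 L K) (hL : ¬ 2 ∣ L) :
    (Additive K →+ A) ≃+ (Additive (Gamma0 (L * 2 * 2)) →+ A) where
  toFun := (dSys hK).op A
  invFun := (dSysInv hK hL).op A
  left_inv φ := by
    refine AddMonoidHom.ext fun k => ?_
    obtain ⟨k, rfl⟩ : ∃ k' : K, Additive.ofMul k' = k := ⟨Additive.toMul k, rfl⟩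
    rw [dSysInv_op_apply, dSys_op_apply, dK_symm_apply]
  right_inv ψ := by
    refine AddMonoidHom.ext fun g => ?_
    obtain ⟨g, rfl⟩ : ∃ g' : Gamma0 (L * 2 * 2), Additive.ofMul g' = g := ⟨Additive.toMul g, rfl⟩
    rw [dSys_op_apply, dSysInv_op_apply]
    congr 2
    exact (dKEquiv hK hL).symm_apply_apply g
  map_add' := map_add _

theorem conjD_apply (hK : IsK2 L K) (hL : ¬ 2 ∣ L) (φ : Additive K →+ A)
    (g : Gamma0 (L * 2 * 2)) :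
    conjD A hK hL φ (Additive.ofMul g) = φ (Additive.ofMul (dK hK g)) :=
  dSys_op_apply hK φ g

theorem conjD_eq_op (hK : IsK2 L K) (hL : ¬ 2 ∣ L) (φ : Additive K →+ A) :
    conjD A hK hL φ = (dSys hK).op A φ := rfl

theorem conjD_symm_eq_op (hK : IsK2 L K) (hL : ¬ 2 ∣ L) (ψ : Additive (Gamma0 (L * 2 * 2)) →+ A) :
    (conjD A hK hL).symm ψ = (dSysInv hK hL).op A ψ := rfl

/-- the transport preserves and reflects parabolic homomorphisms -/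
theorem conjD_isParabolicHom_iff (hK : IsK2 L K) (hL : ¬ 2 ∣ L) (φ : Additive K →+ A) :
    IsParabolicHom (Gamma0 (L * 2 * 2)) (conjD A hK hL φ) ↔ IsParabolicHom K φ := by
  constructor
  · intro h
    have := op_isParabolicHom (dSysInv hK hL) _ h
    rwa [← conjD_symm_eq_op, AddEquiv.symm_apply_apply] at this
  · intro h
    exact op_isParabolicHom (dSys hK) φ h

/-- the transport is linear for every coefficient ring -/
noncomputable def conjDₗ (O : Type*) [Semiring O] [Module O A] (hK : IsK2 L K) (hL : ¬ 2 ∣ L) :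
    (Additive K →+ A) ≃ₗ[O] (Additive (Gamma0 (L * 2 * 2)) →+ A) :=
  { conjD A hK hL with
    map_smul' := fun c φ => by
      refine AddMonoidHom.ext fun g => ?_
      obtain ⟨g, rfl⟩ : ∃ g' : Gamma0 (L * 2 * 2), Additive.ofMul g' = g :=
        ⟨Additive.toMul g, rfl⟩
      show conjD A hK hL (c • φ) (Additive.ofMul g) = c • conjD A hK hL φ (Additive.ofMul g)
      rw [conjD_apply, conjD_apply]
      rfl }

theorem conjDₗ_apply (O : Type*) [Semiring O] [Module O A] (hK : IsK2 L K) (hL : ¬ 2 ∣ L)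
    (φ : Additive K →+ A) : conjDₗ O hK hL φ = conjD A hK hL φ := rfl

/-! ### the matrix identity `δ α_{x/2} = γ (T^s α_x) δ` -/

/-- `T^s = (1, s; 0, 1)` -/
def uT (s : ℤ) : SL(2, ℤ) := mkZ 1 s 0 1 (by ring)

theorem uT_mem_Gamma0 (N : ℕ) (s : ℤ) : uT s ∈ Gamma0 N := mem_Gamma0_of_dvd (by simp [uT])

theorem uT_mem_K (hK : IsK2 L K) {s : ℤ} (hs : Even s) : uT s ∈ K := by
  rw [hK]
  refine ⟨uT_mem_Gamma0 L s, ?_, ?_⟩
  · simpa [uT] using hs.two_dvd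
  · simp [uT]

theorem uT_one : uT 1 = ModularGroup.T := by
  ext i j
  fin_cases i <;> fin_cases j <;> simp [uT, ModularGroup.T, mkZ]

variable {ℓ : ℕ} [Fact ℓ.Prime]

/-- the parity condition making `T^s α_x ≡ I (mod 2)`: `s` even at `∞`, `j + s ℓ` even at `j` -/
def Even2 (ℓ : ℕ) (x : OnePoint (ZMod ℓ)) (s : ℤ) : Prop :=
  x.elim (Even s) (fun j => Even ((j.val : ℤ) + s * ℓ))

theorem even2_infty (s : ℤ) : Even2 ℓ ∞ s ↔ Even s := Iff.rfl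

theorem even2_coe (j : ZMod ℓ) (s : ℤ) :
    Even2 ℓ (j : OnePoint (ZMod ℓ)) s ↔ Even ((j.val : ℤ) + s * ℓ) := Iff.rfl

/-- halving on `P¹(𝔽_ℓ)` -/
def half (ℓ : ℕ) (x : OnePoint (ZMod ℓ)) : OnePoint (ZMod ℓ) :=
  x.elim ∞ (fun j => ((j * (2 : ZMod ℓ)⁻¹ : ZMod ℓ) : OnePoint (ZMod ℓ)))

/-- doubling on `P¹(𝔽_ℓ)` -/
def dbl (ℓ : ℕ) (x : OnePoint (ZMod ℓ)) : OnePoint (ZMod ℓ) :=
  x.elim ∞ (fun j => ((j * (2 : ZMod ℓ) : ZMod ℓ) : OnePoint (ZMod ℓ)))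

theorem half_infty : half ℓ ∞ = ∞ := rfl
theorem half_coe (j : ZMod ℓ) : half ℓ (j : OnePoint (ZMod ℓ)) = ((j * (2 : ZMod ℓ)⁻¹ : ZMod ℓ)) := rfl
theorem dbl_infty : dbl ℓ ∞ = ∞ := rfl
theorem dbl_coe (j : ZMod ℓ) : dbl ℓ (j : OnePoint (ZMod ℓ)) = ((j * (2 : ZMod ℓ) : ZMod ℓ)) := rfl

theorem two_ne_zero_zmod (hℓ2 : ℓ ≠ 2) : (2 : ZMod ℓ) ≠ 0 := by
  intro h
  have h1 : ((2 : ℕ) : ZMod ℓ) = 0 := by exact_mod_cast h
  rw [ZMod.natCast_eq_zero_iff] at h1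
  exact hℓ2 ((Nat.prime_dvd_prime_iff_eq Fact.out Nat.prime_two).mp h1)

/-- halving as a permutation of `P¹(𝔽_ℓ)`, `ℓ` odd -/
def halfEquiv (hℓ2 : ℓ ≠ 2) : OnePoint (ZMod ℓ) ≃ OnePoint (ZMod ℓ) where
  toFun := half ℓ
  invFun := dbl ℓ
  left_inv x := by
    induction x using OnePoint.rec with
    | infty => rfl
    | coe j =>
      rw [half_coe, dbl_coe, mul_assoc, inv_mul_cancel₀ (two_ne_zero_zmod hℓ2), mul_one]
  right_inv x := by
    induction x using OnePoint.rec with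
    | infty => rfl
    | coe j =>
      rw [dbl_coe, half_coe, mul_assoc, mul_inv_cancel₀ (two_ne_zero_zmod hℓ2), mul_one]

theorem halfEquiv_apply (hℓ2 : ℓ ≠ 2) (x : OnePoint (ZMod ℓ)) : halfEquiv hℓ2 x = half ℓ x := rfl

/-- **the matrix identity**: `δ α_{x/2} = γ (T^s α_x) δ` with `γ = T^t ∈ K` -/
theorem delta_rep (hK : IsK2 L K) (hℓ2 : ℓ ≠ 2) (x : OnePoint (ZMod ℓ)) (s : ℤ)
    (hs : Even2 ℓ x s) :
    ∃ γ : K, dlt 2 * heckeRep ℓ (half ℓ x)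
      = embR ((γ : K) : SL(2, ℤ)) * (embR (uT s) * heckeRep ℓ x * dlt 2) := by
  have hℓ0 : ℓ ≠ 0 := (Fact.out : ℓ.Prime).ne_zero
  have h20 : (2 : ℕ) ≠ 0 := by norm_num
  induction x using OnePoint.rec with
  | infty =>
    have hs' : Even s := hs
    refine ⟨⟨uT (-s), uT_mem_K hK hs'.neg⟩, ?_⟩
    rw [half_infty, heckeRep_infty]
    ext a b
    fin_cases a <;> fin_cases b <;>
      (simp [hℓ0, h20, Matrix.mul_apply, Fin.sum_univ_two, uT]; try ring)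
  | coe j =>
    have hs' : Even ((j.val : ℤ) + s * ℓ) := hs
    obtain ⟨j', hj'⟩ : ∃ j' : ZMod ℓ, j' = j * (2 : ZMod ℓ)⁻¹ := ⟨_, rfl⟩
    have h2j : (2 : ZMod ℓ) * j' = j := by
      rw [hj', mul_comm j, ← mul_assoc, mul_inv_cancel₀ (two_ne_zero_zmod hℓ2), one_mul]
    have hdvd : (ℓ : ℤ) ∣ 2 * (j'.val : ℤ) - (j.val : ℤ) := by
      rw [← ZMod.intCast_zmod_eq_zero_iff_dvd]
      push_cast
      rw [ZMod.natCast_zmod_val, ZMod.natCast_zmod_val, h2j, sub_self]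
    obtain ⟨t₀, ht₀⟩ := hdvd
    have ht : Even (t₀ - s) := by
      have h1 : Even ((ℓ : ℤ) * (t₀ - s)) := by
        have : (ℓ : ℤ) * (t₀ - s) = 2 * (j'.val : ℤ) - ((j.val : ℤ) + s * ℓ) := by
          rw [mul_sub, ← ht₀]; ring
        rw [this]
        exact (even_two_mul _).sub hs'
      rcases Int.even_mul.mp h1 with h | h
      · exfalso
        have h2 : Even ℓ := by exact_mod_cast h
        exact hℓ2 ((Fact.out : ℓ.Prime).even_iff.mp h2)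
      · exact h
    refine ⟨⟨uT (t₀ - s), uT_mem_K hK ht⟩, ?_⟩
    rw [half_coe, ← hj', heckeRep_coe, heckeRep_coe]
    have hR : (2 : ℝ) * ((j'.val : ℕ) : ℝ) - ((j.val : ℕ) : ℝ) = (ℓ : ℝ) * (t₀ : ℝ) := by
      exact_mod_cast ht₀
    ext a b
    fin_cases a <;> fin_cases b <;>
      (simp only [ZMod.natCast_val] at hR
       simp [hℓ0, h20, Matrix.mul_apply, Fin.sum_univ_two, uT]
       try linear_combination hR)

/-! ### the comparison with `cohT` at level `4L` -/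

theorem not_dvd_two_of (hℓ : ¬ ℓ ∣ L * 2 * 2) : ℓ ≠ 2 := by
  rintro rfl
  exact hℓ (Dvd.intro_left _ rfl)

theorem dSys_comp_heckeSys_distinct (hK : IsK2 L K) (hL : ¬ 2 ∣ L) (hℓ : ¬ ℓ ∣ L * 2 * 2) :
    ((dSys hK).comp (heckeSys hℓ)).Distinct := by
  rintro ⟨u, x⟩ ⟨u', y⟩ κ h
  have h' : dlt 2 * heckeRep ℓ x = embR ((κ : K) : SL(2, ℤ)) * (dlt 2 * heckeRep ℓ y) := h
  rw [← mul_assoc] at h'
  have h3 := dK_rel hK ((dKEquiv hK hL).symm κ)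
  rw [dK_symm_apply] at h3
  rw [← h3, mul_assoc] at h'
  have h4 := mul_left_cancel h'
  have hxy : x = y := heckeSys_distinct hℓ x y ((dKEquiv hK hL).symm κ) h4
  subst hxy
  rfl

/-- **the `δ`-transport intertwines every mod-2 Hecke system on `K` with `cohT` at level `4L`.** -/
theorem conjD_op (hK : IsK2 L K) (hL : ¬ 2 ∣ L) (hℓ : ¬ ℓ ∣ L * 2 * 2)
    (S : CosetSys embR K K) (e : S.ι ≃ OnePoint (ZMod ℓ)) (s : S.ι → ℤ)
    (hs : ∀ i, Even2 ℓ (e i) (s i))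
    (hSa : ∀ i, S.a i = embR (uT (s i)) * heckeRep ℓ (e i))
    (φ : Additive K →+ A) :
    conjD A hK hL (S.op A φ) = cohT hℓ A (conjD A hK hL φ) := by
  have hℓ2 : ℓ ≠ 2 := not_dvd_two_of hℓ
  rw [conjD_eq_op, conjD_eq_op, ← heckeSys_op, ← CosetSys.op_comp, ← CosetSys.op_comp]
  choose γ hγ using fun i => delta_rep hK hℓ2 (e i) (s i) (hs i)
  let e' : (S.comp (dSys hK)).ι ≃ ((dSys hK).comp (heckeSys hℓ)).ι :=
    (Equiv.prodComm S.ι Unit).trans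
      (Equiv.prodCongr (Equiv.refl Unit) (e.trans (halfEquiv hℓ2)))
  symm
  refine CosetSys.op_eq_of_cosets (S.comp (dSys hK)) ((dSys hK).comp (heckeSys hℓ)) embR_injective
    (dSys_comp_heckeSys_distinct hK hL hℓ) e' 1 (fun x => by rw [one_mul, mul_one])
    (fun p => γ p.1) ?_ φ
  rintro ⟨i, u⟩
  show dlt 2 * heckeRep ℓ (half ℓ (e i)) = 1 * embR ((γ i : K) : SL(2, ℤ)) * (S.a i * dlt 2)
  rw [one_mul, hSa]
  exact hγ i

/-! ### the standard choice of the twist: `T` at the odd `j`, `1` otherwise -/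

/-- `s_x = 1` at `x = j` with `j.val` odd, `0` otherwise -/
def twS (ℓ : ℕ) (x : OnePoint (ZMod ℓ)) : ℤ :=
  x.elim 0 (fun j => if Even j.val then 0 else 1)

theorem twS_infty : twS ℓ ∞ = 0 := rfl

theorem twS_coe (j : ZMod ℓ) :
    twS ℓ (j : OnePoint (ZMod ℓ)) = if Even j.val then 0 else 1 := rfl

theorem even2_twS (hℓ2 : ℓ ≠ 2) (x : OnePoint (ZMod ℓ)) : Even2 ℓ x (twS ℓ x) := by
  induction x using OnePoint.rec with
  | infty => exact (even2_infty _).mpr (by rw [twS_infty]; exact Even.zero)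
  | coe j =>
    rw [even2_coe, twS_coe]
    have hodd : Odd ℓ := (Fact.out : ℓ.Prime).odd_of_ne_two hℓ2
    by_cases hj : Even j.val
    · rw [if_pos hj, zero_mul, add_zero]
      exact_mod_cast hj
    · rw [if_neg hj, one_mul]
      have h1 : Odd j.val := Nat.not_even_iff_odd.mp hj
      exact_mod_cast h1.add_odd hodd

/-- the transport commutes with a change of coefficients -/
theorem conjD_comp_hom {B : Type*} [AddCommGroup B] (hK : IsK2 L K) (hL : ¬ 2 ∣ L) (f : A →+ B)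
    (φ : Additive K →+ A) : conjD B hK hL (f.comp φ) = f.comp (conjD A hK hL φ) :=
  CosetSys.op_comp_hom (dSys hK) f φ

end Fermat.Agent.GE8.SQ3.Delta
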