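/-
GATE-E (S59) / RISK-6, node SQ3 (level `4L ⟹ 2L` at `p = 3`), slice (K3) (helper42):
**the index-2 half** `K = Γ₀(L) ∩ Γ(2) ≤ H = Γ₀(L * 2)`, `H = K ⊔ K·T`.

* `K_le_H`, `resHK hK hL : CosetSys embR (Γ₀(L*2)) K` (restriction), `resHK_op_apply`;
* `conjT hK : K →* K` (`k ↦ T k T⁻¹`), `s1Sys hK`, `s1_apply`, `s1_s1` (`s₁² = 1`);
* `chiB L : Γ₀(L*2) →* Multiplicative (ZMod 2)` (`g ↦ g₀₁ mod 2`), `isK2_kerSub_chiB`,
  `eq_kerSub : K = kerSub (chiB L)` (so that the landed `GB/B3/KerSys` applies after `subst`);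
* `coresHK hK hL : CosetSys embR K (Γ₀(L*2))` (transfer), **`res_cores : res (cores φ) = φ + s₁ φ`**,
  `cores_res : cores (res ψ) = 2 • ψ`, `exists_res_eq`;
* `distinct_of_hSa`; **`resHK_cohT`** : for `S : CosetSys embR K K` with representatives
  `embR (uT s_i) * heckeRep ℓ (e i)`: `res (cohT hℓ' ψ) = S.op (res ψ)` (`hℓ' : ¬ ℓ ∣ L * 2`).
-/
import Mathlib
import Fermat.Agent.GE8.SQ3.Delta
import Fermat.Agent.GB.B3.KerSys

set_option autoImplicit false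
set_option linter.unusedSectionVars false

open scoped MatrixGroups
open CongruenceSubgroup Matrix Matrix.SpecialLinearGroup ModularCurve.Period
open P2MW.S_ModularForm_heckeT_slash_eq_self_of_mem_Gamma0.ModularForm.HeckeSlashInvariance
open P2MW.S_ModularForm_heckeT_slash_eq_self_of_mem_Gamma0.ModularForm
open Fermat.Agent.S16_helper49
open Fermat.Agent.GM.Amalgam
open Fermat.Agent.GM.B
open Fermat.Agent.GB.B3
open Fermat.Agent.GE8.SQ3.Delta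
open scoped OnePoint

namespace Fermat.Agent.GE8.SQ3.HalfLevel

variable {L : ℕ} {K : Subgroup SL(2, ℤ)}

theorem isCoprime_two (hL : ¬ 2 ∣ L) : IsCoprime (L : ℤ) (2 : ℤ) := by
  have h2 : Nat.Coprime L 2 := ((Nat.Prime.coprime_iff_not_dvd Nat.prime_two).mpr hL).symm
  exact_mod_cast Nat.isCoprime_iff_coprime.mpr h2

/-- `K ≤ Γ₀(L * 2)` -/
theorem K_le_H (hK : IsK2 L K) (hL : ¬ 2 ∣ L) : K ≤ Gamma0 (L * 2) := by
  intro g hg
  obtain ⟨h0, -, h2⟩ := (hK g).mp hg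
  have hcL : (L : ℤ) ∣ g 1 0 := dvd_of_mem_Gamma0 ⟨g, h0⟩
  refine mem_Gamma0_of_dvd ?_
  have := (isCoprime_two hL).mul_dvd hcL h2
  exact_mod_cast this

/-- restriction `Hom(Γ₀(L*2), A) → Hom(K, A)` as a coset system -/
noncomputable def resHK (hK : IsK2 L K) (hL : ¬ 2 ∣ L) : CosetSys embR (Gamma0 (L * 2)) K :=
  CosetSys.single embR 1 (Subgroup.inclusion (K_le_H hK hL))
    (fun g => by rw [one_mul, mul_one]; rfl)

variable {A : Type*} [AddCommGroup A]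

theorem resHK_op_apply (hK : IsK2 L K) (hL : ¬ 2 ∣ L) (ψ : Additive (Gamma0 (L * 2)) →+ A)
    (k : K) :
    (resHK hK hL).op A ψ (Additive.ofMul k)
      = ψ (Additive.ofMul (Subgroup.inclusion (K_le_H hK hL) k)) :=
  CosetSys.single_op_apply _ _ _ ψ k

/-! ### conjugation by `T` -/

theorem sl_mul_apply (g h : SL(2, ℤ)) (i j : Fin 2) :
    (g * h) i j = g i 0 * h 0 j + g i 1 * h 1 j := by
  rw [Matrix.SpecialLinearGroup.coe_mul, Matrix.mul_apply, Fin.sum_univ_two]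

theorem uT_mul_uT (s t : ℤ) : uT s * uT t = uT (s + t) := by
  ext i j
  fin_cases i <;> fin_cases j <;> simp [sl_mul_apply, uT, add_comm]

theorem uT_zero : uT 0 = 1 := by
  ext i j
  fin_cases i <;> fin_cases j <;> simp [uT]

theorem uT_inv (s : ℤ) : (uT s)⁻¹ = uT (-s) := by
  rw [inv_eq_iff_mul_eq_one, uT_mul_uT, add_neg_cancel, uT_zero]

theorem conjT_mem (hK : IsK2 L K) {k : SL(2, ℤ)} (hk : k ∈ K) : uT 1 * k * (uT 1)⁻¹ ∈ K := by
  obtain ⟨h0, ⟨b', hb'⟩, ⟨c', hc'⟩⟩ := (hK k).mp hk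
  have hdet := det_eq_one k
  have hinv : (uT 1)⁻¹ = uT (-1) := uT_inv 1
  -- `a d` is odd, so `d - a` is even
  have hda : (2 : ℤ) ∣ k 1 1 - k 0 0 := by
    have h1 : k 0 0 * k 1 1 = 1 + 2 * (b' * k 1 0) := by rw [hb'] at hdet; linarith
    have hodd : Odd (k 0 0 * k 1 1) := ⟨b' * k 1 0, by rw [h1]; ring⟩
    obtain ⟨ha, hd⟩ := Int.odd_mul.mp hodd
    exact (hd.sub_odd ha).two_dvd
  obtain ⟨e', he'⟩ := hda
  rw [hK, hinv]
  have h10 : (uT 1 * k * uT (-1)) 1 0 = k 1 0 := by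
    simp [sl_mul_apply, uT]
  have h01 : (uT 1 * k * uT (-1)) 0 1 = k 0 1 + k 1 1 - k 0 0 - k 1 0 := by
    simp [sl_mul_apply, uT]
    ring
  refine ⟨mem_Gamma0_of_dvd (by rw [h10]; exact dvd_of_mem_Gamma0 ⟨k, h0⟩), ?_, ?_⟩
  · rw [h01]
    exact ⟨b' + e' - c', by rw [hb', hc'] ; linarith⟩
  · rw [h10]
    exact ⟨c', hc'⟩

/-- `k ↦ T k T⁻¹` on `K` -/
def conjT (hK : IsK2 L K) : K →* K where
  toFun k := ⟨uT 1 * (k : SL(2, ℤ)) * (uT 1)⁻¹, conjT_mem hK k.2⟩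
  map_one' := by
    apply Subtype.ext
    show uT 1 * ((1 : K) : SL(2, ℤ)) * (uT 1)⁻¹ = 1
    rw [Subgroup.coe_one, mul_one, mul_inv_cancel]
  map_mul' k k' := by
    apply Subtype.ext
    show uT 1 * ((k * k' : K) : SL(2, ℤ)) * (uT 1)⁻¹
      = (uT 1 * (k : SL(2, ℤ)) * (uT 1)⁻¹) * (uT 1 * (k' : SL(2, ℤ)) * (uT 1)⁻¹)
    rw [Subgroup.coe_mul]
    group

theorem coe_conjT (hK : IsK2 L K) (k : K) :
    ((conjT hK k : K) : SL(2, ℤ)) = uT 1 * (k : SL(2, ℤ)) * (uT 1)⁻¹ := rfl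

/-- the coset system of `s₁ = ` conjugation by `T` on `Hom(K, A)` -/
noncomputable def s1Sys (hK : IsK2 L K) : CosetSys embR K K :=
  CosetSys.single embR (embR (uT 1)) (conjT hK) (fun k => by
    rw [← map_mul, ← map_mul, coe_conjT, inv_mul_cancel_right])

theorem s1_apply (hK : IsK2 L K) (φ : Additive K →+ A) (k : K) :
    (s1Sys hK).op A φ (Additive.ofMul k) = φ (Additive.ofMul (conjT hK k)) :=
  CosetSys.single_op_apply _ _ _ φ k

/-- `s₁² = 1` (`T² ∈ K` acts trivially on `Hom(K, A)`) -/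
theorem s1_s1 (hK : IsK2 L K) (φ : Additive K →+ A) :
    (s1Sys hK).op A ((s1Sys hK).op A φ) = φ := by
  refine AddMonoidHom.ext fun k => ?_
  obtain ⟨k, rfl⟩ : ∃ k' : K, Additive.ofMul k' = k := ⟨Additive.toMul k, rfl⟩
  rw [s1_apply, s1_apply]
  set t2 : K := ⟨uT 2, uT_mem_K hK (by decide)⟩ with ht2
  have h2 : uT 2 = uT 1 * uT 1 := by rw [uT_mul_uT]; norm_num
  have e : conjT hK (conjT hK k) = t2 * k * t2⁻¹ := by
    apply Subtype.ext
    show uT 1 * (uT 1 * (k : SL(2, ℤ)) * (uT 1)⁻¹) * (uT 1)⁻¹ = uT 2 * (k : SL(2, ℤ)) * (uT 2)⁻¹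
    rw [h2]
    group
  rw [e, ofMul_mul, ofMul_mul, ofMul_inv, map_add, map_add, map_neg]
  abel

/-! ### `K` as a kernel -/

theorem cast_diag_eq_one {g : SL(2, ℤ)} (hg : (2 : ℤ) ∣ g 1 0) :
    ((g 0 0 : ℤ) : ZMod 2) = 1 ∧ ((g 1 1 : ℤ) : ZMod 2) = 1 := by
  have hdet := det_eq_one g
  have h10 : ((g 1 0 : ℤ) : ZMod 2) = 0 := by
    rw [ZMod.intCast_zmod_eq_zero_iff_dvd]
    exact_mod_cast hg
  have h1 := congrArg (Int.cast : ℤ → ZMod 2) hdet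
  push_cast at h1
  rw [h10, mul_zero, sub_zero] at h1
  revert h1
  generalize ((g 0 0 : ℤ) : ZMod 2) = a
  generalize ((g 1 1 : ℤ) : ZMod 2) = b
  revert a b
  decide

theorem two_dvd_of_mem (g : Gamma0 (L * 2)) : (2 : ℤ) ∣ (g : SL(2, ℤ)) 1 0 :=
  dvd_trans ⟨(L : ℤ), by push_cast; ring⟩ (dvd_of_mem_Gamma0 g)

/-- `g ↦ g₀₁ mod 2` on `Γ₀(L * 2)` -/
def chiB (L : ℕ) : Gamma0 (L * 2) →* Multiplicative (ZMod 2) where
  toFun g := Multiplicative.ofAdd ((((g : SL(2, ℤ)) 0 1 : ℤ)) : ZMod 2)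
  map_one' := by
    show Multiplicative.ofAdd (((((1 : Gamma0 (L * 2)) : SL(2, ℤ)) 0 1 : ℤ)) : ZMod 2) = 1
    rw [Subgroup.coe_one]
    simp
  map_mul' g h := by
    show Multiplicative.ofAdd (((((g * h : Gamma0 (L * 2)) : SL(2, ℤ)) 0 1 : ℤ)) : ZMod 2)
      = Multiplicative.ofAdd ((((g : SL(2, ℤ)) 0 1 : ℤ)) : ZMod 2)
        * Multiplicative.ofAdd ((((h : SL(2, ℤ)) 0 1 : ℤ)) : ZMod 2)
    rw [← ofAdd_add]
    congr 1
    have e : ((g * h : Gamma0 (L * 2)) : SL(2, ℤ)) 0 1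
        = (g : SL(2, ℤ)) 0 0 * (h : SL(2, ℤ)) 0 1 + (g : SL(2, ℤ)) 0 1 * (h : SL(2, ℤ)) 1 1 := by
      rw [Subgroup.coe_mul, Matrix.SpecialLinearGroup.coe_mul, Matrix.mul_apply, Fin.sum_univ_two]
    rw [e]
    push_cast
    rw [(cast_diag_eq_one (two_dvd_of_mem g)).1, (cast_diag_eq_one (two_dvd_of_mem h)).2, one_mul,
      mul_one, add_comm]

theorem chiB_apply (g : Gamma0 (L * 2)) :
    chiB L g = Multiplicative.ofAdd ((((g : SL(2, ℤ)) 0 1 : ℤ)) : ZMod 2) := rfl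

theorem chiB_eq_one_iff (g : Gamma0 (L * 2)) : chiB L g = 1 ↔ (2 : ℤ) ∣ (g : SL(2, ℤ)) 0 1 := by
  rw [chiB_apply, ← ofAdd_zero, Multiplicative.ofAdd.injective.eq_iff,
    ZMod.intCast_zmod_eq_zero_iff_dvd]
  norm_num

theorem isK2_kerSub_chiB (hL : ¬ 2 ∣ L) : IsK2 L (kerSub (chiB L)) := by
  intro g
  constructor
  · rintro ⟨g', hg', rfl⟩
    have h1 : chiB L g' = 1 := hg'
    refine ⟨mem_Gamma0_of_dvd (dvd_trans ⟨2, by push_cast; ring⟩ (dvd_of_mem_Gamma0 g')),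
      (chiB_eq_one_iff g').mp h1, two_dvd_of_mem g'⟩
  · rintro ⟨h0, h01, h10⟩
    have hcL : (L : ℤ) ∣ g 1 0 := dvd_of_mem_Gamma0 ⟨g, h0⟩
    have hmem : g ∈ Gamma0 (L * 2) := by
      refine mem_Gamma0_of_dvd ?_
      have := (isCoprime_two hL).mul_dvd hcL h10
      exact_mod_cast this
    exact ⟨⟨g, hmem⟩, (chiB_eq_one_iff ⟨g, hmem⟩).mpr h01, rfl⟩

/-- every `K` with `IsK2 L K` IS the kernel of `chiB` -/
theorem eq_kerSub (hK : IsK2 L K) (hL : ¬ 2 ∣ L) : K = kerSub (chiB L) :=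
  Subgroup.ext fun g => by rw [hK g, isK2_kerSub_chiB hL g]

/-! ### the transfer -/

/-- the section `1 ↦ 1`, `-1 ↦ T` of `chiB` -/
def rB (L : ℕ) (δ : Multiplicative (ZMod 2)) : Gamma0 (L * 2) :=
  if δ = 1 then 1 else ⟨uT 1, uT_mem_Gamma0 _ 1⟩

theorem chiB_rB (δ : Multiplicative (ZMod 2)) : chiB L (rB L δ) = δ := by
  unfold rB
  by_cases h : δ = 1
  · rw [if_pos h, map_one, h]
  · rw [if_neg h, chiB_apply]
    show Multiplicative.ofAdd (((uT 1 0 1 : ℤ)) : ZMod 2) = δ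
    have h1 : uT 1 0 1 = 1 := by simp [uT]
    rw [h1]
    revert h
    revert δ
    decide

/-- the transfer `Hom(K, A) → Hom(Γ₀(L*2), A)` as a coset system (representatives `1`, `T`) -/
noncomputable def coresHK (hK : IsK2 L K) (hL : ¬ 2 ∣ L) : CosetSys embR K (Gamma0 (L * 2)) :=
  (eq_kerSub hK hL).symm ▸ coresK (chiB L) (rB L) chiB_rB embR

/-- **`res ∘ cores = 1 + s₁`** -/
theorem res_cores (hK : IsK2 L K) (hL : ¬ 2 ∣ L) (φ : Additive K →+ A) :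
    (resHK hK hL).op A ((coresHK hK hL).op A φ) = φ + (s1Sys hK).op A φ := by
  obtain rfl := eq_kerSub hK hL
  have h := Fermat.Agent.GB.B3.res_cores (emb := embR) (chiB L) (rB L) chiB_rB φ
  have e1 : (resHK hK hL) = resK embR (chiB L) := rfl
  have e2 : coresHK hK hL = coresK (chiB L) (rB L) chiB_rB embR := rfl
  rw [e1, e2, h]
  have hsum : ∀ f : Multiplicative (ZMod 2) → (Additive (kerSub (chiB L)) →+ A),
      ∑ δ, f δ = f 1 + f (Multiplicative.ofAdd 1) := by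
    intro f
    have : (Finset.univ : Finset (Multiplicative (ZMod 2))) = {1, Multiplicative.ofAdd 1} := by
      decide
    rw [this, Finset.sum_pair (by decide)]
  rw [hsum]
  have e3 : (diaK embR (chiB L) (rB L 1)).op A φ = φ :=
    dia_of_ker (emb := embR) (chiB L) (rB L 1) (by rw [chiB_rB]) φ
  have e4 : (diaK embR (chiB L) (rB L (Multiplicative.ofAdd 1))).op A φ = (s1Sys hK).op A φ := by
    refine AddMonoidHom.ext fun k => ?_
    obtain ⟨k, rfl⟩ : ∃ k' : kerSub (chiB L), Additive.ofMul k' = k := ⟨Additive.toMul k, rfl⟩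
    rw [diaK_op_apply, s1_apply]
    rfl
  rw [e3, e4]

/-- **`cores ∘ res = 2`** -/
theorem cores_res (hK : IsK2 L K) (hL : ¬ 2 ∣ L) (ψ : Additive (Gamma0 (L * 2)) →+ A) :
    (coresHK hK hL).op A ((resHK hK hL).op A ψ) = 2 • ψ := by
  obtain rfl := eq_kerSub hK hL
  have h := Fermat.Agent.GB.B3.cores_res (emb := embR) (chiB L) (rB L) chiB_rB ψ
  have e1 : (resHK hK hL) = resK embR (chiB L) := rfl
  have e2 : coresHK hK hL = coresK (chiB L) (rB L) chiB_rB embR := rfl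
  have hc : Fintype.card (Multiplicative (ZMod 2)) = 2 := by
    rw [Fintype.card_multiplicative, ZMod.card]
  rw [e1, e2, h, hc]

/-- every `φ + s₁ φ` is a restriction from level `L * 2` -/
theorem exists_res_eq (hK : IsK2 L K) (hL : ¬ 2 ∣ L) (φ : Additive K →+ A) :
    ∃ ψ : Additive (Gamma0 (L * 2)) →+ A,
      (resHK hK hL).op A ψ = φ + (s1Sys hK).op A φ ∧
      (IsParabolicHom K φ → IsParabolicHom (Gamma0 (L * 2)) ψ) :=
  ⟨(coresHK hK hL).op A φ, res_cores hK hL φ, fun h => op_isParabolicHom _ φ h⟩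

/-! ### Hecke operators -/

variable {ℓ : ℕ} [Fact ℓ.Prime]

/-- a system on `K` with representatives `T^s α_x` is distinct modulo every `Γ₀(N)`, `ℓ ∤ N` -/
theorem distinctMod_of_hSa {N : ℕ} (hℓN : ¬ ℓ ∣ N) (S : CosetSys embR K K)
    (e : S.ι ≃ OnePoint (ZMod ℓ)) (s : S.ι → ℤ)
    (hSa : ∀ i, S.a i = embR (uT (s i)) * heckeRep ℓ (e i)) :
    S.DistinctMod (Gamma0 N) := by
  intro i j γ h
  rw [hSa, hSa] at h
  have hinv : embR (uT (-(s i))) * embR (uT (s i)) = 1 := by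
    rw [← map_mul, uT_mul_uT, neg_add_cancel, uT_zero, map_one]
  have h1 : heckeRep ℓ (e i)
      = embR (uT (-(s i))) * (embR ((γ : Gamma0 N) : SL(2, ℤ))
          * (embR (uT (s j)) * heckeRep ℓ (e j))) := by
    rw [← h, ← mul_assoc, hinv, one_mul]
  refine e.injective (heckeSys_distinct hℓN (e i) (e j)
    (⟨uT (-(s i)), uT_mem_Gamma0 N _⟩ * γ * ⟨uT (s j), uT_mem_Gamma0 N _⟩) ?_)
  show heckeRep ℓ (e i) = embR (((⟨uT (-(s i)), uT_mem_Gamma0 N _⟩ * γ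
    * ⟨uT (s j), uT_mem_Gamma0 N _⟩ : Gamma0 N) : Gamma0 N) : SL(2, ℤ)) * heckeRep ℓ (e j)
  rw [Subgroup.coe_mul, Subgroup.coe_mul, map_mul, map_mul, mul_assoc, mul_assoc]
  exact h1

theorem distinct_of_hSa (hK : IsK2 L K) (hℓ : ¬ ℓ ∣ L) (S : CosetSys embR K K)
    (e : S.ι ≃ OnePoint (ZMod ℓ)) (s : S.ι → ℤ)
    (hSa : ∀ i, S.a i = embR (uT (s i)) * heckeRep ℓ (e i)) : S.Distinct := by
  intro i j γ h
  exact distinctMod_of_hSa hℓ S e s hSa i j ⟨(γ : SL(2, ℤ)), hK.le_Gamma0 γ.2⟩ h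

/-- **restriction from level `L * 2` intertwines `cohT` with every Hecke system on `K` with
representatives `T^s α_x`.** -/
theorem resHK_cohT (hK : IsK2 L K) (hL : ¬ 2 ∣ L) (hℓ' : ¬ ℓ ∣ L * 2)
    (S : CosetSys embR K K) (e : S.ι ≃ OnePoint (ZMod ℓ)) (s : S.ι → ℤ)
    (hSa : ∀ i, S.a i = embR (uT (s i)) * heckeRep ℓ (e i))
    (ψ : Additive (Gamma0 (L * 2)) →+ A) :
    (resHK hK hL).op A (cohT hℓ' A ψ) = S.op A ((resHK hK hL).op A ψ) := by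
  rw [← heckeSys_op, ← CosetSys.op_comp, ← CosetSys.op_comp]
  have hdist : ((resHK hK hL).comp S).Distinct := by
    rintro ⟨u, i⟩ ⟨u', j⟩ γ h
    have h' : 1 * S.a i = embR ((γ : Gamma0 (L * 2)) : SL(2, ℤ)) * (1 * S.a j) := h
    rw [one_mul, one_mul] at h'
    have hij : i = j := distinctMod_of_hSa hℓ' S e s hSa i j γ h'
    subst hij
    rfl
  let e' : ((heckeSys hℓ').comp (resHK hK hL)).ι ≃ ((resHK hK hL).comp S).ι :=
    (Equiv.prodComm (OnePoint (ZMod ℓ)) Unit).trans (Equiv.prodCongr (Equiv.refl Unit) e.symm)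
  symm
  refine CosetSys.op_eq_of_cosets ((heckeSys hℓ').comp (resHK hK hL)) ((resHK hK hL).comp S)
    embR_injective hdist e' 1 (fun x => by rw [one_mul, mul_one])
    (fun p => ⟨uT (s (e.symm p.1)), uT_mem_Gamma0 _ _⟩) ?_ ψ
  rintro ⟨(x : OnePoint (ZMod ℓ)), u⟩
  show 1 * S.a (e.symm x) = 1 * embR (uT (s (e.symm x))) * (heckeRep ℓ x * 1)
  rw [one_mul, one_mul, mul_one, hSa, Equiv.apply_symm_apply]

end Fermat.Agent.GE8.SQ3.HalfLevel
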