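/-
GATE-E (S59) / RISK-6 (helper10, board 7857) / node **SQ3**, file (A) (helper90): **the abstract
core of "Mazur at `4` modulo `3` without `3` in the level"**.

Situation of the instance (`p = 3`, `L` odd, `3 ∤ L`, an auxiliary prime `r ≡ 11 (12)` in `L`):
`Γ = Γ₀(L)`, `ρ : Γ ↠ SL₂(𝔽₂) = S₃` the reduction modulo `2`, `K = ker ρ` (`≅ Γ₀(4L)` by
`diag(2,1)`), `H_i = ρ⁻¹⟨c_i⟩` the three conjugates of `Γ₀(2L)` (`c_i` the transpositions),
`G² = ρ⁻¹(A₃)`.  The step `K ◁ G²`, `G²/K = C₃`, is a `CycStep O Hom(K,O) Hom(G²,O) 3`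
(`GE8/CaseB3/CycPlug3.cycStepSL3` at `χ := ρ|G²`, whose binder `h3` is the no-conjugate-of-`U`
disjunct), and `Z` is its non-Eisenstein summand at the maximal ideal `𝔪` of `ρ̄`
(`summandOfLoc`).  The transpositions act on `Hom(K,O)` by conjugation, commute with the Hecke
operators (so preserve `Z.P = Hom(K,O)_𝔪`), their `+1`-eigenspaces are `res Hom(H_i,O)`, and
`c₁ c₂ = D`.

**`sq3_abs`** : if no `c_i` has a nonzero fixed vector in `Z.P` ("level `2L` does not occur at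
`𝔪`"), then `Z.P = ⊥` ("level `4L` does not occur at `𝔪`").

Proof: `x + c_i x` is `c_i`-fixed, so `c_i = -1` on `Z.P`, so `D = c₁ c₂ = 1` on `Z.P`; by
`Summand.tate_zero` (`Ĥ⁰ = 0` on `Z.P`) every `x ∈ Z.P` is a norm `N y = q • y`, `y ∈ Z.P`; so
`Z.P ≤ q • Z.P` and Nakayama (`q` in the Jacobson radical) gives `Z.P = ⊥`.  The only place where
"`Γ` is free" enters is inside the `CycStep` (fields `cores_surj`, `ker_cores`), which is on main.
-/
import Mathlib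
import Fermat.Agent.GB.B3.FreeCyclic

set_option autoImplicit false
set_option linter.unusedSectionVars false

namespace Fermat.Agent.GE8.SQ3.Abs

open Fermat.Agent.GB.B3.FreeCyclic

variable {O : Type*} [CommRing O] [IsDomain O] [IsPrincipalIdealRing O]
variable {L L0 : Type*} [AddCommGroup L] [Module O L] [Module.Free O L] [Module.Finite O L]
  [AddCommGroup L0] [Module O L0] [Module.Free O L0] [Module.Finite O L0]

/-- an involution without nonzero fixed vectors in a stable submodule acts by `-1` on it -/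
theorem involution_eq_neg {P : Submodule O L} (c : L →ₗ[O] L) (hcc : ∀ x, c (c x) = x)
    (hcP : ∀ x ∈ P, c x ∈ P) (hno : ∀ x ∈ P, c x = x → x = 0) {x : L} (hx : x ∈ P) :
    c x = -x := by
  have h1 : c (x + c x) = x + c x := by rw [map_add, hcc, add_comm]
  have h2 : x + c x = 0 := hno _ (P.add_mem hx (hcP x hx)) h1
  exact (neg_eq_of_add_eq_zero_right h2).symm

/-- two involutions acting by `-1` compose to the identity -/
theorem comp_eq_self {P : Submodule O L} (c₁ c₂ : L →ₗ[O] L)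
    (h₁ : ∀ x ∈ P, c₁ x = -x) (h₂ : ∀ x ∈ P, c₂ x = -x) {x : L} (hx : x ∈ P) :
    c₁ (c₂ x) = x := by
  rw [h₂ x hx, map_neg, h₁ x hx, neg_neg]

variable {q : ℕ} (S : CycStep O L L0 q) (Z : S.Summand)

/-- if `D` is the identity on the non-Eisenstein summand `P`, then `P ≤ q • P` -/
theorem le_smul_of_D_eq_one (hq : (q : O) ≠ 0) (hD : ∀ x ∈ Z.P, S.D x = x) :
    Z.P ≤ (Ideal.span {(q : O)}) • Z.P := by
  intro x hx
  obtain ⟨y, hy, rfl⟩ := Z.tate_zero hq hx (hD x hx)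
  rw [CycStep.Summand.norm_eq_smul_of_fixed (hD y hy)]
  exact Submodule.smul_mem_smul (Ideal.mem_span_singleton_self _) hy

/-- **Nakayama**: if `D` is the identity on `P` and `q` lies in the Jacobson radical, `P = ⊥` -/
theorem eq_bot_of_D_eq_one (hq : (q : O) ≠ 0)
    (hjac : (q : O) ∈ Ideal.jacobson (⊥ : Ideal O)) (hD : ∀ x ∈ Z.P, S.D x = x) :
    Z.P = ⊥ := by
  have hfg : Z.P.FG := IsNoetherian.noetherian Z.P
  refine Submodule.eq_bot_of_le_smul_of_le_jacobson_bot (Ideal.span {(q : O)}) Z.P hfg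
    (le_smul_of_D_eq_one S Z hq hD) ?_
  rw [Ideal.span_singleton_le_iff_mem]
  exact hjac

/-- **the abstract core of SQ3**: a cyclic step of order `q` (`q` in the Jacobson radical of `O`)
whose generator `D` is, on the non-Eisenstein summand `P`, the product of two involutions `c₁`,
`c₂` preserving `P`; if neither involution has a nonzero fixed vector in `P`, then `P = ⊥`. -/
theorem sq3_abs (hq : (q : O) ≠ 0) (hjac : (q : O) ∈ Ideal.jacobson (⊥ : Ideal O))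
    (c₁ c₂ : L →ₗ[O] L) (hc₁ : ∀ x, c₁ (c₁ x) = x) (hc₂ : ∀ x, c₂ (c₂ x) = x)
    (hc₁P : ∀ x ∈ Z.P, c₁ x ∈ Z.P) (hc₂P : ∀ x ∈ Z.P, c₂ x ∈ Z.P)
    (hD : ∀ x ∈ Z.P, S.D x = c₁ (c₂ x))
    (hno₁ : ∀ x ∈ Z.P, c₁ x = x → x = 0) (hno₂ : ∀ x ∈ Z.P, c₂ x = x → x = 0) :
    Z.P = ⊥ := by
  refine eq_bot_of_D_eq_one S Z hq hjac fun x hx => ?_
  rw [hD x hx]
  exact comp_eq_self c₁ c₂ (fun y hy => involution_eq_neg c₁ hc₁ hc₁P hno₁ hy)
    (fun y hy => involution_eq_neg c₂ hc₂ hc₂P hno₂ hy) hx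

/-- contrapositive, consumer form: if the summand `P` is nonzero, one of the two involutions has a
nonzero fixed vector in `P` ("level `4L` at `𝔪` ⟹ level `2L` at `𝔪`"). -/
theorem exists_fixed_of_ne_bot (hq : (q : O) ≠ 0)
    (hjac : (q : O) ∈ Ideal.jacobson (⊥ : Ideal O))
    (c₁ c₂ : L →ₗ[O] L) (hc₁ : ∀ x, c₁ (c₁ x) = x) (hc₂ : ∀ x, c₂ (c₂ x) = x)
    (hc₁P : ∀ x ∈ Z.P, c₁ x ∈ Z.P) (hc₂P : ∀ x ∈ Z.P, c₂ x ∈ Z.P)
    (hD : ∀ x ∈ Z.P, S.D x = c₁ (c₂ x)) (hP : Z.P ≠ ⊥) :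
    (∃ x ∈ Z.P, x ≠ 0 ∧ c₁ x = x) ∨ (∃ x ∈ Z.P, x ≠ 0 ∧ c₂ x = x) := by
  by_contra hcon
  rw [not_or] at hcon
  obtain ⟨h1, h2⟩ := hcon
  refine hP (sq3_abs S Z hq hjac c₁ c₂ hc₁ hc₂ hc₁P hc₂P hD ?_ ?_)
  · intro x hx hfix
    by_contra hx0
    exact h1 ⟨x, hx, hx0, hfix⟩
  · intro x hx hfix
    by_contra hx0
    exact h2 ⟨x, hx, hx0, hfix⟩

/-- for a local ring, the Jacobson hypothesis is `q ∈ 𝔪_O` -/
theorem mem_jacobson_bot_of_mem_maximalIdeal [IsLocalRing O] {a : O}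
    (ha : a ∈ IsLocalRing.maximalIdeal O) : a ∈ Ideal.jacobson (⊥ : Ideal O) := by
  rw [IsLocalRing.jacobson_eq_maximalIdeal ⊥ bot_ne_top]
  exact ha

end Fermat.Agent.GE8.SQ3.Abs
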