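/-
GATE-E (S59) / RISK-6 (helper10, board 7857 / ruling 7897) / node **SQ3**, file (B1) (helper33):
**the cyclic step `K ◁ G²` of order `q` inside a NON-commutative quotient**, as a
`FreeCyclic.CycStep` on the NATURAL spellings

  `L  = Hom(kerSub ρ, O)`          (`K  = ker ρ`,        `ρ : Γ₀ →* Σ`, `Σ` ANY group, e.g. `SL₂(𝔽₂)`),
  `L0 = Hom(kerSub (π ∘ ρ), O)`    (`G² = ker (π ∘ ρ)`,  `π : Σ →* Δ''` with `ker π` cyclic of order `q`).

`GB/B3/CycInst2.cycStepKK` / `GE8/CaseB3/CycPlug3.cycStepKKSL3` ask for `Σ` COMMUTATIVE; here `Σ = S₃`.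
Route (ruling 7897): the ABSOLUTE step `cycStepSL3` at `Γ := G² = kerSub (π ∘ ρ)`, `χ := chiU ρ π : G² →* ker π`
(`ker π` commutative), `S := kerSys S₀ (π ∘ ρ) _`; then TRANSPORT along `kerSub (chiU ρ π) = kerSub ρ`.

* `chiU`, `kerSub_chiU`, `toK`, `ofK`, `homCongr` : the two levels;
* `transport` : a `CycStep` along a linear equivalence of `L`;
* `cycStepU` (on `Hom(kerSub (chiU ρ π), O)`), **`cycStepK`** (on `Hom(kerSub ρ, O)`);
* the fields of `cycStepK` in closed form: `cycStepK_D` (`= ⟨d0⟩ = diaK emb ρ d0`), `cycStepK_res_apply`,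
  `cycStepK_t`, `cycStepK_t0`; Hecke equivariance for EVERY `ρ`-compatible system `S₁` on `Γ₀`:
  `cycStepK_D_kerSys`, `cycStepK_cores_kerSys`, `cycStepK_res_kerSys`;
* the two involutions: `dia_dia_of_mul_mem_ker`, `dia_mul'` (`⟨τ₁ τ₂⟩ = ⟨τ₂⟩ ∘ ⟨τ₁⟩`);
* **`exists_fixed_of_summand_ne_bot`** : helper90's `Abs.exists_fixed_of_ne_bot` at `cycStepK`, `c₁ := ⟨τ₂⟩`,
  `c₂ := ⟨τ₁⟩`, `d0 = τ₁ τ₂`, `τᵢ² ∈ K`: a nonzero summand `Z.P` of `Hom(K, O)` contains a nonzero vector fixed by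
  `⟨τ₁⟩` or by `⟨τ₂⟩` ("level `4L` at `𝔪` ⟹ level `2L` at `𝔪`").
-/
import Mathlib
import Fermat.Agent.GE8.CaseB3.CycPlug3
import Fermat.Agent.GE8.SQ3.Abs

set_option autoImplicit false
set_option linter.unusedSectionVars false
set_option linter.style.haveILetI false

open scoped MatrixGroups

namespace Fermat.Agent.GE8.SQ3.CycInst

open Fermat.Agent.GM.B Fermat.Agent.GB.B3 Fermat.Agent.GB.B3.FreeCyclic
  Fermat.Agent.GB.B3.CycInst

/-! ### the two levels of a (non-commutative) quotient -/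

section TwoLevel

variable {H G : Type*} [Group H] [Group G] {emb : H →* G} {Γ₀ : Subgroup H}
  {Sg Dl : Type} [Group Sg] [Group Dl] (ρ : Γ₀ →* Sg) (π : Sg →* Dl)

theorem kerSub_le_kerSub_comp : kerSub ρ ≤ kerSub (π.comp ρ) := by
  rintro _ ⟨g, hg, rfl⟩
  refine ⟨g, ?_, rfl⟩
  show π (ρ g) = 1
  have : ρ g = 1 := hg
  rw [this, map_one]

/-- the inclusion `K → G²` -/
def upInclU : kerSub ρ →* kerSub (π.comp ρ) := Subgroup.inclusion (kerSub_le_kerSub_comp ρ π)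

@[simp] theorem kerIncl_upInclU (k : kerSub ρ) :
    kerIncl (π.comp ρ) (upInclU ρ π k) = kerIncl ρ k := rfl

/-- compatibility passes to the upper level -/
theorem compat_comp {S₀ : CosetSys emb Γ₀ Γ₀} (h₀ : Compat S₀ ρ) : Compat S₀ (π.comp ρ) := by
  intro g i
  show π (ρ (S₀.c g i)) = π (ρ g)
  rw [h₀]

/-- **the character of the upper level** `G² = ker (π ∘ ρ)` with values in `ker π` -/
def chiU : kerSub (π.comp ρ) →* π.ker :=
  (ρ.comp (kerIncl (π.comp ρ))).codRestrict π.ker (fun g => chi_kerIncl (π.comp ρ) g)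

@[simp] theorem coe_chiU (g : kerSub (π.comp ρ)) :
    ((chiU ρ π g : π.ker) : Sg) = ρ (kerIncl (π.comp ρ) g) := rfl

theorem chiU_eq_one_iff (g : kerSub (π.comp ρ)) :
    chiU ρ π g = 1 ↔ ρ (kerIncl (π.comp ρ) g) = 1 := by
  rw [← coe_chiU]
  constructor
  · intro h
    rw [h]
    rfl
  · intro h
    exact Subtype.ext h

/-- **the kernel of `chiU` is `K = ker ρ`** (as subgroups of the ambient group) -/
theorem kerSub_chiU : kerSub (chiU ρ π) = kerSub ρ := by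
  ext x
  constructor
  · rintro ⟨g, hg, rfl⟩
    exact ⟨kerIncl (π.comp ρ) g, (chiU_eq_one_iff ρ π g).1 hg, rfl⟩
  · rintro ⟨g, hg, rfl⟩
    have hg' : ρ g = 1 := hg
    have h1 : (π.comp ρ) g = 1 := by
      show π (ρ g) = 1
      rw [hg', map_one]
    exact ⟨kerMk (π.comp ρ) g h1, (chiU_eq_one_iff ρ π _).2 hg', rfl⟩

/-- `K → ker (chiU)` -/
def toK : kerSub ρ →* kerSub (chiU ρ π) where
  toFun k := kerMk (chiU ρ π) (upInclU ρ π k) ((chiU_eq_one_iff ρ π _).2 (chi_kerIncl ρ k))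
  map_one' := Subtype.ext rfl
  map_mul' _ _ := Subtype.ext rfl

/-- `ker (chiU) → K` -/
def ofK : kerSub (chiU ρ π) →* kerSub ρ where
  toFun k := kerMk ρ (kerIncl (π.comp ρ) (kerIncl (chiU ρ π) k))
    ((chiU_eq_one_iff ρ π _).1 (chi_kerIncl (chiU ρ π) k))
  map_one' := Subtype.ext rfl
  map_mul' _ _ := Subtype.ext rfl

@[simp] theorem coe_toK (k : kerSub ρ) : ((toK ρ π k : kerSub (chiU ρ π)) : H) = (k : H) := rfl

@[simp] theorem coe_ofK (k : kerSub (chiU ρ π)) : ((ofK ρ π k : kerSub ρ) : H) = (k : H) := rfl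

@[simp] theorem ofK_toK (k : kerSub ρ) : ofK ρ π (toK ρ π k) = k := Subtype.ext rfl

@[simp] theorem toK_ofK (k : kerSub (chiU ρ π)) : toK ρ π (ofK ρ π k) = k := Subtype.ext rfl

theorem kerIncl_toK (k : kerSub ρ) : kerIncl (chiU ρ π) (toK ρ π k) = upInclU ρ π k := rfl

variable (O : Type*) [CommRing O]

/-- **`Hom(ker chiU, O) ≃ Hom(K, O)`** -/
def homCongr : (Additive (kerSub (chiU ρ π)) →+ O) ≃ₗ[O] (Additive (kerSub ρ) →+ O) where
  toFun ψ := ψ.comp (MonoidHom.toAdditive (toK ρ π))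
  invFun φ := φ.comp (MonoidHom.toAdditive (ofK ρ π))
  map_add' _ _ := AddMonoidHom.ext fun _ => rfl
  map_smul' _ _ := AddMonoidHom.ext fun _ => rfl
  left_inv ψ := by
    refine AddMonoidHom.ext fun k => ?_
    obtain ⟨k, rfl⟩ : ∃ k' : kerSub (chiU ρ π), Additive.ofMul k' = k := ⟨Additive.toMul k, rfl⟩
    show ψ (Additive.ofMul (toK ρ π (ofK ρ π k))) = ψ (Additive.ofMul k)
    rw [toK_ofK]
  right_inv φ := by
    refine AddMonoidHom.ext fun k => ?_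
    obtain ⟨k, rfl⟩ : ∃ k' : kerSub ρ, Additive.ofMul k' = k := ⟨Additive.toMul k, rfl⟩
    show φ (Additive.ofMul (ofK ρ π (toK ρ π k))) = φ (Additive.ofMul k)
    rw [ofK_toK]

variable {O}

theorem homCongr_apply (ψ : Additive (kerSub (chiU ρ π)) →+ O) (k : kerSub ρ) :
    homCongr ρ π O ψ (Additive.ofMul k) = ψ (Additive.ofMul (toK ρ π k)) := rfl

theorem homCongr_symm_apply (φ : Additive (kerSub ρ) →+ O) (k : kerSub (chiU ρ π)) :
    (homCongr ρ π O).symm φ (Additive.ofMul k) = φ (Additive.ofMul (ofK ρ π k)) := rfl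

end TwoLevel

/-! ### transport of a cyclic step along a linear equivalence of `L` -/

section Transport

variable {O L L' L0 : Type*} [CommRing O] [AddCommGroup L] [Module O L] [AddCommGroup L']
  [Module O L'] [AddCommGroup L0] [Module O L0] {q : ℕ}

/-- conjugation of an endomorphism by a linear equivalence -/
def conjE (E : L ≃ₗ[O] L') (f : L →ₗ[O] L) : L' →ₗ[O] L' :=
  E.toLinearMap ∘ₗ f ∘ₗ E.symm.toLinearMap

@[simp] theorem conjE_apply (E : L ≃ₗ[O] L') (f : L →ₗ[O] L) (x : L') :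
    conjE E f x = E (f (E.symm x)) := rfl

theorem conjE_pow_apply (E : L ≃ₗ[O] L') (f : L →ₗ[O] L) (n : ℕ) (x : L') :
    ((conjE E f) ^ n) x = E ((f ^ n) (E.symm x)) := by
  induction n generalizing x with
  | zero => rw [pow_zero, pow_zero, Module.End.one_apply, Module.End.one_apply, E.apply_symm_apply]
  | succ n ih =>
    rw [pow_succ, Module.End.mul_apply, ih, conjE_apply, E.symm_apply_apply, pow_succ,
      Module.End.mul_apply]

/-- **transport of a cyclic step** along `E : L ≃ₗ[O] L'` -/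
def transport (S : CycStep O L L0 q) (E : L ≃ₗ[O] L') : CycStep O L' L0 q where
  D := conjE E S.D
  res := E.toLinearMap ∘ₗ S.res
  cores := S.cores ∘ₗ E.symm.toLinearMap
  t := conjE E S.t
  t0 := S.t0
  D_pow := by
    refine LinearMap.ext fun x => ?_
    rw [conjE_pow_apply, S.D_pow, Module.End.one_apply, Module.End.one_apply, E.apply_symm_apply]
  res_cores x := by
    show E (S.res (S.cores (E.symm x))) = _
    rw [S.res_cores, map_sum]
    refine Finset.sum_congr rfl fun i _ => ?_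
    rw [conjE_pow_apply]
  cores_res y := by
    show S.cores (E.symm (E (S.res y))) = _
    rw [E.symm_apply_apply, S.cores_res]
  cores_surj := S.cores_surj.comp E.symm.surjective
  ker_cores x hx := by
    obtain ⟨y, hy⟩ := S.ker_cores (E.symm x) hx
    refine ⟨E y, ?_⟩
    rw [conjE_apply, E.symm_apply_apply, ← map_sub, ← hy, E.apply_symm_apply]
  t_D x := by
    rw [conjE_apply, conjE_apply, conjE_apply, conjE_apply, E.symm_apply_apply, E.symm_apply_apply,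
      S.t_D]
  res_t0 y := by
    show E (S.res (S.t0 y)) = E (S.t (E.symm (E (S.res y))))
    rw [E.symm_apply_apply, S.res_t0]
  cores_t x := by
    show S.cores (E.symm (E (S.t (E.symm x)))) = S.t0 (S.cores (E.symm x))
    rw [E.symm_apply_apply, S.cores_t]
  eis ψ := by
    rintro ⟨z, hz⟩
    refine S.eis ψ ⟨E.symm z, ?_⟩
    have hz' : E (S.res ψ) = (q : O) • z := hz
    rw [← map_smul, ← hz', E.symm_apply_apply]

@[simp] theorem transport_D (S : CycStep O L L0 q) (E : L ≃ₗ[O] L') (x : L') :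
    (transport S E).D x = E (S.D (E.symm x)) := rfl

@[simp] theorem transport_res (S : CycStep O L L0 q) (E : L ≃ₗ[O] L') (y : L0) :
    (transport S E).res y = E (S.res y) := rfl

@[simp] theorem transport_cores (S : CycStep O L L0 q) (E : L ≃ₗ[O] L') (x : L') :
    (transport S E).cores x = S.cores (E.symm x) := rfl

@[simp] theorem transport_t (S : CycStep O L L0 q) (E : L ≃ₗ[O] L') (x : L') :
    (transport S E).t x = E (S.t (E.symm x)) := rfl

@[simp] theorem transport_t0 (S : CycStep O L L0 q) (E : L ≃ₗ[O] L') :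
    (transport S E).t0 = S.t0 := rfl

end Transport

/-! ### the cyclic step `K ◁ G²` -/

section Step

variable {G : Type*} [Group G] {emb : SL(2,ℤ) →* G} (hemb : Function.Injective emb)
variable {Γ₀ : Subgroup SL(2,ℤ)} {Sg Dl : Type} [Group Sg] [Group Dl]
  (ρ : Γ₀ →* Sg) (π : Sg →* Dl) [Fintype π.ker]
  (S₀ : CosetSys emb Γ₀ Γ₀) (h₀ : Compat S₀ ρ)
variable [Fintype (SL(2,ℤ) ⧸ kerSub (π.comp ρ))] [DecidableEq (SL(2,ℤ) ⧸ kerSub (π.comp ρ))]
  [Fintype (SL(2,ℤ) ⧸ kerSub (chiU ρ π))] [DecidableEq (SL(2,ℤ) ⧸ kerSub (chiU ρ π))]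
variable (O : Type*) [CommRing O] [Module.IsTorsionFree ℤ O] (q : ℕ) (d0 : kerSub (π.comp ρ))
  (r : π.ker → kerSub (π.comp ρ)) (hr : ∀ δ, chiU ρ π (r δ) = δ)

/-- the commutative group structure of a commutative `ker π` -/
@[reducible] def kerCommGroup (hcomm : ∀ a b : π.ker, a * b = b * a) : CommGroup π.ker :=
  { (inferInstance : Group π.ker) with mul_comm := hcomm }

omit [Fintype π.ker] in
/-- the restricted system on `G²` is compatible with `chiU` -/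
theorem compat_chiU {S₀ : CosetSys emb Γ₀ Γ₀} (h₀ : Compat S₀ ρ) :
    Compat (kerSys S₀ (π.comp ρ) (compat_comp ρ π h₀)) (chiU ρ π) := by
  intro g i
  apply Subtype.ext
  exact h₀ (kerIncl (π.comp ρ) g) i

/-- **the absolute cyclic step at `Γ := G²`, `χ := chiU ρ π`** (`cycStepSL3`) -/
noncomputable def cycStepU (hcomm : ∀ a b : π.ker, a * b = b * a)
    (hord : orderOf (chiU ρ π d0) = q) (hcard : Fintype.card π.ker = q)
    (hq : ∀ a : O, (q : O) * a = 0 → a = 0) (hneg : (-1 : SL(2,ℤ)) ∈ kerSub ρ) (h2 : ¬ 2 ∣ q)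
    (h3 : ¬ 3 ∣ q ∨ ∀ g : SL(2,ℤ), g⁻¹ * (ModularGroup.S * ModularGroup.T) * g ∉ Γ₀) :
    CycStep O (Additive (kerSub (chiU ρ π)) →+ O) (Additive (kerSub (π.comp ρ)) →+ O) q := by
  letI : CommGroup π.ker := kerCommGroup π hcomm
  exact Fermat.Agent.GE8.CaseB3.CycPlug3.cycStepSL3 hemb (chiU ρ π) r hr
    (kerSys S₀ (π.comp ρ) (compat_comp ρ π h₀)) (compat_chiU ρ π h₀) O q d0 hord hcard hq
    (by rw [kerSub_chiU]; exact hneg) h2
    (h3.imp id (fun hf g hg => hf g (kerSub_le (π.comp ρ) hg)))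

/-- **the cyclic step `K ◁ G²`** on `Hom(kerSub ρ, O)`, `Hom(kerSub (π ∘ ρ), O)` -/
noncomputable def cycStepK (hcomm : ∀ a b : π.ker, a * b = b * a)
    (hord : orderOf (chiU ρ π d0) = q) (hcard : Fintype.card π.ker = q)
    (hq : ∀ a : O, (q : O) * a = 0 → a = 0) (hneg : (-1 : SL(2,ℤ)) ∈ kerSub ρ) (h2 : ¬ 2 ∣ q)
    (h3 : ¬ 3 ∣ q ∨ ∀ g : SL(2,ℤ), g⁻¹ * (ModularGroup.S * ModularGroup.T) * g ∉ Γ₀) :
    CycStep O (Additive (kerSub ρ) →+ O) (Additive (kerSub (π.comp ρ)) →+ O) q :=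
  transport (cycStepU hemb ρ π S₀ h₀ O q d0 r hr hcomm hord hcard hq hneg h2 h3) (homCongr ρ π O)

end Step

/-! ### the fields of `cycStepK` in closed form -/

section Fields

variable {G : Type*} [Group G] {emb : SL(2,ℤ) →* G} (hemb : Function.Injective emb)
variable {Γ₀ : Subgroup SL(2,ℤ)} {Sg Dl : Type} [Group Sg] [Group Dl]
  (ρ : Γ₀ →* Sg) (π : Sg →* Dl) [Fintype π.ker]
  (S₀ : CosetSys emb Γ₀ Γ₀) (h₀ : Compat S₀ ρ)
variable [Fintype (SL(2,ℤ) ⧸ kerSub (π.comp ρ))] [DecidableEq (SL(2,ℤ) ⧸ kerSub (π.comp ρ))]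
  [Fintype (SL(2,ℤ) ⧸ kerSub (chiU ρ π))] [DecidableEq (SL(2,ℤ) ⧸ kerSub (chiU ρ π))]
variable (O : Type*) [CommRing O] [Module.IsTorsionFree ℤ O] (q : ℕ) (d0 : kerSub (π.comp ρ))
  (r : π.ker → kerSub (π.comp ρ)) (hr : ∀ δ, chiU ρ π (r δ) = δ)
  (hcomm : ∀ a b : π.ker, a * b = b * a)
  (hord : orderOf (chiU ρ π d0) = q) (hcard : Fintype.card π.ker = q)
  (hq : ∀ a : O, (q : O) * a = 0 → a = 0) (hneg : (-1 : SL(2,ℤ)) ∈ kerSub ρ) (h2 : ¬ 2 ∣ q)
  (h3 : ¬ 3 ∣ q ∨ ∀ g : SL(2,ℤ), g⁻¹ * (ModularGroup.S * ModularGroup.T) * g ∉ Γ₀)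

theorem cycStepU_D :
    (cycStepU hemb ρ π S₀ h₀ O q d0 r hr hcomm hord hcard hq hneg h2 h3).D
      = opLin O (diaK emb (chiU ρ π) d0) := rfl

theorem cycStepU_res :
    (cycStepU hemb ρ π S₀ h₀ O q d0 r hr hcomm hord hcard hq hneg h2 h3).res
      = opLin O (resK emb (chiU ρ π)) := rfl

theorem cycStepU_t :
    (cycStepU hemb ρ π S₀ h₀ O q d0 r hr hcomm hord hcard hq hneg h2 h3).t
      = opLin O (kerSys (kerSys S₀ (π.comp ρ) (compat_comp ρ π h₀)) (chiU ρ π)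
          (compat_chiU ρ π h₀)) - Fintype.card S₀.ι • LinearMap.id := rfl

theorem cycStepU_t0 :
    (cycStepU hemb ρ π S₀ h₀ O q d0 r hr hcomm hord hcard hq hneg h2 h3).t0
      = opLin O (kerSys S₀ (π.comp ρ) (compat_comp ρ π h₀))
          - Fintype.card S₀.ι • LinearMap.id := rfl

/-- the diamond of `d0` on `Hom(ker chiU, O)` is, through `homCongr`, conjugation by `d0` on
`Hom(K, O)` -/
theorem homCongr_dia (d : kerSub (π.comp ρ)) (ψ : Additive (kerSub (chiU ρ π)) →+ O) :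
    homCongr ρ π O ((diaK emb (chiU ρ π) d).op O ψ)
      = (diaK emb ρ (kerIncl (π.comp ρ) d)).op O (homCongr ρ π O ψ) := by
  refine AddMonoidHom.ext fun k => ?_
  obtain ⟨k, rfl⟩ : ∃ k' : kerSub ρ, Additive.ofMul k' = k := ⟨Additive.toMul k, rfl⟩
  rw [homCongr_apply, diaK_op_apply, diaK_op_apply, homCongr_apply]
  congr 2

/-- the restricted system of `S₁` on `Hom(ker chiU, O)` is, through `homCongr`, the restricted
system of `S₁` on `Hom(K, O)` -/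
theorem homCongr_kerSys (S₁ : CosetSys emb Γ₀ Γ₀) (h₁ : Compat S₁ ρ)
    (ψ : Additive (kerSub (chiU ρ π)) →+ O) :
    homCongr ρ π O ((kerSys (kerSys S₁ (π.comp ρ) (compat_comp ρ π h₁)) (chiU ρ π)
        (compat_chiU ρ π h₁)).op O ψ)
      = (kerSys S₁ ρ h₁).op O (homCongr ρ π O ψ) := by
  refine AddMonoidHom.ext fun k => ?_
  obtain ⟨k, rfl⟩ : ∃ k' : kerSub ρ, Additive.ofMul k' = k := ⟨Additive.toMul k, rfl⟩
  rw [homCongr_apply, CosetSys.op_apply, CosetSys.op_apply]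
  refine Finset.sum_congr rfl fun i _ => ?_
  rw [homCongr_apply]
  congr 2

/-- restriction `Hom(G², O) → Hom(ker chiU, O)` is, through `homCongr`, restriction to `K` -/
theorem homCongr_res (y : Additive (kerSub (π.comp ρ)) →+ O) (k : kerSub ρ) :
    homCongr ρ π O ((resK emb (chiU ρ π)).op O y) (Additive.ofMul k)
      = y (Additive.ofMul (upInclU ρ π k)) := by
  rw [homCongr_apply, resK_op_apply, kerIncl_toK]

/-- **`D` = conjugation by `d0`** on `Hom(K, O)` -/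
theorem cycStepK_D :
    (cycStepK hemb ρ π S₀ h₀ O q d0 r hr hcomm hord hcard hq hneg h2 h3).D
      = opLin O (diaK emb ρ (kerIncl (π.comp ρ) d0)) := by
  refine LinearMap.ext fun φ => ?_
  show homCongr ρ π O ((diaK emb (chiU ρ π) d0).op O ((homCongr ρ π O).symm φ)) = _
  rw [homCongr_dia, LinearEquiv.apply_symm_apply]
  rfl

/-- **`res` = restriction to `K`** -/
theorem cycStepK_res_apply (y : Additive (kerSub (π.comp ρ)) →+ O) (k : kerSub ρ) :
    (cycStepK hemb ρ π S₀ h₀ O q d0 r hr hcomm hord hcard hq hneg h2 h3).res y (Additive.ofMul k)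
      = y (Additive.ofMul (upInclU ρ π k)) :=
  homCongr_res ρ π O y k

/-- **`t = T^K - card ι`** with `T^K` the restricted system of `S₀` on `K` -/
theorem cycStepK_t :
    (cycStepK hemb ρ π S₀ h₀ O q d0 r hr hcomm hord hcard hq hneg h2 h3).t
      = opLin O (kerSys S₀ ρ h₀) - Fintype.card S₀.ι • LinearMap.id := by
  refine LinearMap.ext fun φ => ?_
  show homCongr ρ π O ((cycStepU hemb ρ π S₀ h₀ O q d0 r hr hcomm hord hcard hq hneg h2 h3).t
    ((homCongr ρ π O).symm φ)) = _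
  rw [cycStepU_t, LinearMap.sub_apply, LinearMap.smul_apply, LinearMap.id_apply, map_sub, map_nsmul,
    LinearEquiv.apply_symm_apply, opLin_apply, homCongr_kerSys, LinearEquiv.apply_symm_apply,
    LinearMap.sub_apply, LinearMap.smul_apply, LinearMap.id_apply, opLin_apply]

/-- **`t0 = T^{G²} - card ι`** -/
theorem cycStepK_t0 :
    (cycStepK hemb ρ π S₀ h₀ O q d0 r hr hcomm hord hcard hq hneg h2 h3).t0
      = opLin O (kerSys S₀ (π.comp ρ) (compat_comp ρ π h₀))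
          - Fintype.card S₀.ι • LinearMap.id := rfl

/-! Hecke equivariance, for EVERY `ρ`-compatible coset system `S₁` on `Γ₀` -/

/-- **`D` commutes with `T^K`** -/
theorem cycStepK_D_kerSys (S₁ : CosetSys emb Γ₀ Γ₀) (h₁ : Compat S₁ ρ)
    (x : Additive (kerSub ρ) →+ O) :
    (cycStepK hemb ρ π S₀ h₀ O q d0 r hr hcomm hord hcard hq hneg h2 h3).D
        (opLin O (kerSys S₁ ρ h₁) x)
      = opLin O (kerSys S₁ ρ h₁)
        ((cycStepK hemb ρ π S₀ h₀ O q d0 r hr hcomm hord hcard hq hneg h2 h3).D x) := by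
  rw [cycStepK_D, opLin_apply, opLin_apply, opLin_apply, opLin_apply,
    dia_kerSys_op hemb S₁ ρ h₁ (kerIncl (π.comp ρ) d0) x]

/-- **`cores ∘ T^K = T^{G²} ∘ cores`** -/
theorem cycStepK_cores_kerSys (S₁ : CosetSys emb Γ₀ Γ₀) (h₁ : Compat S₁ ρ)
    (x : Additive (kerSub ρ) →+ O) :
    (cycStepK hemb ρ π S₀ h₀ O q d0 r hr hcomm hord hcard hq hneg h2 h3).cores
        (opLin O (kerSys S₁ ρ h₁) x)
      = opLin O (kerSys S₁ (π.comp ρ) (compat_comp ρ π h₁))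
        ((cycStepK hemb ρ π S₀ h₀ O q d0 r hr hcomm hord hcard hq hneg h2 h3).cores x) := by
  have e : (homCongr ρ π O).symm ((kerSys S₁ ρ h₁).op O x)
      = (kerSys (kerSys S₁ (π.comp ρ) (compat_comp ρ π h₁)) (chiU ρ π)
          (compat_chiU ρ π h₁)).op O ((homCongr ρ π O).symm x) := by
    rw [LinearEquiv.symm_apply_eq, homCongr_kerSys, LinearEquiv.apply_symm_apply]
  show (coresK (chiU ρ π) r hr emb).op O ((homCongr ρ π O).symm ((kerSys S₁ ρ h₁).op O x))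
    = (kerSys S₁ (π.comp ρ) (compat_comp ρ π h₁)).op O
      ((coresK (chiU ρ π) r hr emb).op O ((homCongr ρ π O).symm x))
  rw [e]
  exact cores_kerSys_op (chiU ρ π) r hr hemb (kerSys S₁ (π.comp ρ) (compat_comp ρ π h₁))
    (compat_chiU ρ π h₁) ((homCongr ρ π O).symm x)

/-- **`res ∘ T^{G²} = T^K ∘ res`** -/
theorem cycStepK_res_kerSys (S₁ : CosetSys emb Γ₀ Γ₀) (h₁ : Compat S₁ ρ)
    (y : Additive (kerSub (π.comp ρ)) →+ O) :
    (cycStepK hemb ρ π S₀ h₀ O q d0 r hr hcomm hord hcard hq hneg h2 h3).res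
        (opLin O (kerSys S₁ (π.comp ρ) (compat_comp ρ π h₁)) y)
      = opLin O (kerSys S₁ ρ h₁)
        ((cycStepK hemb ρ π S₀ h₀ O q d0 r hr hcomm hord hcard hq hneg h2 h3).res y) := by
  show homCongr ρ π O ((resK emb (chiU ρ π)).op O
      ((kerSys S₁ (π.comp ρ) (compat_comp ρ π h₁)).op O y))
    = (kerSys S₁ ρ h₁).op O (homCongr ρ π O ((resK emb (chiU ρ π)).op O y))
  rw [← kerSys_op_res (kerSys S₁ (π.comp ρ) (compat_comp ρ π h₁)) (chiU ρ π)
    (compat_chiU ρ π h₁) y, homCongr_kerSys]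

end Fields

/-! ### the involutions: conjugation by `τ ∈ Γ₀` on `Hom(K, O)` -/

section Involutions

variable {H G : Type*} [Group H] [Group G] {emb : H →* G} {Γ₀ : Subgroup H}
  {Sg : Type} [Group Sg] (ρ : Γ₀ →* Sg) {O : Type*} [AddCommGroup O]

/-- conjugation by `τ` with `τ² ∈ K` is an involution of `Hom(K, O)` -/
theorem dia_dia_of_mul_mem_ker (τ : Γ₀) (hτ : ρ (τ * τ) = 1) (ψ : Additive (kerSub ρ) →+ O) :
    (diaK emb ρ τ).op O ((diaK emb ρ τ).op O ψ) = ψ := by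
  rw [← dia_mul, dia_of_ker ρ (τ * τ) hτ]

/-- conjugation by `τ₁ τ₂` is `⟨τ₂⟩ ∘ ⟨τ₁⟩` -/
theorem dia_mul' (τ₁ τ₂ : Γ₀) (ψ : Additive (kerSub ρ) →+ O) :
    (diaK emb ρ (τ₁ * τ₂)).op O ψ = (diaK emb ρ τ₂).op O ((diaK emb ρ τ₁).op O ψ) :=
  dia_mul ρ τ₂ τ₁ ψ

end Involutions

/-! ### the consumer form: a nonzero summand has a vector fixed by one of the two involutions -/

section Fixed

variable {G : Type*} [Group G] {emb : SL(2,ℤ) →* G} (hemb : Function.Injective emb)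
variable {Γ₀ : Subgroup SL(2,ℤ)} {Sg Dl : Type} [Group Sg] [Group Dl]
  (ρ : Γ₀ →* Sg) (π : Sg →* Dl) [Fintype π.ker]
  (S₀ : CosetSys emb Γ₀ Γ₀) (h₀ : Compat S₀ ρ)
variable [Fintype (SL(2,ℤ) ⧸ kerSub (π.comp ρ))] [DecidableEq (SL(2,ℤ) ⧸ kerSub (π.comp ρ))]
  [Fintype (SL(2,ℤ) ⧸ kerSub (chiU ρ π))] [DecidableEq (SL(2,ℤ) ⧸ kerSub (chiU ρ π))]
variable (O : Type*) [CommRing O] [Module.IsTorsionFree ℤ O] [IsDomain O]
  [IsPrincipalIdealRing O]
  [Module.Free O (Additive (kerSub ρ) →+ O)] [Module.Finite O (Additive (kerSub ρ) →+ O)]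
  [Module.Free O (Additive (kerSub (π.comp ρ)) →+ O)]
  [Module.Finite O (Additive (kerSub (π.comp ρ)) →+ O)]
  (q : ℕ) (d0 : kerSub (π.comp ρ))
  (r : π.ker → kerSub (π.comp ρ)) (hr : ∀ δ, chiU ρ π (r δ) = δ)
  (hcomm : ∀ a b : π.ker, a * b = b * a)
  (hord : orderOf (chiU ρ π d0) = q) (hcard : Fintype.card π.ker = q)
  (hq : ∀ a : O, (q : O) * a = 0 → a = 0) (hneg : (-1 : SL(2,ℤ)) ∈ kerSub ρ) (h2 : ¬ 2 ∣ q)
  (h3 : ¬ 3 ∣ q ∨ ∀ g : SL(2,ℤ), g⁻¹ * (ModularGroup.S * ModularGroup.T) * g ∉ Γ₀)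

/-- **SQ3, group-theoretic core at the instance**: `d0 = τ₁ τ₂` with `τᵢ² ∈ K`, `q` in the Jacobson
radical of `O`; a nonzero summand `Z.P` of `Hom(K, O)` stable under the two conjugations contains a
nonzero vector fixed by one of them. -/
theorem exists_fixed_of_summand_ne_bot
    (Z : (cycStepK hemb ρ π S₀ h₀ O q d0 r hr hcomm hord hcard hq hneg h2 h3).Summand)
    (hq0 : (q : O) ≠ 0) (hjac : (q : O) ∈ Ideal.jacobson (⊥ : Ideal O))
    (τ₁ τ₂ : Γ₀) (hd0 : kerIncl (π.comp ρ) d0 = τ₁ * τ₂)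
    (hτ₁ : ρ (τ₁ * τ₁) = 1) (hτ₂ : ρ (τ₂ * τ₂) = 1)
    (hP₁ : ∀ x ∈ Z.P, (diaK emb ρ τ₁).op O x ∈ Z.P)
    (hP₂ : ∀ x ∈ Z.P, (diaK emb ρ τ₂).op O x ∈ Z.P) (hP : Z.P ≠ ⊥) :
    (∃ x ∈ Z.P, x ≠ 0 ∧ (diaK emb ρ τ₂).op O x = x)
      ∨ (∃ x ∈ Z.P, x ≠ 0 ∧ (diaK emb ρ τ₁).op O x = x) := by
  refine Fermat.Agent.GE8.SQ3.Abs.exists_fixed_of_ne_bot
    (cycStepK hemb ρ π S₀ h₀ O q d0 r hr hcomm hord hcard hq hneg h2 h3) Z hq0 hjac
    (opLin O (diaK emb ρ τ₂)) (opLin O (diaK emb ρ τ₁))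
    (fun x => dia_dia_of_mul_mem_ker ρ τ₂ hτ₂ x) (fun x => dia_dia_of_mul_mem_ker ρ τ₁ hτ₁ x)
    hP₂ hP₁ (fun x _ => ?_) hP
  rw [cycStepK_D, hd0, opLin_apply, opLin_apply, opLin_apply, dia_mul']

end Fixed

end Fermat.Agent.GE8.SQ3.CycInst
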