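/-
GATE-E / RISK-6 (SQ3), slice (B2) SEED (helper95): **a Hecke coset system of `T_ℓ` on `Γ₀(L)` whose
representatives are all `≡ I (mod 2)`** (`ℓ` odd, `ℓ ∤ L`).

The landed system `GM/B/Hecke.heckeSys` uses the representatives `[1 j; 0 ℓ]` (`0 ≤ j < ℓ`) and
`[ℓ 0; 0 1]`.  Replacing `[1 j; 0 ℓ]`, `j` odd, by `T · [1 j; 0 ℓ] = [1 j+ℓ; 0 ℓ]` (a `twist` by
elements of `Γ₀(L)`) gives a system with the SAME operator `cohT` whose cocycle satisfies
`c g i ≡ g (mod 2)`, i.e. is compatible (`GB/B3/KerSys.Compat`) with the reduction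
`rho2 L : Γ₀(L) →* SL(2, ZMod 2)`.  Hence, by `GB/B3/KerSys` (which is stated for an arbitrary group
`Δ`), it restricts to `K = kerSub (rho2 L) = Γ₀(L) ∩ Γ(2)` and to every `kerSub (π.comp (rho2 L))`,
and the restricted operators commute with conjugation by every element of `Γ₀(L)`, with restriction
and with transfer.

* `rho2 L`, `rho2_apply`;
* `hecke2Sys hℓL`, `hecke2Sys_op` (`= cohT hℓL`), `hecke2Sys_card`, `hecke2Sys_distinct`;
* `hecke2Sys_compat hℓL hℓ2 : Compat (hecke2Sys hℓL) (rho2 L)`.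
-/
import Mathlib
import Fermat.Agent.GM.B.Hecke
import Fermat.Agent.GM.B.Distinct
import Fermat.Agent.GM.B.System2
import Fermat.Agent.GM.B.System3
import Fermat.Agent.GB.B3.KerSys

set_option autoImplicit false
set_option linter.unusedSectionVars false
set_option linter.unusedVariables false

open scoped MatrixGroups
open CongruenceSubgroup Matrix Matrix.SpecialLinearGroup
open P2MW.S_ModularForm_heckeT_slash_eq_self_of_mem_Gamma0.ModularForm.HeckeSlashInvariance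
open P2MW.S_ModularForm_heckeT_slash_eq_self_of_mem_Gamma0.ModularForm
open Fermat.Agent.S16_helper49
open scoped OnePoint

namespace Fermat.Agent.GE8.SQ3.Hecke2

open Fermat.Agent.GM.B Fermat.Agent.GB.B3

/-! ### reduction modulo `2` -/

/-- reduction modulo `2` on `Γ₀(L)` -/
noncomputable def rho2 (L : ℕ) : Gamma0 L →* SL(2, ZMod 2) :=
  (Matrix.SpecialLinearGroup.map (Int.castRingHom (ZMod 2))).comp (Gamma0 L).subtype

theorem rho2_apply {L : ℕ} (g : Gamma0 L) (i j : Fin 2) :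
    ((rho2 L g : SL(2, ZMod 2)) : Matrix (Fin 2) (Fin 2) (ZMod 2)) i j
      = (((g : SL(2, ℤ)) i j : ℤ) : ZMod 2) := rfl

theorem rho2_eq_iff {L : ℕ} (g h : Gamma0 L) :
    rho2 L g = rho2 L h ↔
      ∀ i j : Fin 2, (((g : SL(2, ℤ)) i j : ℤ) : ZMod 2) = (((h : SL(2, ℤ)) i j : ℤ) : ZMod 2) := by
  constructor
  · intro e i j
    rw [← rho2_apply, ← rho2_apply, e]
  · intro e
    apply Subtype.ext
    ext i j
    exact e i j

/-! ### the twisted representatives -/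

variable {L : ℕ} {ℓ : ℕ} [Fact ℓ.Prime]

/-- `T = [1 1; 0 1]` as an element of `Γ₀(L)` -/
def TL (L : ℕ) : Gamma0 L :=
  ⟨ModularGroup.T, by
    rw [Gamma0_mem]
    simp [ModularGroup.T]⟩

theorem coe_TL_pow (L : ℕ) (n : ℕ) :
    (((TL L) ^ n : Gamma0 L) : SL(2, ℤ)) = ModularGroup.T ^ n := by
  rw [Subgroup.coe_pow]
  rfl

/-- the parity of the representative: `0` at `∞`, `j.val % 2` at `j` -/
def eps (x : OnePoint (ZMod ℓ)) : ℕ := x.elim 0 (fun j => j.val % 2)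

@[simp] theorem eps_infty : eps (∞ : OnePoint (ZMod ℓ)) = 0 := rfl

@[simp] theorem eps_coe (j : ZMod ℓ) : eps (j : OnePoint (ZMod ℓ)) = j.val % 2 := rfl

/-- the twisting elements `T ^ eps x ∈ Γ₀(L)` -/
def gam (L : ℕ) (x : OnePoint (ZMod ℓ)) : Gamma0 L := (TL L) ^ eps x

/-- **the Hecke coset system with representatives `≡ I (mod 2)`** -/
noncomputable def hecke2Sys (hℓL : ¬ ℓ ∣ L) : CosetSys embR (Gamma0 L) (Gamma0 L) :=
  (heckeSys hℓL).twist embR_injective 1 (gam L)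
    (fun g x => gam L x * (heckeSys hℓL).c g x * (gam L ((heckeSys hℓL).σ g x))⁻¹)
    (fun g x => by rw [mul_one, one_mul])

theorem hecke2Sys_a (hℓL : ¬ ℓ ∣ L) (x : OnePoint (ZMod ℓ)) :
    (hecke2Sys hℓL).a x = embR ((gam L x : Gamma0 L) : SL(2, ℤ)) * heckeRep ℓ x := by
  show 1 * embR ((gam L x : Gamma0 L) : SL(2, ℤ)) * heckeRep ℓ x = _
  rw [one_mul]

theorem hecke2Sys_σ (hℓL : ¬ ℓ ∣ L) (g : Gamma0 L) (x : OnePoint (ZMod ℓ)) :
    (hecke2Sys hℓL).σ g x = (heckeSys hℓL).σ g x := rfl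

/-- **same operator as the landed `T_ℓ`** -/
theorem hecke2Sys_op (hℓL : ¬ ℓ ∣ L) (A : Type*) [AddCommGroup A] :
    (hecke2Sys hℓL).op A = cohT hℓL A := by
  rw [← heckeSys_op hℓL A]
  refine AddMonoidHom.ext fun φ => ?_
  refine CosetSys.op_eq_of_equiv (heckeSys hℓL) (hecke2Sys hℓL) embR_injective (Equiv.refl _) 1
    (fun x => by rw [one_mul, mul_one]) (gam L) (fun x => rfl) (fun g x => rfl) φ

theorem hecke2Sys_card (hℓL : ¬ ℓ ∣ L) : Fintype.card (hecke2Sys hℓL).ι = ℓ + 1 :=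
  heckeSys_card hℓL

theorem hecke2Sys_distinctMod (hℓL : ¬ ℓ ∣ L) (Γ : Subgroup SL(2, ℤ)) (hΓ : Gamma0 L ≤ Γ) :
    (hecke2Sys hℓL).DistinctMod Γ := by
  intro (x : OnePoint (ZMod ℓ)) (y : OnePoint (ZMod ℓ)) γ h
  rw [hecke2Sys_a hℓL x, hecke2Sys_a hℓL y] at h
  refine heckeSys_distinctMod hℓL Γ x y
    (⟨(gam L x : SL(2, ℤ)), hΓ (gam L x).2⟩⁻¹ * γ * ⟨(gam L y : SL(2, ℤ)), hΓ (gam L y).2⟩) ?_
  rw [heckeSys_a, heckeSys_a]
  simp only [Subgroup.coe_mul, Subgroup.coe_inv, map_mul, map_inv]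
  rw [mul_assoc, mul_assoc, eq_inv_mul_iff_mul_eq, h]

theorem hecke2Sys_distinct (hℓL : ¬ ℓ ∣ L) : (hecke2Sys hℓL).Distinct :=
  (hecke2Sys_distinctMod hℓL (Gamma0 L) le_rfl).distinct

/-! ### the representatives are `≡ I (mod 2)` -/

theorem embR_val (g : SL(2, ℤ)) :
    ((embR g : GL (Fin 2) ℝ) : Matrix (Fin 2) (Fin 2) ℝ)
      = (g : Matrix (Fin 2) (Fin 2) ℤ).map (Int.castRingHom ℝ) := by
  show ((mapGL ℝ g : GL (Fin 2) ℝ) : Matrix (Fin 2) (Fin 2) ℝ) = _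
  rw [mapGL_coe_matrix]
  rfl

/-- the integer matrix of the twisted representative -/
def repM (x : OnePoint (ZMod ℓ)) : Matrix (Fin 2) (Fin 2) ℤ :=
  x.elim !![(ℓ : ℤ), 0; 0, 1] (fun j => !![1, (j.val : ℤ) + ((j.val % 2 : ℕ) : ℤ) * ℓ; 0, (ℓ : ℤ)])

theorem hecke2Sys_a_val (hℓL : ¬ ℓ ∣ L) (x : OnePoint (ZMod ℓ)) :
    (((hecke2Sys hℓL).a x : GL (Fin 2) ℝ) : Matrix (Fin 2) (Fin 2) ℝ)
      = (repM x).map (Int.castRingHom ℝ) := by
  have hℓ0 : ℓ ≠ 0 := (Fact.out : ℓ.Prime).ne_zero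
  rw [hecke2Sys_a, Units.val_mul, embR_val]
  induction x using OnePoint.rec with
  | infty =>
    have h1 : ((gam L (∞ : OnePoint (ZMod ℓ)) : Gamma0 L) : SL(2, ℤ)) = 1 := by
      show (((TL L) ^ 0 : Gamma0 L) : SL(2, ℤ)) = 1
      rw [pow_zero]
      rfl
    rw [h1, heckeRep_infty, ModularForm.val_heckeDiagMatrix hℓ0]
    ext i j
    fin_cases i <;> fin_cases j <;> simp [repM, Matrix.mul_apply, Fin.sum_univ_two]
  | coe k =>
    have h1 : (((gam L (k : OnePoint (ZMod ℓ)) : Gamma0 L) : SL(2, ℤ)) :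
        Matrix (Fin 2) (Fin 2) ℤ) = !![1, ((k.val % 2 : ℕ) : ℤ); 0, 1] := by
      show ((((TL L) ^ (k.val % 2) : Gamma0 L) : SL(2, ℤ)) : Matrix (Fin 2) (Fin 2) ℤ) = _
      rw [coe_TL_pow, ← zpow_natCast, ModularGroup.coe_T_zpow]
    rw [h1, heckeRep_coe, ModularForm.val_heckeMatrix hℓ0]
    ext i j
    fin_cases i <;> fin_cases j <;> simp [repM, Matrix.mul_apply, Fin.sum_univ_two]

theorem natCast_two_eq_one_of_odd (hℓ2 : ℓ ≠ 2) : ((ℓ : ℕ) : ZMod 2) = 1 := by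
  have hodd : ℓ % 2 = 1 := ((Fact.out : ℓ.Prime).eq_two_or_odd).resolve_left hℓ2
  rw [← ZMod.natCast_mod ℓ 2, hodd]
  rfl

/-- **the twisted representatives are `≡ I (mod 2)`** -/
theorem repM_mod_two (hℓ2 : ℓ ≠ 2) (x : OnePoint (ZMod ℓ)) :
    (repM x).map (Int.castRingHom (ZMod 2)) = 1 := by
  have h1 := natCast_two_eq_one_of_odd (ℓ := ℓ) hℓ2
  induction x using OnePoint.rec with
  | infty =>
    ext i j
    fin_cases i <;> fin_cases j <;> simp [repM, h1]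
  | coe k =>
    have h2 : ((k.val : ℕ) : ZMod 2) + (((k.val % 2 : ℕ) : ℕ) : ZMod 2) = 0 := by
      rw [ZMod.natCast_mod k.val 2]
      exact CharTwo.add_self_eq_zero _
    have h3 : (Int.castRingHom (ZMod 2)) ((k.val : ℤ) + ((k.val % 2 : ℕ) : ℤ) * ℓ) = 0 := by
      rw [map_add, map_mul, map_natCast, map_natCast, map_natCast, h1, mul_one]
      exact h2
    ext i j
    fin_cases i <;> fin_cases j
    · simp [repM]
    · show (Int.castRingHom (ZMod 2)) ((k.val : ℤ) + ((k.val % 2 : ℕ) : ℤ) * ℓ) = 0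
      exact h3
    · simp [repM]
    · simp [repM, h1]

/-- **the cocycle of `hecke2Sys` is `≡ g (mod 2)`** -/
theorem hecke2Sys_compat (hℓL : ¬ ℓ ∣ L) (hℓ2 : ℓ ≠ 2) :
    Compat (hecke2Sys hℓL) (rho2 L) := by
  intro g (x : OnePoint (ZMod ℓ))
  obtain ⟨x', hx'⟩ : ∃ x' : OnePoint (ZMod ℓ), x' = (hecke2Sys hℓL).σ g x := ⟨_, rfl⟩
  obtain ⟨c, hc⟩ : ∃ c : Gamma0 L, c = (hecke2Sys hℓL).c g x := ⟨_, rfl⟩
  have hrel : (hecke2Sys hℓL).a x * embR (g : SL(2, ℤ))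
      = embR ((c : Gamma0 L) : SL(2, ℤ)) * (hecke2Sys hℓL).a x' := by
    rw [hx', hc]
    exact (hecke2Sys hℓL).rel g x
  have hval := congrArg (fun M : GL (Fin 2) ℝ => (M : Matrix (Fin 2) (Fin 2) ℝ)) hrel
  simp only [Units.val_mul] at hval
  rw [hecke2Sys_a_val hℓL x, hecke2Sys_a_val hℓL x', embR_val, embR_val, ← Matrix.map_mul,
    ← Matrix.map_mul] at hval
  have hint : repM x * ((g : SL(2, ℤ)) : Matrix (Fin 2) (Fin 2) ℤ)
      = ((c : Gamma0 L) : SL(2, ℤ)) * repM x' :=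
    Matrix.map_injective (Int.cast_injective (α := ℝ)) hval
  rw [← hc]
  have hmod := congrArg (fun M : Matrix (Fin 2) (Fin 2) ℤ => M.map (Int.castRingHom (ZMod 2))) hint
  simp only [Matrix.map_mul] at hmod
  rw [repM_mod_two hℓ2, repM_mod_two hℓ2, one_mul, mul_one] at hmod
  rw [rho2_eq_iff]
  intro i j
  have := congrFun (congrFun hmod i) j
  simpa using this.symm

end Fermat.Agent.GE8.SQ3.Hecke2
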