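/-
GATE-E / RISK-6 (SQ3), plug (K0) ↔ (K4) (helper95): the kernel of the reduction `rho2 L` IS the group
`K` of helper42's `Delta.lean` (`IsK2 L (kerSub (rho2 L))`), the representatives of `hecke2Sys` are of
the shape `embR (uT s) * heckeRep ℓ x` with `Even2 ℓ x s` demanded by `Delta.conjD_op`, hence

* `heckeK hℓL hℓ2 := kerSys (hecke2Sys hℓL) (rho2 L) _` (the mod-2 Hecke system on `K`), and
* `conjD_heckeK` : the `δ`-transport `Hom(K, A) ≃ Hom(Γ₀(L*2*2), A)` intertwines `heckeK` with the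
  landed `cohT` at level `L * 2 * 2`.
-/
import Mathlib
import Fermat.Agent.GE8.SQ3.Hecke2
import Fermat.Agent.GE8.SQ3.Delta

set_option autoImplicit false
set_option linter.unusedSectionVars false
set_option linter.unusedVariables false

open scoped MatrixGroups
open CongruenceSubgroup Matrix Matrix.SpecialLinearGroup ModularCurve.Period
open P2MW.S_ModularForm_heckeT_slash_eq_self_of_mem_Gamma0.ModularForm.HeckeSlashInvariance
open P2MW.S_ModularForm_heckeT_slash_eq_self_of_mem_Gamma0.ModularForm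
open Fermat.Agent.S16_helper49
open Fermat.Agent.GM.Amalgam
open scoped OnePoint

namespace Fermat.Agent.GE8.SQ3.K2Plug

open Fermat.Agent.GM.B Fermat.Agent.GB.B3 Fermat.Agent.GE8.SQ3.Hecke2 Fermat.Agent.GE8.SQ3.Delta

variable {L : ℕ} {ℓ : ℕ} [Fact ℓ.Prime]

/-! ### `kerSub (rho2 L) = Γ₀(L) ∩ Γ(2)` -/

theorem int_even_iff_cast_zero (a : ℤ) : (2 : ℤ) ∣ a ↔ ((a : ℤ) : ZMod 2) = 0 := by
  rw [ZMod.intCast_zmod_eq_zero_iff_dvd]
  rfl

theorem rho2_eq_one_iff (g : Gamma0 L) :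
    rho2 L g = 1 ↔ (2 : ℤ) ∣ (g : SL(2, ℤ)) 0 1 ∧ (2 : ℤ) ∣ (g : SL(2, ℤ)) 1 0 := by
  have hdet := Matrix.SpecialLinearGroup.det_coe (g : SL(2, ℤ))
  rw [Matrix.det_fin_two] at hdet
  have hdet2 := congrArg (Int.cast : ℤ → ZMod 2) hdet
  push_cast at hdet2
  rw [← map_one (rho2 L), rho2_eq_iff]
  constructor
  · intro h
    have h01 := h 0 1
    have h10 := h 1 0
    rw [int_even_iff_cast_zero, int_even_iff_cast_zero, h01, h10]
    simp
  · rintro ⟨h01, h10⟩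
    rw [int_even_iff_cast_zero] at h01 h10
    rw [h01, h10, mul_zero, sub_zero] at hdet2
    have hunit : ∀ a b : ZMod 2, a * b = 1 → a = 1 ∧ b = 1 := by decide
    obtain ⟨h00, h11⟩ := hunit _ _ hdet2
    intro i j
    fin_cases i <;> fin_cases j
    · simpa using h00
    · simpa using h01
    · simpa using h10
    · simpa using h11

/-- **the kernel of the reduction mod 2 is helper42's `K`** -/
theorem isK2_kerSub_rho2 (L : ℕ) : IsK2 L (kerSub (rho2 L)) := by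
  intro g
  constructor
  · rintro ⟨γ, hγ, rfl⟩
    have h1 : rho2 L γ = 1 := hγ
    exact ⟨γ.2, (rho2_eq_one_iff γ).mp h1⟩
  · rintro ⟨hg, h⟩
    exact ⟨⟨g, hg⟩, (rho2_eq_one_iff ⟨g, hg⟩).mpr h, rfl⟩

/-! ### the representatives of `hecke2Sys` in helper42's spelling -/

theorem coe_gam (L : ℕ) (x : OnePoint (ZMod ℓ)) :
    ((gam L x : Gamma0 L) : SL(2, ℤ)) = uT ((eps x : ℕ) : ℤ) := by
  show (((TL L) ^ eps x : Gamma0 L) : SL(2, ℤ)) = _
  rw [coe_TL_pow]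
  ext i j
  have h := ModularGroup.coe_T_zpow ((eps x : ℕ) : ℤ)
  rw [zpow_natCast] at h
  rw [h]
  fin_cases i <;> fin_cases j <;> simp [uT, mkZ]

theorem even2_eps (hℓ2 : ℓ ≠ 2) (x : OnePoint (ZMod ℓ)) : Even2 ℓ x ((eps x : ℕ) : ℤ) := by
  have hodd : ℓ % 2 = 1 := ((Fact.out : ℓ.Prime).eq_two_or_odd).resolve_left hℓ2
  induction x using OnePoint.rec with
  | infty =>
    rw [even2_infty, eps_infty]
    exact ⟨0, rfl⟩
  | coe j =>
    rw [even2_coe, eps_coe]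
    have h : Even (j.val + j.val % 2 * ℓ) := by
      rw [Nat.even_iff]
      have := Nat.mod_two_eq_zero_or_one j.val
      rcases this with h0 | h1
      · rw [h0]; omega
      · rw [h1, one_mul]; omega
    exact_mod_cast h

/-- **the mod-2 Hecke system on `K = kerSub (rho2 L)`** -/
noncomputable def heckeK (hℓL : ¬ ℓ ∣ L) (hℓ2 : ℓ ≠ 2) :
    CosetSys embR (kerSub (rho2 L)) (kerSub (rho2 L)) :=
  kerSys (hecke2Sys hℓL) (rho2 L) (hecke2Sys_compat hℓL hℓ2)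

theorem heckeK_a (hℓL : ¬ ℓ ∣ L) (hℓ2 : ℓ ≠ 2) (x : OnePoint (ZMod ℓ)) :
    (heckeK hℓL hℓ2).a x = embR (uT ((eps x : ℕ) : ℤ)) * heckeRep ℓ x := by
  show (hecke2Sys hℓL).a x = _
  rw [hecke2Sys_a, coe_gam]

theorem not_dvd_of_not_dvd_four (hℓ : ¬ ℓ ∣ L * 2 * 2) : ¬ ℓ ∣ L := fun h =>
  hℓ (Dvd.dvd.mul_right (Dvd.dvd.mul_right h 2) 2)

theorem ne_two_of_not_dvd_four (hℓ : ¬ ℓ ∣ L * 2 * 2) : ℓ ≠ 2 := by
  rintro rfl
  exact hℓ (Dvd.intro_left _ rfl)

/-- **the `δ`-transport intertwines the mod-2 Hecke system on `K` with `cohT` at level `L * 2 * 2`** -/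
theorem conjD_heckeK {A : Type*} [AddCommGroup A] (hL : ¬ 2 ∣ L) (hℓ : ¬ ℓ ∣ L * 2 * 2)
    (φ : Additive (kerSub (rho2 L)) →+ A) :
    conjD A (isK2_kerSub_rho2 L) hL
        ((heckeK (not_dvd_of_not_dvd_four hℓ) (ne_two_of_not_dvd_four hℓ)).op A φ)
      = cohT hℓ A (conjD A (isK2_kerSub_rho2 L) hL φ) :=
  conjD_op (isK2_kerSub_rho2 L) hL hℓ
    (heckeK (not_dvd_of_not_dvd_four hℓ) (ne_two_of_not_dvd_four hℓ)) (Equiv.refl _)
    (fun x => ((eps x : ℕ) : ℤ)) (fun x => even2_eps (ne_two_of_not_dvd_four hℓ) x)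
    (fun x => heckeK_a _ _ x) φ

end Fermat.Agent.GE8.SQ3.K2Plug
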