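/-
GATE-E (S59) / RISK-6 = node SQ3, **the CONCRETE LEAF of the cyclic step** (helper90, SQ3 owner):
helper33's generic `CycInst.cycStepK` at

  `Γ₀ := Gamma0 N` (`N` odd, a prime `r ≡ 2 (3)` dividing `N`), `ρ := Hecke2.rho2 N : Γ₀(N) → SL₂(𝔽₂)`,
  `π := sgn2 : SL₂(𝔽₂) →* C₂` (the sign character of `S₃`, kernel `A₃` of order `3`),
  `d0 := l · T`, `l = [1 0; N 1]`, `T = [1 1; 0 1]`, `S₀ := Hecke2.hecke2Sys` at a prime `ℓ ∤ 2N`.

* `sgn2`, `card_ker_sgn2`, `ker_sgn2_comm` (all by `decide`);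
* `lN`, `rho2_TL`, `rho2_lN`, `d0N`;
* `finiteIndex_kerSub_rho2` (contains `Γ(N * 2)`);
* **`exists_cycStep`** : `∃ S : CycStep O Hom(K, O) Hom(G², O) 3`, `K = kerSub (rho2 N)`,
  `G² = kerSub (sgn2 ∘ rho2 N)`, with `S.D = ⟨l T⟩ = ⟨T⟩ ∘ ⟨l⟩` and
  `S.t = T_ℓ^K − (ℓ + 1)` (`T_ℓ^K = K2Plug.heckeK`) in closed form.
-/
import Mathlib
import Fermat.Agent.GE8.SQ3.CycInst
import Fermat.Agent.GE8.SQ3.K2Plug
import Fermat.Agent.GE8.CaseB3.UFree

set_option autoImplicit false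
set_option linter.unusedSectionVars false
set_option linter.style.haveILetI false

open scoped MatrixGroups
open CongruenceSubgroup Matrix Matrix.SpecialLinearGroup

noncomputable section

namespace Fermat.Agent.GE8.SQ3.Leaf

open Fermat.Agent.GM.B Fermat.Agent.GB.B3 Fermat.Agent.GB.B3.FreeCyclic Fermat.Agent.GB.B3.CycInst
open Fermat.Agent.GM.Amalgam
open Fermat.Agent.GE8.SQ3.Hecke2 Fermat.Agent.GE8.SQ3.Delta Fermat.Agent.GE8.SQ3.K2Plug
open Fermat.Agent.GE8.SQ3.CycInst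

/-! ### the sign character of `SL₂(𝔽₂) = S₃` -/

/-- the sign of `SL₂(𝔽₂) = S₃`, additively -/
def epsFun (g : SL(2, ZMod 2)) : ZMod 2 := g 0 1 + g 1 0 + (g 0 0 + 1) * (g 1 1 + 1)

theorem epsFun_mul : ∀ g h : SL(2, ZMod 2), epsFun (g * h) = epsFun g + epsFun h := by decide

theorem epsFun_one : epsFun 1 = 0 := by decide

/-- **the sign character** `SL₂(𝔽₂) →* C₂` -/
def sgn2 : SL(2, ZMod 2) →* Multiplicative (ZMod 2) where
  toFun g := Multiplicative.ofAdd (epsFun g)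
  map_one' := by rw [epsFun_one]; rfl
  map_mul' g h := by rw [epsFun_mul]; rfl

theorem mem_ker_sgn2 (g : SL(2, ZMod 2)) : g ∈ sgn2.ker ↔ epsFun g = 0 := by
  rw [MonoidHom.mem_ker]
  exact Iff.rfl

instance decMemKerSgn2 : DecidablePred (fun g => g ∈ sgn2.ker) := fun g =>
  decidable_of_iff (epsFun g = 0) (mem_ker_sgn2 g).symm

instance fintypeKerSgn2 : Fintype sgn2.ker := Subtype.fintype _

theorem card_ker_sgn2 : Fintype.card sgn2.ker = 3 := by decide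

theorem ker_sgn2_comm : ∀ a b : sgn2.ker, a * b = b * a := by decide

/-- the `3`-cycle `[1 1; 1 0] = l̄ ū` -/
def cBar : sgn2.ker := ⟨⟨!![1, 1; 1, 0], by decide⟩, (mem_ker_sgn2 _).2 (by decide)⟩

theorem cBar_ne_one : cBar ≠ 1 := by decide

theorem cBar_pow_three : cBar ^ 3 = 1 := by decide

theorem ker_sgn2_cases : ∀ δ : sgn2.ker, δ = 1 ∨ δ = cBar ∨ δ = cBar ^ 2 := by decide

theorem orderOf_cBar : orderOf cBar = 3 :=
  orderOf_eq_prime cBar_pow_three cBar_ne_one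

/-! ### the elements `T`, `l` of `Γ₀(N)` -/

variable (N : ℕ)

/-- `l = [1 0; N 1]` -/
def lN : Gamma0 N :=
  ⟨mkZ 1 0 N 1 (by ring), Fermat.Agent.S16_helper49.mem_Gamma0_of_dvd (by simp)⟩

theorem rho2_TL : rho2 N (TL N) = ⟨!![1, 1; 0, 1], by decide⟩ := by
  apply Subtype.ext
  ext i j
  rw [rho2_apply]
  fin_cases i <;> fin_cases j <;> simp [TL, ModularGroup.T]

theorem rho2_lN (hN2 : ¬ 2 ∣ N) : rho2 N (lN N) = ⟨!![1, 0; 1, 1], by decide⟩ := by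
  have hN : ((N : ℕ) : ZMod 2) = 1 := by
    have h1 : N % 2 = 1 := by omega
    rw [← ZMod.natCast_mod, h1]
    rfl
  apply Subtype.ext
  ext i j
  rw [rho2_apply]
  fin_cases i <;> fin_cases j <;> simp [lN, mkZ, hN]

theorem rho2_lN_mul_TL (hN2 : ¬ 2 ∣ N) :
    rho2 N (lN N * TL N) = (cBar : SL(2, ZMod 2)) := by
  rw [map_mul, rho2_TL, rho2_lN N hN2]
  decide

/-- `d0 = l T ∈ G²` -/
def d0N (hN2 : ¬ 2 ∣ N) : kerSub (sgn2.comp (rho2 N)) :=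
  kerMk (sgn2.comp (rho2 N)) (lN N * TL N) (by
    show sgn2 (rho2 N (lN N * TL N)) = 1
    rw [rho2_lN_mul_TL N hN2]
    exact cBar.2)

theorem kerIncl_d0N (hN2 : ¬ 2 ∣ N) :
    kerIncl (sgn2.comp (rho2 N)) (d0N N hN2) = lN N * TL N := rfl

theorem chiU_d0N (hN2 : ¬ 2 ∣ N) : chiU (rho2 N) sgn2 (d0N N hN2) = cBar := by
  apply Subtype.ext
  rw [coe_chiU, kerIncl_d0N, rho2_lN_mul_TL N hN2]

/-- a section of `chiU` -/
theorem exists_section (hN2 : ¬ 2 ∣ N) :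
    ∃ r : sgn2.ker → kerSub (sgn2.comp (rho2 N)), ∀ δ, chiU (rho2 N) sgn2 (r δ) = δ := by
  have hsurj : ∀ δ : sgn2.ker, ∃ g, chiU (rho2 N) sgn2 g = δ := by
    intro δ
    rcases ker_sgn2_cases δ with rfl | rfl | rfl
    · exact ⟨1, map_one _⟩
    · exact ⟨d0N N hN2, chiU_d0N N hN2⟩
    · exact ⟨d0N N hN2 ^ 2, by rw [map_pow, chiU_d0N N hN2]⟩
  choose r hr using hsurj
  exact ⟨r, hr⟩

/-! ### finite index -/

theorem neg_one_mem_kerSub_rho2 : (-1 : SL(2, ℤ)) ∈ kerSub (rho2 N) := by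
  rw [isK2_kerSub_rho2 N]
  refine ⟨Fermat.Agent.S16_helper49.mem_Gamma0_of_dvd (by simp), by simp, by simp⟩

theorem Gamma_le_kerSub_rho2 : Gamma (N * 2) ≤ kerSub (rho2 N) := by
  intro g hg
  rw [Gamma_mem] at hg
  obtain ⟨-, h01, h10, -⟩ := hg
  rw [ZMod.intCast_zmod_eq_zero_iff_dvd] at h01 h10
  have hN2 : ((N * 2 : ℕ) : ℤ) = (N : ℤ) * 2 := by push_cast; ring
  rw [hN2] at h01 h10
  rw [isK2_kerSub_rho2 N]
  refine ⟨Fermat.Agent.S16_helper49.mem_Gamma0_of_dvd ((Dvd.intro _ rfl).trans h10),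
    (Dvd.intro_left _ rfl).trans h01, (Dvd.intro_left _ rfl).trans h10⟩

theorem finiteIndex_kerSub_rho2 [NeZero N] : (kerSub (rho2 N)).FiniteIndex := by
  haveI : NeZero (N * 2) := ⟨mul_ne_zero (NeZero.ne N) (by norm_num)⟩
  exact Subgroup.finiteIndex_of_le (Gamma_le_kerSub_rho2 N)

/-! ### the cyclic step -/

open Fermat.Agent.GE8.CaseB3.UFree in
/-- **the cyclic step `K ◁ G²` of order `3` at `Γ₀(N)`**, `N` odd with a prime divisor `r ≡ 2 (3)`,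
for the Hecke prime `ℓ ∤ 2N`, with `D` and `t` in closed form. -/
theorem exists_cycStep [NeZero N] (hN2 : ¬ 2 ∣ N) {r : ℕ} (hr : r.Prime) (hrN : r ∣ N)
    (hr3 : r % 3 = 2) (O : Type*) [CommRing O] [Module.IsTorsionFree ℤ O]
    (h3O : ∀ a : O, ((3 : ℕ) : O) * a = 0 → a = 0)
    {ℓ : ℕ} [Fact ℓ.Prime] (hℓN : ¬ ℓ ∣ N) (hℓ2 : ℓ ≠ 2) :
    ∃ S : CycStep O (Additive (kerSub (rho2 N)) →+ O)
        (Additive (kerSub (sgn2.comp (rho2 N))) →+ O) 3,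
      S.D = opLin O (diaK embR (rho2 N) (lN N * TL N)) ∧
      S.t = opLin O (heckeK hℓN hℓ2) - (ℓ + 1) • LinearMap.id := by
  classical
  haveI h0 : (kerSub (rho2 N)).FiniteIndex := finiteIndex_kerSub_rho2 N
  haveI h1 : (kerSub (sgn2.comp (rho2 N))).FiniteIndex :=
    Subgroup.finiteIndex_of_le (kerSub_le_kerSub_comp (rho2 N) sgn2)
  haveI h2 : (kerSub (chiU (rho2 N) sgn2)).FiniteIndex := by
    rw [kerSub_chiU]
    exact h0
  letI : Fintype (SL(2, ℤ) ⧸ kerSub (sgn2.comp (rho2 N))) :=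
    Subgroup.fintypeQuotientOfFiniteIndex
  letI : Fintype (SL(2, ℤ) ⧸ kerSub (chiU (rho2 N) sgn2)) :=
    Subgroup.fintypeQuotientOfFiniteIndex
  obtain ⟨r', hr'⟩ := exists_section N hN2
  have hord : orderOf (chiU (rho2 N) sgn2 (d0N N hN2)) = 3 := by
    rw [chiU_d0N]
    exact orderOf_cBar
  refine ⟨cycStepK embR_injective (rho2 N) sgn2 (hecke2Sys hℓN) (hecke2Sys_compat hℓN hℓ2) O 3
    (d0N N hN2) r' hr' ker_sgn2_comm hord card_ker_sgn2 h3O (neg_one_mem_kerSub_rho2 N)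
    (by norm_num) (Or.inr fun g => no_conj_U_mem hr hrN hr3 le_rfl g), ?_, ?_⟩
  · rw [cycStepK_D]
    rfl
  · rw [cycStepK_t, hecke2Sys_card]
    rfl

end Fermat.Agent.GE8.SQ3.Leaf
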