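/-
GATE-E (S59) / RISK-6 = node SQ3: **the core `Final.CoreStmt`, instantiated** (helper90, SQ3 owner).
ONE instantiation of `CoreAbs.core_abs` at

* `e := Delta.conjDₗ O (isK2_kerSub_rho2 N) hN2 : Hom(K, O) ≃ Hom(Γ₀(4N), O)`, `K = kerSub (rho2 N)`;
* `S` from `Leaf.exists_cycStep` (`D = ⟨l T⟩`, `t = T_ℓ^K − (ℓ + 1)`);
* `s₁ = ⟨T⟩`, `s₂ = ⟨l⟩` (diamond operators of `Hom(K, O)`), `res = HalfLevel.resHK`.
-/
import Mathlib
import Fermat.Agent.GE8.SQ3.Final
import Fermat.Agent.GE8.SQ3.CoreAbs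
import Fermat.Agent.GE8.SQ3.Leaf
import Fermat.Agent.GE8.SQ3.HalfLevel

set_option autoImplicit false
set_option linter.unusedSectionVars false
set_option linter.style.haveILetI false

open scoped MatrixGroups
open CongruenceSubgroup Matrix Matrix.SpecialLinearGroup ModularCurve.Period

noncomputable section

namespace Fermat.Agent.GE8.SQ3.CoreHedge

open MvPolynomial
open Fermat.Agent.S16_helper49
open Fermat.Agent.GM.B Fermat.Agent.GB.B3 Fermat.Agent.GB.B3.FreeCyclic Fermat.Agent.GB.B3.CycInst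
open Fermat.Agent.GM.Amalgam
open Fermat.Agent.GB.B8.LevelGen
open Fermat.Agent.GE8.SQ3.Hecke2 Fermat.Agent.GE8.SQ3.Delta Fermat.Agent.GE8.SQ3.K2Plug
open Fermat.Agent.GE8.SQ3.CycInst Fermat.Agent.GE8.SQ3.Leaf Fermat.Agent.GE8.SQ3.HalfLevel
open Fermat.Agent.GE8.SQ3.CoreAbs

variable (N : ℕ)

/-- `⟨T⟩ = s₁` of `HalfLevel` -/
theorem dia_TL_eq_s1 {A : Type*} [AddCommGroup A] (φ : Additive (kerSub (rho2 N)) →+ A) :
    (diaK embR (rho2 N) (TL N)).op A φ = (s1Sys (isK2_kerSub_rho2 N)).op A φ := by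
  refine AddMonoidHom.ext fun k => ?_
  obtain ⟨k, rfl⟩ : ∃ k' : kerSub (rho2 N), Additive.ofMul k' = k := ⟨Additive.toMul k, rfl⟩
  rw [diaK_op_apply, s1_apply]
  congr 2

theorem sq_TL : rho2 N (TL N * TL N) = 1 := by
  rw [map_mul, rho2_TL]
  decide

theorem sq_lN (hN2 : ¬ 2 ∣ N) : rho2 N (lN N * lN N) = 1 := by
  rw [map_mul, rho2_lN N hN2]
  decide

theorem not_dvd_two_of_four {ℓ : ℕ} (h : ¬ ℓ ∣ N * 2 * 2) : ¬ ℓ ∣ N * 2 := fun h' =>
  h (Dvd.dvd.mul_right h' 2)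

/-- **the group-theoretic core of SQ3.** -/
theorem coreStmt : Final.CoreStmt := by
  intro N _ hN2 _hN3 r hr hrN hr3 O _ _ _ σ pr hpr _hinj hnd t hkill s₀ x
  classical
  have hK := isK2_kerSub_rho2 N
  -- `3` is a non-zero-divisor
  have h3O : ∀ a : O, ((3 : ℕ) : O) * a = 0 → a = 0 := by
    intro a ha
    have h3 : ((3 : ℕ) : O) ≠ 0 := by
      intro h
      have h1 : (3 : ℤ) • (1 : O) = 0 := by
        rw [zsmul_eq_mul, mul_one]
        exact_mod_cast h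
      have := (smul_eq_zero (M := O)).mp h1
      rcases this with h | h
      · norm_num at h
      · exact one_ne_zero h
    exact (mul_eq_zero.mp ha).resolve_left h3
  -- the Hecke operators on `Hom(K, O)`
  have hX : ∀ (s : σ) (φ : Additive (kerSub (rho2 N)) →+ O),
      actN O pr hpr (N * 2 * 2) (X s) (conjDₗ O hK hN2 φ)
        = conjDₗ O hK hN2
            ((@heckeK N (pr s) ⟨hpr s⟩ (@not_dvd_of_not_dvd_four N (pr s) ⟨hpr s⟩ (hnd s))
              (@ne_two_of_not_dvd_four N (pr s) ⟨hpr s⟩ (hnd s))).op O φ) := by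
    intro s φ
    haveI : Fact (pr s).Prime := ⟨hpr s⟩
    rw [actN_X_of_not_dvd O pr hpr s (hnd s), conjDₗ_apply, conjDₗ_apply]
    exact (conjD_heckeK hN2 (hnd s) φ).symm
  haveI : Fact (pr s₀).Prime := ⟨hpr s₀⟩
  obtain ⟨S, hSD, hSt⟩ := exists_cycStep N hN2 hr hrN hr3 O h3O
    (not_dvd_of_not_dvd_four (hnd s₀)) (ne_two_of_not_dvd_four (hnd s₀))
  refine core_abs (actN O pr hpr (N * 2 * 2)) (actN O pr hpr (N * 2)) (conjDₗ O hK hN2) S
    (opLin O (diaK embR (rho2 N) (TL N))) (opLin O (diaK embR (rho2 N) (lN N)))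
    (opLin O (resHK hK hN2)) ?_ ?_ ?_ ?_ ?_ ?_ ?_ s₀ (((pr s₀ + 1 : ℕ) : O)) ?_ t hkill x
  · -- hD
    intro z
    rw [hSD, opLin_apply, opLin_apply, opLin_apply]
    exact dia_mul' (rho2 N) (lN N) (TL N) z
  · -- hs₁
    intro z
    rw [opLin_apply, opLin_apply]
    exact dia_dia_of_mul_mem_ker (rho2 N) (TL N) (sq_TL N) z
  · -- hs₂
    intro z
    rw [opLin_apply, opLin_apply]
    exact dia_dia_of_mul_mem_ker (rho2 N) (lN N) (sq_lN N hN2) z
  · -- hhalf
    intro z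
    obtain ⟨ψ, hψ, -⟩ := exists_res_eq hK hN2 z
    refine ⟨ψ, ?_⟩
    rw [opLin_apply, opLin_apply, dia_TL_eq_s1]
    exact hψ
  · -- hs₁X
    intro s z
    haveI : Fact (pr s).Prime := ⟨hpr s⟩
    rw [hX, hX, LinearEquiv.symm_apply_apply, opLin_apply, opLin_apply]
    exact congrArg (conjDₗ O hK hN2)
      (dia_kerSys_op embR_injective (hecke2Sys (not_dvd_of_not_dvd_four (hnd s))) (rho2 N)
        (hecke2Sys_compat _ (ne_two_of_not_dvd_four (hnd s))) (TL N) z).symm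
  · -- hs₂X
    intro s z
    haveI : Fact (pr s).Prime := ⟨hpr s⟩
    rw [hX, hX, LinearEquiv.symm_apply_apply, opLin_apply, opLin_apply]
    exact congrArg (conjDₗ O hK hN2)
      (dia_kerSys_op embR_injective (hecke2Sys (not_dvd_of_not_dvd_four (hnd s))) (rho2 N)
        (hecke2Sys_compat _ (ne_two_of_not_dvd_four (hnd s))) (lN N) z).symm
  · -- hresX
    intro s y
    haveI : Fact (pr s).Prime := ⟨hpr s⟩
    rw [hX, opLin_apply, opLin_apply,
      actN_X_of_not_dvd O pr hpr s (not_dvd_two_of_four N (hnd s))]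
    refine congrArg (conjDₗ O hK hN2) ?_
    exact resHK_cohT hK hN2 (not_dvd_two_of_four N (hnd s))
      (heckeK (not_dvd_of_not_dvd_four (hnd s)) (ne_two_of_not_dvd_four (hnd s))) (Equiv.refl _)
      (fun x => ((eps x : ℕ) : ℤ)) (fun x => heckeK_a _ _ x) y
  · -- ht
    intro z
    have h1 : actN O pr hpr (N * 2 * 2) (X s₀ - C (((pr s₀ + 1 : ℕ) : O))) (conjDₗ O hK hN2 z)
        = actN O pr hpr (N * 2 * 2) (X s₀) (conjDₗ O hK hN2 z)
          - (((pr s₀ + 1 : ℕ) : O)) • conjDₗ O hK hN2 z := by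
      rw [map_sub, LinearMap.sub_apply, ← MvPolynomial.algebraMap_eq, AlgHom.commutes,
        Module.algebraMap_end_apply]
    rw [h1, hX, hSt, LinearMap.sub_apply, LinearMap.smul_apply, LinearMap.id_apply, map_sub,
      map_nsmul, opLin_apply, Nat.cast_smul_eq_nsmul]

end Fermat.Agent.GE8.SQ3.CoreHedge
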