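/-
GATE-E (S59) / RISK-6 = node SQ3 **CLOSED** (helper90, SQ3 owner): `sq3SqStmt : Final.SQ3SqStmt`
(binder-free), `= Final.sq3Sq_of_core CoreHedge.coreStmt`.
-/
import Mathlib
import Fermat.Agent.GE8.SQ3.Final
import Fermat.Agent.GE8.SQ3.CoreHedge

set_option autoImplicit false

namespace Fermat.Agent.GE8.SQ3.Closed

/-- **node SQ3 at squarefree levels** (`p = 3`: level `L' * 2 ⟹ L'` for `L'` even squarefree prime
to `3`, `W` semistable with `ρ̄_{W,3}` irreducible). -/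
theorem sq3SqStmt : Fermat.Agent.GE8.SQ3.Final.SQ3SqStmt :=
  Fermat.Agent.GE8.SQ3.Final.sq3Sq_of_core Fermat.Agent.GE8.SQ3.CoreHedge.coreStmt

end Fermat.Agent.GE8.SQ3.Closed
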