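/-
GATE-E (S59) / RISK-6 = node SQ3, ABSTRACT ASSEMBLY HELPERS for the proof of `Final.CoreStmt`
(helper90, SQ3 owner).  Mathlib only.

* `map_act`       : an `O`-linear map intertwining the GENERATORS `X s` of two polynomial actions
                    intertwines every polynomial (`MvPolynomial.induction_on`);
* `comm_act`      : an endomorphism commuting with the generators commutes with every polynomial;
* `transportAct`  : transport of a polynomial action along a linear equivalence, with
                    `transportAct_apply`, `transportAct_X`;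
* `act_mul_comm`  : two polynomials act by commuting operators;
* `half_of_half`  : **the second index-`2` half follows from the first**: `D = s₁ s₂`, `sᵢ² = 1`,
                    `D³ = 1`, `P` commuting with `s₁ s₂`, `P (x + s₁ x) ∈ 3 L` for all `x`
                    ⟹ `P (x + s₂ x) ∈ 3 L` for all `x`  (`x + s₂ x = D (y + s₁ y)`, `y = D² x`):
                    the subgroup `H_l` never has to be touched.
-/
import Mathlib

set_option autoImplicit false

namespace Fermat.Agent.GE8.SQ3.AsmAbs

open MvPolynomial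

section Poly

variable {O : Type*} [CommRing O] {σ : Type*}
  {M₁ M₂ : Type*} [AddCommGroup M₁] [Module O M₁] [AddCommGroup M₂] [Module O M₂]

/-- **generators suffice**: a linear map intertwining the `X s` intertwines every polynomial. -/
theorem map_act (a₁ : MvPolynomial σ O →ₐ[O] Module.End O M₁)
    (a₂ : MvPolynomial σ O →ₐ[O] Module.End O M₂) (f : M₁ →ₗ[O] M₂)
    (h : ∀ (s : σ) (x : M₁), f (a₁ (X s) x) = a₂ (X s) (f x)) (t : MvPolynomial σ O) :
    ∀ x : M₁, f (a₁ t x) = a₂ t (f x) := by
  induction t using MvPolynomial.induction_on with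
  | C a =>
    intro x
    have h1 : (C a : MvPolynomial σ O) = algebraMap O (MvPolynomial σ O) a := rfl
    rw [h1, AlgHom.commutes, AlgHom.commutes, Module.algebraMap_end_apply,
      Module.algebraMap_end_apply, map_smul]
  | add p q hp hq =>
    intro x
    rw [map_add, map_add, LinearMap.add_apply, LinearMap.add_apply, map_add, hp, hq]
  | mul_X p s hp =>
    intro x
    rw [map_mul, map_mul, Module.End.mul_apply, Module.End.mul_apply, hp, h]

/-- an endomorphism commuting with the generators commutes with every polynomial. -/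
theorem comm_act (a : MvPolynomial σ O →ₐ[O] Module.End O M₁) (f : M₁ →ₗ[O] M₁)
    (h : ∀ (s : σ) (x : M₁), f (a (X s) x) = a (X s) (f x)) (t : MvPolynomial σ O) (x : M₁) :
    f (a t x) = a t (f x) :=
  map_act a a f h t x

/-- two polynomials act by commuting operators. -/
theorem act_mul_comm (a : MvPolynomial σ O →ₐ[O] Module.End O M₁) (t t' : MvPolynomial σ O)
    (x : M₁) : a t (a t' x) = a t' (a t x) := by
  rw [← Module.End.mul_apply, ← Module.End.mul_apply, ← map_mul, ← map_mul, mul_comm]

/-- **transport of a polynomial action** along a linear equivalence. -/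
noncomputable def transportAct (a : MvPolynomial σ O →ₐ[O] Module.End O M₁) (e : M₁ ≃ₗ[O] M₂) :
    MvPolynomial σ O →ₐ[O] Module.End O M₂ :=
  (e.conjAlgEquiv O).toAlgHom.comp a

theorem transportAct_apply (a : MvPolynomial σ O →ₐ[O] Module.End O M₁) (e : M₁ ≃ₗ[O] M₂)
    (t : MvPolynomial σ O) (y : M₂) : transportAct a e t y = e (a t (e.symm y)) := rfl

theorem transportAct_map (a : MvPolynomial σ O →ₐ[O] Module.End O M₁) (e : M₁ ≃ₗ[O] M₂)
    (t : MvPolynomial σ O) (x : M₁) : transportAct a e t (e x) = e (a t x) := by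
  rw [transportAct_apply, LinearEquiv.symm_apply_apply]

end Poly

section Half

variable {O : Type*} [CommRing O] {L : Type*} [AddCommGroup L] [Module O L]

/-- **the second index-`2` half from the first.** -/
theorem half_of_half (D s₁ s₂ P : L →ₗ[O] L) (hD : ∀ x, D x = s₁ (s₂ x))
    (hs₁ : ∀ x, s₁ (s₁ x) = x) (hs₂ : ∀ x, s₂ (s₂ x) = x) (hD3 : ∀ x, D (D (D x)) = x)
    (hPs₁ : ∀ x, P (s₁ x) = s₁ (P x)) (hPs₂ : ∀ x, P (s₂ x) = s₂ (P x))
    (h₁ : ∀ x, ∃ u, P (x + s₁ x) = (3 : O) • u) (x : L) :
    ∃ u, P (x + s₂ x) = (3 : O) • u := by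
  have hPD : ∀ z, P (D z) = D (P z) := fun z => by rw [hD, hD, hPs₁, hPs₂]
  -- `s₂ x = D (s₁ (D (D x)))`
  have h2 : s₂ x = D (s₁ (D (D x))) := by
    rw [hD (D x), hD x, hs₁, hD (s₂ (s₁ (s₂ x))), hs₂, hs₁]
  have h3 : x + s₂ x = D (D (D x) + s₁ (D (D x))) := by
    rw [map_add, hD3, ← h2]
  obtain ⟨u, hu⟩ := h₁ (D (D x))
  refine ⟨D u, ?_⟩
  rw [h3, hPD, hu, map_smul]

end Half

end Fermat.Agent.GE8.SQ3.AsmAbs
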