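/-
GATE-E / RISK-6 SQ3 (helper41): **the abstract core of "level `4L` ⟹ level `2L` mod `3`"**
(Mathlib only).

`Λ` a torsion-free abelian group with `Λ/3Λ` finite (the parabolic lattice of
`K = Γ₀(L) ∩ Γ(2) ≅ Γ₀(4L)`), `B` a bilinear form on `Λ`, non-degenerate mod `3` (the cup form),
`P`, `E` commuting `B`-self-adjoint endomorphisms (Hecke operators: `P` the killer of level `2L`,
`E = T_ℓ - (ℓ + 1)`), `a`, `c` automorphisms generating an action of `S₃` (`a³ = 1`, `c² = 1`,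
`c a c = a²`) commuting with `P`, `E` (conjugation by `g` of order `3` and `t` of order `2` in
`Γ₀(L)/K = SL₂(𝔽₂)`).  Assume

* `(h2L)` `P (x + c x) ∈ 3Λ`          (`(1 + c) = res ∘ cores` through `Γ₀(2L)`, and `P` kills level
                                        `2L`);
* `Λ' ≤ Λ` with `B(Λ', Λ') ⊆ 3ℤ`       (`Λ' = res (parabolicHoms ℤ G² ℤ)`, `G² = K⟨g⟩`:
                                        `⟨res u, res v⟩_K = ⟨u, cores res v⟩_{G²} = 3 ⟨u, v⟩`);
* `(hob)` `a x = x → E x ∈ Λ' + 3Λ`     (an invariant class extends to `G²` up to the Eisenstein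
                                        obstruction `x(g³) mod 3`).

Then `(P E)^n Λ ⊆ 3Λ` for some `n` (`exists_pow_mem_three`): no eigen-system mod `3` on which `P` and
`E` are invertible occurs in `Λ/3Λ`.
-/
import Mathlib

set_option autoImplicit false
set_option linter.unusedSectionVars false

namespace Fermat.Agent.GE8.SQ3.Core

variable {Λ : Type*} [AddCommGroup Λ]

/-- the submodule `3Λ` -/
def three (Λ : Type*) [AddCommGroup Λ] : Submodule ℤ Λ :=
  LinearMap.range ((3 : ℤ) • (LinearMap.id : Λ →ₗ[ℤ] Λ))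

theorem mem_three {x : Λ} : x ∈ three Λ ↔ ∃ y : Λ, x = (3 : ℤ) • y := by
  unfold three
  rw [LinearMap.mem_range]
  constructor
  · rintro ⟨y, rfl⟩
    exact ⟨y, rfl⟩
  · rintro ⟨y, rfl⟩
    exact ⟨y, rfl⟩

theorem three_smul_mem (y : Λ) : (3 : ℤ) • y ∈ three Λ := mem_three.2 ⟨y, rfl⟩

theorem three_le_comap (f : Module.End ℤ Λ) : three Λ ≤ (three Λ).comap f := by
  intro x hx
  obtain ⟨y, rfl⟩ := mem_three.1 hx
  rw [Submodule.mem_comap, map_smul]
  exact three_smul_mem _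

/-- reduction mod `3` of an endomorphism -/
def red (f : Module.End ℤ Λ) : Module.End ℤ (Λ ⧸ three Λ) :=
  (three Λ).mapQ (three Λ) f (three_le_comap f)

@[simp] theorem red_mk (f : Module.End ℤ Λ) (x : Λ) :
    red f ((three Λ).mkQ x) = (three Λ).mkQ (f x) := rfl

theorem mk_surjective (d : Λ ⧸ three Λ) : ∃ x : Λ, (three Λ).mkQ x = d :=
  (three Λ).mkQ_surjective d

theorem mk_eq_zero {x : Λ} : (three Λ).mkQ x = 0 ↔ x ∈ three Λ :=
  Submodule.Quotient.mk_eq_zero _

theorem mk_eq_mk {x y : Λ} : (three Λ).mkQ x = (three Λ).mkQ y ↔ x - y ∈ three Λ :=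
  (Submodule.Quotient.eq (three Λ))

theorem red_mul (f g : Module.End ℤ Λ) : red (f * g) = red f * red g := by
  refine LinearMap.ext fun d => ?_
  obtain ⟨x, rfl⟩ := mk_surjective d
  rfl

theorem red_one : red (1 : Module.End ℤ Λ) = 1 := by
  refine LinearMap.ext fun d => ?_
  obtain ⟨x, rfl⟩ := mk_surjective d
  rfl

theorem red_pow (f : Module.End ℤ Λ) (n : ℕ) : red (f ^ n) = red f ^ n := by
  induction n with
  | zero => rw [pow_zero, pow_zero, red_one]
  | succ n ih => rw [pow_succ, pow_succ, red_mul, ih]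

theorem three_smul_quot (d : Λ ⧸ three Λ) : (3 : ℤ) • d = 0 := by
  obtain ⟨x, rfl⟩ := mk_surjective d
  rw [← map_smul, mk_eq_zero]
  exact three_smul_mem x

/-- **The abstract core of SQ3.** -/
theorem exists_pow_mem_three [Finite (Λ ⧸ three Λ)]
    (htf : ∀ x : Λ, (3 : ℤ) • x = 0 → x = 0)
    (B : Λ →ₗ[ℤ] Λ →ₗ[ℤ] ℤ)
    (hB : ∀ x : Λ, (∀ y, (3 : ℤ) ∣ B x y) → x ∈ three Λ)
    (P E a c : Module.End ℤ Λ)
    (hPE : P * E = E * P) (hPa : P * a = a * P) (hPc : P * c = c * P) (hEa : E * a = a * E)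
    (ha3 : a * a * a = 1) (hc2 : c * c = 1) (hca : c * a * c = a * a)
    (hPadj : ∀ x y, B (P x) y = B x (P y)) (hEadj : ∀ x y, B (E x) y = B x (E y))
    (h2L : ∀ x, P (x + c x) ∈ three Λ)
    (Λ' : AddSubgroup Λ) (hiso : ∀ u ∈ Λ', ∀ v ∈ Λ', (3 : ℤ) ∣ B u v)
    (hob : ∀ x, a x = x → ∃ u ∈ Λ', E x - u ∈ three Λ) :
    ∃ n : ℕ, ∀ x, ((P * E) ^ n) x ∈ three Λ := by
  classical
  have : IsArtinian ℤ (Λ ⧸ three Λ) := isArtinian_of_finite
  obtain ⟨Q, hQ⟩ : ∃ Q : Module.End ℤ Λ, Q = P * E := ⟨_, rfl⟩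
  have hQa : Q * a = a * Q := by
    rw [hQ, mul_assoc, hEa, ← mul_assoc, hPa, mul_assoc]
  have hQE : Q * E = E * Q := by
    rw [hQ, ← mul_assoc E P E, ← hPE]
  have hQadj : ∀ x y, B (Q x) y = B x (Q y) := by
    intro x y
    rw [hQ]
    show B (P (E x)) y = B x (P (E y))
    rw [hPadj, hEadj]
    have : E (P y) = P (E y) := by
      have := LinearMap.congr_fun hPE y
      exact this.symm
    rw [this]
  have hQnadj : ∀ (n : ℕ) x y, B ((Q ^ n) x) y = B x ((Q ^ n) y) := by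
    intro n
    induction n with
    | zero => intro x y; rfl
    | succ n ih =>
      intro x y
      have e1 : (Q ^ (n + 1)) x = (Q ^ n) (Q x) := by rw [pow_succ]; rfl
      have e2 : (Q ^ (n + 1)) y = Q ((Q ^ n) y) := by rw [pow_succ']; rfl
      rw [e1, e2, ih, hQadj]
  -- stabilisation
  obtain ⟨n, hn⟩ : ∃ n, ∀ m, n ≤ m →
      LinearMap.range ((red Q) ^ n) = LinearMap.range ((red Q) ^ m) :=
    IsArtinian.monotone_stabilizes (red Q).iterateRange
  obtain ⟨X₁, hX₁⟩ : ∃ X₁ : Submodule ℤ (Λ ⧸ three Λ), X₁ = LinearMap.range ((red Q) ^ n) :=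
    ⟨_, rfl⟩
  have memX₁ : ∀ z, ((red Q) ^ n) z ∈ X₁ := fun z => by rw [hX₁]; exact ⟨z, rfl⟩
  -- commutation of the reductions
  have rQE : red Q * red E = red E * red Q := by rw [← red_mul, ← red_mul, hQE]
  have rQa : red Q * red a = red a * red Q := by rw [← red_mul, ← red_mul, hQa]
  have rQnE : (red Q) ^ n * red E = red E * (red Q) ^ n := (Commute.pow_left rQE n).eq
  have rQna : (red Q) ^ n * red a = red a * (red Q) ^ n := (Commute.pow_left rQa n).eq
  -- `X₁` is stable under `E`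
  have hEX₁ : ∀ d ∈ X₁, red E d ∈ X₁ := by
    intro d hd
    rw [hX₁] at hd
    obtain ⟨z, rfl⟩ := hd
    have := LinearMap.congr_fun rQnE z
    rw [Module.End.mul_apply, Module.End.mul_apply] at this
    rw [← this]
    exact memX₁ _
  -- `Q^k` is onto on `X₁`
  have hQsurj : ∀ (k : ℕ), ∀ d ∈ X₁, ∃ d' ∈ X₁, ((red Q) ^ k) d' = d := by
    intro k d hd
    rw [hX₁, hn (n + k) (Nat.le_add_right n k)] at hd
    obtain ⟨z, rfl⟩ := hd
    refine ⟨((red Q) ^ n) z, memX₁ z, ?_⟩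
    rw [← Module.End.mul_apply, ← pow_add, add_comm]
  -- `P` and `E` are onto on `X₁`
  have hPsurj : ∀ d ∈ X₁, ∃ d' ∈ X₁, red P d' = d := by
    intro d hd
    obtain ⟨d', hd', rfl⟩ := hQsurj 1 d hd
    refine ⟨red E d', hEX₁ d' hd', ?_⟩
    rw [pow_one, hQ, red_mul]
    rfl
  have hEsurj : ∀ d ∈ X₁, ∃ d' ∈ X₁, red E d' = d := by
    intro d hd
    obtain ⟨d', hd', rfl⟩ := hQsurj 1 d hd
    have hPX₁ : red P d' ∈ X₁ := by
      rw [hX₁] at hd'
      obtain ⟨z, rfl⟩ := hd'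
      have hQP : Q * P = P * Q := by
        rw [hQ, mul_assoc, ← hPE, ← mul_assoc]
      have rQP : red Q * red P = red P * red Q := by rw [← red_mul, ← red_mul, hQP]
      have := LinearMap.congr_fun (Commute.pow_left rQP n).eq z
      rw [Module.End.mul_apply, Module.End.mul_apply] at this
      rw [← this]
      exact memX₁ _
    refine ⟨red P d', hPX₁, ?_⟩
    rw [pow_one, hQ, hPE, red_mul]
    rfl
  -- step 1: `c = -1` and `a = 1` on `X₁`
  have hcP : ∀ d : Λ ⧸ three Λ, red c (red P d) = - red P d := by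
    intro d
    obtain ⟨y, rfl⟩ := mk_surjective d
    rw [red_mk, red_mk, ← map_neg, mk_eq_mk, sub_neg_eq_add]
    have h1 := h2L y
    have h2 : c (P y) = P (c y) := (LinearMap.congr_fun hPc y).symm
    rw [h2, add_comm, ← map_add]
    exact h1
  have hc'P : ∀ d : Λ ⧸ three Λ, red (a * c * a * a) (red P d) = - red P d := by
    intro d
    obtain ⟨y, rfl⟩ := mk_surjective d
    rw [red_mk, red_mk, ← map_neg, mk_eq_mk, sub_neg_eq_add]
    -- `P y + a c a a P y = a P (a a y + c a a y)`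
    have h1 := h2L (a (a y))
    have e1 : a (a (a y)) = y := LinearMap.congr_fun ha3 y
    have hPa' : ∀ z, P (a z) = a (P z) := fun z => LinearMap.congr_fun hPa z
    have e2 : (a * c * a * a) (P y) + P y = a (P (a (a y) + c (a (a y)))) := by
      rw [map_add, map_add, ← hPa', e1, ← hPa', add_comm]
      congr 1
      show a (c (a (a (P y)))) = P (a (c (a (a y))))
      rw [hPa', ← hPa' y, ← hPa' (a y)]
      have h3 : c (P (a (a y))) = P (c (a (a y))) := (LinearMap.congr_fun hPc _).symm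
      rw [h3]
    rw [e2]
    obtain ⟨w, hw⟩ := mem_three.1 h1
    rw [hw, map_smul]
    exact three_smul_mem _
  have haX₁ : ∀ d ∈ X₁, red a d = d := by
    intro d hd
    obtain ⟨d', -, rfl⟩ := hPsurj d hd
    -- `(a c a a) c = a a`
    have hrel : (a * c * a * a) * c = a * a := by
      calc (a * c * a * a) * c = a * ((c * a * c) * (c * a * c)) := by
            simp only [mul_assoc]
            rw [← mul_assoc c c, hc2, one_mul]
        _ = a * ((a * a) * (a * a)) := by rw [hca]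
        _ = (a * a * a) * (a * a) := by simp only [mul_assoc]
        _ = a * a := by rw [ha3, one_mul]
    have h1 : red (a * a) (red P d') = red P d' := by
      rw [← hrel, red_mul, Module.End.mul_apply, hcP, map_neg, hc'P, neg_neg]
    have h2 : red a (red (a * a) (red P d')) = red P d' := by
      rw [← Module.End.mul_apply, ← red_mul, ← mul_assoc, ha3, red_one]
      rfl
    rw [h1] at h2
    exact h2
  -- step 2: invariant integral lifts
  have hlift : ∀ d ∈ X₁, ∃ x : Λ, a x = x ∧ (three Λ).mkQ x = d := by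
    intro d hd
    obtain ⟨d'', hd'', rfl⟩ := hQsurj n d hd
    obtain ⟨y, rfl⟩ := mk_surjective d''
    have h1 : a y - y ∈ three Λ := by
      have := haX₁ _ hd''
      rw [red_mk, mk_eq_mk] at this
      exact this
    obtain ⟨u, hu⟩ := mem_three.1 h1
    have hay : a y = y + (3 : ℤ) • u := by rw [← hu]; abel
    set x' : Λ := y + (2 : ℤ) • u + a u with hx'
    have h3x' : (3 : ℤ) • x' = y + a y + a (a y) := by
      rw [hay, map_add, map_smul, hay, hx']
      simp only [smul_add]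
      module
    have hax' : a x' = x' := by
      have e1 : a (a (a y)) = y := LinearMap.congr_fun ha3 y
      have h4 : (3 : ℤ) • (a x' - x') = 0 := by
        rw [smul_sub, ← map_smul, h3x', map_add, map_add, e1]
        abel
      exact sub_eq_zero.1 (htf _ h4)
    refine ⟨(Q ^ n) x', ?_, ?_⟩
    · have hc : ∀ z, a ((Q ^ n) z) = (Q ^ n) (a z) := fun z =>
        (LinearMap.congr_fun (Commute.pow_left hQa n).eq z).symm
      rw [hc, hax']
    · have e2 : (three Λ).mkQ x' = (three Λ).mkQ y + (2 : ℤ) • (three Λ).mkQ u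
          + red a ((three Λ).mkQ u) := by
        rw [hx', map_add, map_add, map_smul, red_mk]
      have e3 : (three Λ).mkQ ((Q ^ n) x') = ((red Q) ^ n) ((three Λ).mkQ x') := by
        rw [← red_pow, red_mk]
      rw [e3, e2, map_add, map_add, map_smul]
      have h5 : ((red Q) ^ n) (red a ((three Λ).mkQ u)) = ((red Q) ^ n) ((three Λ).mkQ u) := by
        have := LinearMap.congr_fun rQna ((three Λ).mkQ u)
        rw [Module.End.mul_apply, Module.End.mul_apply] at this
        rw [this]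
        exact haX₁ _ (memX₁ _)
      rw [h5]
      have h6 : (2 : ℤ) • ((red Q) ^ n) ((three Λ).mkQ u) + ((red Q) ^ n) ((three Λ).mkQ u)
          = (3 : ℤ) • ((red Q) ^ n) ((three Λ).mkQ u) := by module
      rw [add_assoc, h6, three_smul_quot, add_zero]
  -- step 3: `B (E x₁) (E x₂) ≡ 0` for invariant `x₁`, `x₂`
  have hpair : ∀ x₁ x₂ : Λ, a x₁ = x₁ → a x₂ = x₂ → (3 : ℤ) ∣ B (E x₁) (E x₂) := by
    intro x₁ x₂ h₁ h₂
    obtain ⟨u₁, hu₁, hv₁⟩ := hob x₁ h₁
    obtain ⟨u₂, hu₂, hv₂⟩ := hob x₂ h₂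
    obtain ⟨v₁, hv₁⟩ := mem_three.1 hv₁
    obtain ⟨v₂, hv₂⟩ := mem_three.1 hv₂
    have e₁ : E x₁ = u₁ + (3 : ℤ) • v₁ := by rw [← hv₁]; abel
    have e₂ : E x₂ = u₂ + (3 : ℤ) • v₂ := by rw [← hv₂]; abel
    rw [e₁, e₂, map_add, map_add, LinearMap.add_apply, LinearMap.add_apply, map_smul, map_smul,
      map_smul, LinearMap.smul_apply, LinearMap.smul_apply]
    refine dvd_add (dvd_add (hiso u₁ hu₁ u₂ hu₂) (Dvd.intro _ rfl)) (dvd_add (Dvd.intro _ rfl) ?_)
    exact Dvd.intro _ rfl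
  -- conclusion: `X₁ = 0`
  have hzero : ∀ e ∈ X₁, e = 0 := by
    intro e he
    obtain ⟨e₀, he₀, rfl⟩ := hEsurj e he
    obtain ⟨f, hf, rfl⟩ := hQsurj n e₀ he₀
    obtain ⟨f₀, hf₀, rfl⟩ := hEsurj f hf
    obtain ⟨x₁, hax₁, rfl⟩ := hlift f₀ hf₀
    have key : E ((Q ^ n) (E x₁)) ∈ three Λ := by
      refine hB _ fun z => ?_
      -- `B (E Q^n E x₁) z = B (E x₁) (Q^n E z)`
      rw [hEadj, hQnadj]
      -- `Q^n E z ≡ E x₂`
      have hz : ((red Q) ^ n) (red E ((three Λ).mkQ z)) ∈ X₁ := memX₁ _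
      obtain ⟨g₀, hg₀, hg⟩ := hEsurj _ hz
      obtain ⟨x₂, hax₂, rfl⟩ := hlift g₀ hg₀
      have h7 : E x₂ - (Q ^ n) (E z) ∈ three Λ := by
        rw [← mk_eq_mk, ← red_mk E x₂, hg, red_mk, ← red_pow, red_mk]
      obtain ⟨w, hw⟩ := mem_three.1 h7
      have e3 : (Q ^ n) (E z) = E x₂ - (3 : ℤ) • w := by rw [← hw]; abel
      rw [e3, map_sub, map_smul]
      exact dvd_sub (hpair x₁ x₂ hax₁ hax₂) (Dvd.intro _ rfl)
    have h9 : (red E) ((red Q ^ n) ((red E) ((three Λ).mkQ x₁)))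
        = (three Λ).mkQ (E ((Q ^ n) (E x₁))) := by
      rw [← red_pow, red_mk, red_mk, red_mk]
    rw [h9]
    exact mk_eq_zero.2 key
  refine ⟨n, fun x => ?_⟩
  rw [← mk_eq_zero]
  have h8 : (three Λ).mkQ ((Q ^ n) x) = ((red Q) ^ n) ((three Λ).mkQ x) := by
    rw [← red_pow, red_mk]
  rw [hQ] at h8
  rw [h8]
  rw [← hQ]
  exact hzero _ (memX₁ _)

end Fermat.Agent.GE8.SQ3.Core
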