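/-
GATE-E / RISK-6 (helper10 board 7857) = **SQ3: `p = 3`, level `4L ⟹ 2L`** — the ABSTRACT CORE, Mathlib
only (helper17).  A cheaper route than the four-functor count `h(P(1)) = 2a + b`, `h(𝔽₃[S₃]) = 3a + 3b`:
NO twisted coefficients, NO short exact sequences of `𝔽₃[S₃]`-modules, NO localisation — only

* the two involutions `s₁ s₂` of `X = Hom(K, ℤ)` (`K = Γ₀(L) ∩ Γ(2) ≅ Γ₀(4L)`), conjugation by lifts of
  two transpositions of `Γ₀(L)/K = S₃`; `1 + sᵢ = res ∘ cores` through `Hᵢ ⊇ K` of index `2`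
  (`H₁ = Γ₀(2L)`, `H₂ = Γ₀(L) ∩ Γ⁰(2) ≅ Γ₀(2L)`) — so a Hecke polynomial `P` killing level `2L` mod `3`
  gives `P (1 + sᵢ) X ⊆ 3 X`  (hypotheses `h₁ h₂`);
* `D = s₁ s₂` = conjugation by an element of order `3` of `S₃`; `G² = K ⋊ ⟨D⟩ ⊆ Γ₀(L)`, index `3` over
  `K`; `c = cores : X → Y = Hom(G², ℤ)` ONTO with kernel `(D − 1) X` (ON MAIN in exactly this
  generality: helper24 `GE8/CaseB3/CoresModel3.CycQuot3.cores_int_surjective / cores_int_eq_zero`,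
  `q = 3` allowed because `G² ≤ Γ₀(L)` has no elliptic element of order `3` when a prime `r ≡ 2 (3)`
  divides `L`: `CaseB3/UFree`), `r = res`, `r ∘ c = 1 + D + D²`;
* ONE Eisenstein fact: `res y ∈ 3 X ⟹ (T_ℓ − ℓ − 1) y ∈ 3 Y` (pointwise: `c(g,i) g⁻¹ ∈ K` for
  representatives `≡ 1 (2)`), hypothesis `hE`.

Conclusion: `P · (T_ℓ − ℓ − 1) · P` kills `X` mod `3`, i.e. a killer of level `2L` outside `𝔪`
(non-Eisenstein) gives a killer of level `4L` outside `𝔪`:  `¬ ResMod₃ (2L) ⟹ ¬ ResMod₃ (4L)`.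

* `Killer3.d_fixed`   : `(1 + sᵢ) y ∈ 3X` (`i = 1, 2`) ⟹ `s₁ (s₂ y) − y ∈ 3X`;
* **`Killer3.killer`** : `∀ x, P (E (P x)) ∈ 3 X`.
-/
import Mathlib

set_option autoImplicit false

namespace Fermat.Agent.GE8.SQ3.KillerAbs

variable {X Y : Type*} [AddCommGroup X] [AddCommGroup Y]

/-- `x ∈ 3 X`. -/
def Div3 (x : X) : Prop := ∃ u : X, x = 3 • u

theorem Div3.add {x y : X} (hx : Div3 x) (hy : Div3 y) : Div3 (x + y) := by
  obtain ⟨u, rfl⟩ := hx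
  obtain ⟨v, rfl⟩ := hy
  exact ⟨u + v, (smul_add _ _ _).symm⟩

theorem Div3.neg {x : X} (hx : Div3 x) : Div3 (-x) := by
  obtain ⟨u, rfl⟩ := hx
  exact ⟨-u, (smul_neg _ _).symm⟩

theorem Div3.sub {x y : X} (hx : Div3 x) (hy : Div3 y) : Div3 (x - y) := by
  rw [sub_eq_add_neg]
  exact hx.add hy.neg

theorem Div3.map {x : X} (f : X →+ Y) (hx : Div3 x) : Div3 (f x) := by
  obtain ⟨u, rfl⟩ := hx
  exact ⟨f u, map_nsmul f _ _⟩

theorem div3_three_smul (x : X) : Div3 (3 • x) := ⟨x, rfl⟩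

/-- **the abstract datum**: `X = Hom(K, ℤ)`, `Y = Hom(G², ℤ)`. -/
structure Killer3 (X Y : Type*) [AddCommGroup X] [AddCommGroup Y] where
  /-- conjugation by lifts of two transpositions -/
  s₁ : X →+ X
  s₂ : X →+ X
  /-- the killer of level `2L` (a Hecke polynomial) on `X`, and on `Y` -/
  P : X →+ X
  /-- the Eisenstein operator `T_ℓ − ℓ − 1` on `X` and on `Y` -/
  E : X →+ X
  EY : Y →+ Y
  /-- corestriction `K → G²` and restriction -/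
  c : X →+ Y
  r : Y →+ X
  hPs₁ : ∀ x, P (s₁ x) = s₁ (P x)
  hPs₂ : ∀ x, P (s₂ x) = s₂ (P x)
  hEs₁ : ∀ x, E (s₁ x) = s₁ (E x)
  hEs₂ : ∀ x, E (s₂ x) = s₂ (E x)
  hPE : ∀ x, P (E x) = E (P x)
  hcE : ∀ x, c (E x) = EY (c x)
  /-- `res ∘ cores = 1 + D + D²`, `D = s₁ s₂` -/
  hrc : ∀ x, r (c x) = x + s₁ (s₂ x) + s₁ (s₂ (s₁ (s₂ x)))
  /-- `cores` is onto -/
  hcsurj : Function.Surjective c
  /-- `ker cores = (D − 1) X` -/
  hcker : ∀ x, c x = 0 → ∃ w, x = s₁ (s₂ w) - w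
  /-- level `2L` is killed by `P` mod `3`, through the two embeddings -/
  h₁ : ∀ x, Div3 (P (x + s₁ x))
  h₂ : ∀ x, Div3 (P (x + s₂ x))
  /-- the Eisenstein fact -/
  hE : ∀ y, Div3 (r y) → Div3 (EY y)

namespace Killer3

variable (K : Killer3 X Y)

/-- `D y ≡ y (3)` as soon as `(1 + sᵢ) y ≡ 0 (3)`, `i = 1, 2`. -/
theorem d_fixed {y : X} (h1 : Div3 (y + K.s₁ y)) (h2 : Div3 (y + K.s₂ y)) :
    Div3 (K.s₁ (K.s₂ y) - y) := by
  -- `s₁ (s₂ y) − y = s₁ (y + s₂ y) − (y + s₁ y)`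
  have e : K.s₁ (K.s₂ y) - y = K.s₁ (y + K.s₂ y) - (y + K.s₁ y) := by
    rw [map_add]
    abel
  rw [e]
  exact (h2.map K.s₁).sub h1

/-- `y = P x` satisfies `(1 + sᵢ) y ≡ 0 (3)`. -/
theorem p_anti₁ (x : X) : Div3 (K.P x + K.s₁ (K.P x)) := by
  have := K.h₁ x
  rwa [map_add, K.hPs₁] at this

theorem p_anti₂ (x : X) : Div3 (K.P x + K.s₂ (K.P x)) := by
  have := K.h₂ x
  rwa [map_add, K.hPs₂] at this

/-- `D (P x) ≡ P x (3)`. -/
theorem d_fixed_P (x : X) : Div3 (K.s₁ (K.s₂ (K.P x)) - K.P x) :=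
  K.d_fixed (K.p_anti₁ x) (K.p_anti₂ x)

/-- **the killer of level `4L`**: `P · E · P` kills `X` mod `3`. -/
theorem killer (x : X) : Div3 (K.P (K.E (K.P x))) := by
  set y := K.P x with hy
  have hD : Div3 (K.s₁ (K.s₂ y) - y) := K.d_fixed_P x
  -- `N y ≡ 3 y ≡ 0`
  have hN : Div3 (K.r (K.c y)) := by
    rw [K.hrc]
    have hD2 : Div3 (K.s₁ (K.s₂ (K.s₁ (K.s₂ y))) - K.s₁ (K.s₂ y)) := by
      have := (hD.map K.s₂).map K.s₁
      rwa [map_sub, map_sub] at this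
    have e : y + K.s₁ (K.s₂ y) + K.s₁ (K.s₂ (K.s₁ (K.s₂ y))) =
        3 • y + ((K.s₁ (K.s₂ y) - y) + (K.s₁ (K.s₂ y) - y)) +
          (K.s₁ (K.s₂ (K.s₁ (K.s₂ y))) - K.s₁ (K.s₂ y)) := by
      abel
    rw [e]
    exact ((div3_three_smul y).add (hD.add hD)).add hD2
  -- the Eisenstein step: `cores (E y) ∈ 3 Y = cores (3 X)`
  obtain ⟨v, hv⟩ := K.hE _ hN
  obtain ⟨x', rfl⟩ := K.hcsurj v
  have hker : K.c (K.E y - 3 • x') = 0 := by
    rw [map_sub, K.hcE, hv, map_nsmul, sub_self]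
  obtain ⟨w, hw⟩ := K.hcker _ hker
  -- `E y = (D − 1) w + 3 x'`
  have hEy : K.E y = (K.s₁ (K.s₂ w) - w) + 3 • x' := by
    rw [← hw]
    abel
  rw [hEy, map_add, map_sub, K.hPs₁, K.hPs₂, map_nsmul]
  exact (K.d_fixed_P w).add (div3_three_smul _)

end Killer3

end Fermat.Agent.GE8.SQ3.KillerAbs
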