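/-
GATE-E / RISK-6 SQ3, slice (K5) adapter (helper17, per helper90 OWNER NOTE 1 §3, board 7953):
**a `FreeCyclic.CycStep O L L0 3` IS a `KillerAbs.Killer3` datum** (`c := cores`, `r := res`, `E := t`,
`EY := t0`, `hcE := cores_t`, `hrc := res_cores`, `hcsurj := cores_surj`, `hcker := ker_cores`,
`hE := eis`) as soon as the conjugation `D` is the product `s₁ s₂` of two involution-type operators
commuting with `t` and with the level-`2L` killer `P` — so NO `Summand` / `summandOfLoc` / `IsLoc`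
transport is needed on the `K` side:

* `killer3OfCycStep` : the `Killer3 L L0` datum;
* **`killer_of_cycStep`** : `∀ x, ∃ u, P (t (P x)) = (3 : O) • u`.
-/
import Fermat.Agent.GB.B3.FreeCyclic
import Fermat.Agent.GE8.SQ3.KillerAbs

set_option autoImplicit false

namespace Fermat.Agent.GE8.SQ3.KillerOfCyc

open Fermat.Agent.GB.B3.FreeCyclic Fermat.Agent.GE8.SQ3.KillerAbs

variable {O L L0 : Type*} [CommRing O] [AddCommGroup L] [Module O L] [AddCommGroup L0]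
  [Module O L0]

theorem div3_iff {M : Type*} [AddCommGroup M] [Module O M] (x : M) :
    Div3 x ↔ ∃ u : M, x = (3 : O) • u := by
  constructor
  · rintro ⟨u, rfl⟩
    refine ⟨u, ?_⟩
    rw [← Nat.cast_smul_eq_nsmul O 3 u]
    norm_num
  · rintro ⟨u, rfl⟩
    refine ⟨u, ?_⟩
    rw [← Nat.cast_smul_eq_nsmul O 3 u]
    norm_num

/-- **a cyclic step of order `3` with `D = s₁ s₂` is a `Killer3` datum.** -/
def killer3OfCycStep (S : CycStep O L L0 3) (s₁ s₂ P : L →ₗ[O] L)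
    (hD : ∀ x, S.D x = s₁ (s₂ x))
    (hPs₁ : ∀ x, P (s₁ x) = s₁ (P x)) (hPs₂ : ∀ x, P (s₂ x) = s₂ (P x))
    (hts₁ : ∀ x, S.t (s₁ x) = s₁ (S.t x)) (hts₂ : ∀ x, S.t (s₂ x) = s₂ (S.t x))
    (hPt : ∀ x, P (S.t x) = S.t (P x))
    (h₁ : ∀ x, ∃ u, P (x + s₁ x) = (3 : O) • u) (h₂ : ∀ x, ∃ u, P (x + s₂ x) = (3 : O) • u) :
    Killer3 L L0 where
  s₁ := s₁.toAddMonoidHom
  s₂ := s₂.toAddMonoidHom
  P := P.toAddMonoidHom
  E := S.t.toAddMonoidHom
  EY := S.t0.toAddMonoidHom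
  c := S.cores.toAddMonoidHom
  r := S.res.toAddMonoidHom
  hPs₁ := hPs₁
  hPs₂ := hPs₂
  hEs₁ := hts₁
  hEs₂ := hts₂
  hPE := hPt
  hcE := S.cores_t
  hrc := fun x => by
    show S.res (S.cores x) = x + s₁ (s₂ x) + s₁ (s₂ (s₁ (s₂ x)))
    rw [S.res_cores, Finset.sum_range_succ, Finset.sum_range_succ, Finset.sum_range_one,
      pow_zero, pow_one, pow_two, Module.End.one_apply, Module.End.mul_apply, hD, hD]
  hcsurj := S.cores_surj
  hcker := fun x hx => by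
    obtain ⟨w, hw⟩ := S.ker_cores x hx
    exact ⟨w, by rw [hw, hD]; rfl⟩
  h₁ := fun x => (div3_iff (O := O) _).2 (h₁ x)
  h₂ := fun x => (div3_iff (O := O) _).2 (h₂ x)
  hE := fun y hy => by
    obtain ⟨z, hz⟩ := (div3_iff (O := O) _).1 hy
    obtain ⟨ψ', hψ'⟩ := S.eis y ⟨z, by rw [show ((3 : ℕ) : O) = 3 by norm_num]; exact hz⟩
    exact (div3_iff (O := O) _).2 ⟨ψ', by rw [← show ((3 : ℕ) : O) = 3 by norm_num]; exact hψ'⟩

/-- **the killer of level `4L` from a cyclic step of order `3`**: `P · t · P` maps `L` into `3 L`. -/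
theorem killer_of_cycStep (S : CycStep O L L0 3) (s₁ s₂ P : L →ₗ[O] L)
    (hD : ∀ x, S.D x = s₁ (s₂ x))
    (hPs₁ : ∀ x, P (s₁ x) = s₁ (P x)) (hPs₂ : ∀ x, P (s₂ x) = s₂ (P x))
    (hts₁ : ∀ x, S.t (s₁ x) = s₁ (S.t x)) (hts₂ : ∀ x, S.t (s₂ x) = s₂ (S.t x))
    (hPt : ∀ x, P (S.t x) = S.t (P x))
    (h₁ : ∀ x, ∃ u, P (x + s₁ x) = (3 : O) • u) (h₂ : ∀ x, ∃ u, P (x + s₂ x) = (3 : O) • u)
    (x : L) : ∃ u, P (S.t (P x)) = (3 : O) • u :=
  (div3_iff (O := O) _).1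
    ((killer3OfCycStep S s₁ s₂ P hD hPs₁ hPs₂ hts₁ hts₂ hPt h₁ h₂).killer x)

end Fermat.Agent.GE8.SQ3.KillerOfCyc
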