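/-
GATE-E (S59) / RISK-6 = node SQ3, **ABSTRACT ASSEMBLY of `Final.CoreStmt`** (helper90, SQ3 owner).
Mathlib + `GB/B3/FreeCyclic` + helper17's `KillerOfCyc` + `AsmAbs`.

`core_abs` : the conclusion of `Final.CoreStmt` from GENERATOR-LEVEL facts only.  Data:

* `a₄ a₂`   : the polynomial Hecke actions on `M₄ = Hom(Γ₀(4N), O)`, `M₂ = Hom(Γ₀(2N), O)` (`LevelGen.actN`);
* `e : L ≃ₗ[O] M₄` : the `δ`-transport (`Delta.conjDₗ`), `L = Hom(K, O)`;
* `S : CycStep O L L0 3` : the cyclic step `K ◁ G²` (`CycInst`, from `CycPlug3.cycStepSL3`);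
* `s₁ s₂`   : the two outer involutions of `L` (`OuterConj`), `S.D = s₁ ∘ s₂`;
* `res : M₂ → L` with `x + s₁ x ∈ range res` (index-`2` half `K ≤ Γ₀(2N)`, `HalfLevel`);

generator-level equivariance: `s₁`, `s₂` commute with every transported `T_s = e⁻¹ ∘ a₄ (X s) ∘ e`,
`res` intertwines `a₂ (X s)` with `T_s`, and `S.t = T_{s₀} − c`.  Then for every `t` with
`a₂ t = 0`:  `a₄ (t (X s₀ − c) t) x ∈ 3 M₄`.  (Neither `cores`-equivariance, nor the second subgroup
`H_l`, nor any localisation is needed: `AsmAbs.half_of_half`, `AsmAbs.map_act`.)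
-/
import Mathlib
import Fermat.Agent.GB.B3.FreeCyclic
import Fermat.Agent.GE8.SQ3.KillerOfCyc
import Fermat.Agent.GE8.SQ3.AsmAbs

set_option autoImplicit false

namespace Fermat.Agent.GE8.SQ3.CoreAbs

open MvPolynomial
open Fermat.Agent.GB.B3.FreeCyclic Fermat.Agent.GE8.SQ3.KillerOfCyc Fermat.Agent.GE8.SQ3.AsmAbs

variable {O : Type*} [CommRing O] {σ : Type*}
  {M₄ M₂ L L0 : Type*} [AddCommGroup M₄] [Module O M₄] [AddCommGroup M₂] [Module O M₂]
  [AddCommGroup L] [Module O L] [AddCommGroup L0] [Module O L0]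

/-- **the abstract assembly of the core of SQ3.** -/
theorem core_abs (a₄ : MvPolynomial σ O →ₐ[O] Module.End O M₄)
    (a₂ : MvPolynomial σ O →ₐ[O] Module.End O M₂) (e : L ≃ₗ[O] M₄)
    (S : CycStep O L L0 3) (s₁ s₂ : L →ₗ[O] L) (res : M₂ →ₗ[O] L)
    (hD : ∀ x, S.D x = s₁ (s₂ x))
    (hs₁ : ∀ x, s₁ (s₁ x) = x) (hs₂ : ∀ x, s₂ (s₂ x) = x)
    (hhalf : ∀ x : L, ∃ y : M₂, res y = x + s₁ x)
    (hs₁X : ∀ (s : σ) (x : L), a₄ (X s) (e (s₁ x)) = e (s₁ (e.symm (a₄ (X s) (e x)))))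
    (hs₂X : ∀ (s : σ) (x : L), a₄ (X s) (e (s₂ x)) = e (s₂ (e.symm (a₄ (X s) (e x)))))
    (hresX : ∀ (s : σ) (y : M₂), e (res (a₂ (X s) y)) = a₄ (X s) (e (res y)))
    (s₀ : σ) (c : O) (ht : ∀ x : L, e (S.t x) = a₄ (X s₀ - C c) (e x))
    (t : MvPolynomial σ O) (hkill : ∀ y : M₂, a₂ t y = 0) (x : M₄) :
    ∃ u : M₄, a₄ (t * (X s₀ - C c) * t) x = (3 : O) • u := by
  -- the transported action on `L`
  set aL : MvPolynomial σ O →ₐ[O] Module.End O L := transportAct a₄ e.symm with haL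
  have haL_apply : ∀ (p : MvPolynomial σ O) (z : L), aL p z = e.symm (a₄ p (e z)) := fun p z => by
    rw [haL, transportAct_apply, LinearEquiv.symm_symm]
  have heaL : ∀ (p : MvPolynomial σ O) (z : L), e (aL p z) = a₄ p (e z) := fun p z => by
    rw [haL_apply, LinearEquiv.apply_symm_apply]
  set P : L →ₗ[O] L := aL t with hP
  -- `s₁`, `s₂` commute with every polynomial
  have hs₁P : ∀ (p : MvPolynomial σ O) (z : L), s₁ (aL p z) = aL p (s₁ z) := fun p z =>
    comm_act aL s₁ (fun s z => by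
      rw [haL_apply, haL_apply, hs₁X s z, LinearEquiv.symm_apply_apply]) p z
  have hs₂P : ∀ (p : MvPolynomial σ O) (z : L), s₂ (aL p z) = aL p (s₂ z) := fun p z =>
    comm_act aL s₂ (fun s z => by
      rw [haL_apply, haL_apply, hs₂X s z, LinearEquiv.symm_apply_apply]) p z
  -- `S.t` is the action of `X s₀ − c`
  have htL : ∀ z : L, S.t z = aL (X s₀ - C c) z := fun z => by
    apply e.injective
    rw [ht, heaL]
  -- `res` intertwines
  have hresP : ∀ (p : MvPolynomial σ O) (y : M₂), res (a₂ p y) = aL p (res y) := fun p y =>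
    map_act a₂ aL res (fun s y => by
      apply e.injective
      rw [hresX, heaL]) p y
  -- the first half
  have h₁ : ∀ z : L, ∃ u, P (z + s₁ z) = (3 : O) • u := by
    intro z
    obtain ⟨y, hy⟩ := hhalf z
    refine ⟨0, ?_⟩
    rw [← hy, hP, ← hresP, hkill, map_zero, smul_zero]
  have hD3 : ∀ z, S.D (S.D (S.D z)) = z := by
    intro z
    have h := LinearMap.congr_fun S.D_pow z
    rw [pow_succ, pow_succ, pow_one, Module.End.mul_apply, Module.End.mul_apply,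
      Module.End.one_apply] at h
    exact h
  have hPs₁ : ∀ z, P (s₁ z) = s₁ (P z) := fun z => (hs₁P t z).symm
  have hPs₂ : ∀ z, P (s₂ z) = s₂ (P z) := fun z => (hs₂P t z).symm
  have h₂ : ∀ z : L, ∃ u, P (z + s₂ z) = (3 : O) • u :=
    half_of_half S.D s₁ s₂ P hD hs₁ hs₂ hD3 hPs₁ hPs₂ h₁
  -- the killer
  obtain ⟨u, hu⟩ := killer_of_cycStep S s₁ s₂ P hD hPs₁ hPs₂
    (fun z => by rw [htL, htL, hs₁P]) (fun z => by rw [htL, htL, hs₂P])
    (fun z => by rw [htL, htL, hP]; exact act_mul_comm aL _ _ z) h₁ h₂ (e.symm x)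
  refine ⟨e u, ?_⟩
  rw [← map_smul, ← hu, htL, hP, heaL, heaL, heaL, LinearEquiv.apply_symm_apply, map_mul, map_mul,
    Module.End.mul_apply, Module.End.mul_apply]

end Fermat.Agent.GE8.SQ3.CoreAbs
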