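/-
GATE-E (S59) / RISK-6, node SQ3, slice (K2) (helper46): **outer conjugations on `Hom(K, O)` and the
transport between two spellings of the same subgroup.**

`K ◁ Γ` is the kernel of `χ : Γ →* Δ` (`Δ` ANY group, e.g. `Γ = Γ₀(N)`, `χ = ` reduction mod `2`,
`Δ = SL₂(𝔽₂) = S₃`).  Conjugation by `u ∈ Γ` acts on `Hom(K, A)` through the diamond system
`KerSys.diaK χ u`; by `KerSys.dia_kerSys_op` it commutes with every restricted Hecke system
`kerSys S χ h`.  The cyclic step of SQ3 (`GE8/CaseB3/CycPlug3.cycStepSL3`) is stated for ANOTHER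
spelling `K₂` of the same subgroup (`K₂ = kerSub χ₂`, `χ₂ : G² →* A₃`, `G² = kerSub (sgn ∘ χ)`),
with its own coset systems.  This file provides

* `castAdd h : Hom(K₁, A) ≃+ Hom(K₂, A)` for `h : K₁ = K₂`, `castLin` (the `O`-linear form);
* **`op_cast`** : two coset systems on `K₁ = K₂` with the SAME representatives (the second one with
  distinct cosets) have the same operator across `castAdd`;  `op_cast_unit` (one representative);
* `dia_dia_self`, `dia_dia` : `⟨u⟩⟨u⟩ = 1` when `χ (u * u) = 1`, `⟨u⟩⟨l⟩ = ⟨d⟩` when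
  `χ (l * u) = χ d`;
* the transported involutions `sOn h u` on `Hom(K₂, O)`, with
  `sOn_sOn_self` (`s² = 1`), **`sOn_comm`** (they commute with ANY coset system on `K₂` having the
  representatives of `S`, distinct cosets: e.g. the Hecke system of `cycStepSL3`) and
  **`sOn_sOn_eq`** (`s_u s_l` is the operator of ANY one-representative system with representative
  `emb d`, `χ (l * u) = χ d`: e.g. the `D` of `cycStepSL3`).
-/
import Mathlib
import Fermat.Agent.GB.B3.KerSys
import Fermat.Agent.GB.B3.CycInst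

set_option autoImplicit false
set_option linter.unusedSectionVars false

namespace Fermat.Agent.GE8.SQ3.OuterConj

open Fermat.Agent.GM.B Fermat.Agent.GB.B3 Fermat.Agent.GB.B3.CycInst

variable {H G : Type*} [Group H] [Group G] {emb : H →* G}

/-! ### transport along an equality of subgroups -/

section Cast

variable {K₁ K₂ : Subgroup H}

/-- the identification `K₂ → K₁` for `K₁ = K₂` -/
def castHom (h : K₁ = K₂) : K₂ →* K₁ := Subgroup.inclusion h.ge

@[simp] theorem coe_castHom (h : K₁ = K₂) (k : K₂) : ((castHom h k : K₁) : H) = (k : H) := rfl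

/-- the transport `Hom(K₁, A) ≃+ Hom(K₂, A)` -/
def castAdd (h : K₁ = K₂) (A : Type*) [AddCommGroup A] :
    (Additive K₁ →+ A) ≃+ (Additive K₂ →+ A) where
  toFun φ := φ.comp (MonoidHom.toAdditive (castHom h))
  invFun ψ := ψ.comp (MonoidHom.toAdditive (castHom h.symm))
  left_inv φ := by
    refine AddMonoidHom.ext fun k => ?_
    rfl
  right_inv ψ := by
    refine AddMonoidHom.ext fun k => ?_
    rfl
  map_add' φ ψ := by
    refine AddMonoidHom.ext fun k => ?_
    rfl

theorem castAdd_apply (h : K₁ = K₂) {A : Type*} [AddCommGroup A] (φ : Additive K₁ →+ A)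
    (k : K₂) : castAdd h A φ (Additive.ofMul k) = φ (Additive.ofMul (castHom h k)) := rfl

theorem castAdd_symm_apply (h : K₁ = K₂) {A : Type*} [AddCommGroup A] (ψ : Additive K₂ →+ A)
    (k : K₁) : (castAdd h A).symm ψ (Additive.ofMul k) = ψ (Additive.ofMul (castHom h.symm k)) :=
  rfl

theorem castAdd_rfl {K : Subgroup H} {A : Type*} [AddCommGroup A] (φ : Additive K →+ A) :
    castAdd (rfl : K = K) A φ = φ := by
  refine AddMonoidHom.ext fun k => ?_
  rfl

/-- the `O`-linear transport -/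
def castLin (h : K₁ = K₂) (O : Type*) [CommRing O] :
    (Additive K₁ →+ O) ≃ₗ[O] (Additive K₂ →+ O) where
  __ := castAdd h O
  map_smul' c φ := by
    refine AddMonoidHom.ext fun k => ?_
    rfl

theorem castLin_apply (h : K₁ = K₂) {O : Type*} [CommRing O] (φ : Additive K₁ →+ O) :
    castLin h O φ = castAdd h O φ := rfl

theorem castLin_symm_apply (h : K₁ = K₂) {O : Type*} [CommRing O] (ψ : Additive K₂ →+ O) :
    (castLin h O).symm ψ = (castAdd h O).symm ψ := rfl

/-- **Two coset systems on `K₁ = K₂` with the same representatives have the same operator.** -/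
theorem op_cast (hemb : Function.Injective emb) (h : K₁ = K₂) (S₁ : CosetSys emb K₁ K₁)
    (S₂ : CosetSys emb K₂ K₂) (e : S₁.ι ≃ S₂.ι) (ha : ∀ i, S₂.a (e i) = S₁.a i)
    (hd : S₂.Distinct) {A : Type*} [AddCommGroup A] (φ : Additive K₁ →+ A) :
    castAdd h A (S₁.op A φ) = S₂.op A (castAdd h A φ) := by
  subst h
  rw [castAdd_rfl, castAdd_rfl]
  refine (CosetSys.op_eq_of_cosets S₁ S₂ hemb hd e 1 (fun x => by rw [one_mul, mul_one])
    (fun _ => 1) ?_ φ).symm
  intro i
  rw [ha, one_mul, OneMemClass.coe_one, map_one, one_mul]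

/-- a system with one representative has distinct cosets -/
theorem distinct_of_unique {Γ₁ Γ₂ : Subgroup H} (S : CosetSys emb Γ₁ Γ₂) [Subsingleton S.ι] :
    S.Distinct := fun i j _ _ => Subsingleton.elim i j

/-- `op_cast` for systems with ONE representative. -/
theorem op_cast_unit (hemb : Function.Injective emb) (h : K₁ = K₂) (S₁ : CosetSys emb K₁ K₁)
    (S₂ : CosetSys emb K₂ K₂) [Unique S₁.ι] [Unique S₂.ι]
    (ha : S₂.a default = S₁.a default) {A : Type*} [AddCommGroup A] (φ : Additive K₁ →+ A) :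
    castAdd h A (S₁.op A φ) = S₂.op A (castAdd h A φ) := by
  refine op_cast hemb h S₁ S₂ (Equiv.ofUnique _ _) (fun i => ?_) (distinct_of_unique S₂) φ
  rw [Unique.eq_default i, Unique.eq_default ((Equiv.ofUnique S₁.ι S₂.ι) default)]
  exact ha

end Cast

/-! ### the diamond operators of a (possibly non-commutative) quotient -/

section Dia

variable {Γ : Subgroup H} {Δ : Type} [Group Δ] (χ : Γ →* Δ)

/-- `⟨u⟩ ⟨u⟩ = 1` when `u² ∈ ker χ` -/
theorem dia_dia_self (u : Γ) (hu : χ (u * u) = 1) {A : Type*} [AddCommGroup A]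
    (ψ : Additive (kerSub χ) →+ A) :
    (diaK emb χ u).op A ((diaK emb χ u).op A ψ) = ψ := by
  rw [← dia_mul, dia_of_ker χ _ hu]

/-- `⟨u⟩ ⟨l⟩ = ⟨d⟩` when `χ (l * u) = χ d` -/
theorem dia_dia (u l d : Γ) (hd : χ (l * u) = χ d) {A : Type*} [AddCommGroup A]
    (ψ : Additive (kerSub χ) →+ A) :
    (diaK emb χ u).op A ((diaK emb χ l).op A ψ) = (diaK emb χ d).op A ψ := by
  rw [← dia_mul, dia_congr χ _ _ hd]

instance (d : Γ) : Unique (diaK emb χ d).ι := inferInstanceAs (Unique Unit)

end Dia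

/-! ### the transported outer conjugations -/

section Outer

variable {Γ : Subgroup H} {Δ : Type} [Group Δ] (χ : Γ →* Δ) {K₂ : Subgroup H}
  (h : kerSub χ = K₂) (O : Type*) [CommRing O]

/-- **conjugation by `u ∈ Γ` on `Hom(K₂, O)`**, `K₂` any spelling of `ker χ` -/
noncomputable def sOn (u : Γ) : (Additive K₂ →+ O) →ₗ[O] (Additive K₂ →+ O) :=
  (castLin h O).toLinearMap ∘ₗ opLin O (diaK emb χ u) ∘ₗ (castLin h O).symm.toLinearMap

theorem sOn_apply (u : Γ) (ψ : Additive K₂ →+ O) :
    sOn (emb := emb) χ h O u ψ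
      = castAdd h O ((diaK emb χ u).op O ((castAdd h O).symm ψ)) := rfl

/-- the value of the transported conjugation: `(s_u ψ)(k) = ψ(u k u⁻¹)` -/
theorem sOn_apply_apply (u : Γ) (ψ : Additive K₂ →+ O) (k : K₂) (k' : K₂)
    (hk' : (k' : H) = (u : H) * (k : H) * (u : H)⁻¹) :
    sOn (emb := emb) χ h O u ψ (Additive.ofMul k) = ψ (Additive.ofMul k') := by
  rw [sOn_apply, castAdd_apply, diaK_op_apply, castAdd_symm_apply]
  congr 2
  apply Subtype.ext
  rw [hk']
  rfl

/-- `s_u² = 1` when `u² ∈ ker χ` -/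
theorem sOn_sOn_self (u : Γ) (hu : χ (u * u) = 1) (ψ : Additive K₂ →+ O) :
    sOn (emb := emb) χ h O u (sOn (emb := emb) χ h O u ψ) = ψ := by
  rw [sOn_apply, sOn_apply, AddEquiv.symm_apply_apply, dia_dia_self χ u hu,
    AddEquiv.apply_symm_apply]

/-- **the transported conjugations commute with every coset system on `K₂` that has the
representatives of a `χ`-compatible system `S` on `Γ`** (distinct cosets) -/
theorem sOn_comm (hemb : Function.Injective emb) (S : CosetSys emb Γ Γ) (hS : Compat S χ)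
    (S₂ : CosetSys emb K₂ K₂) (e : S.ι ≃ S₂.ι) (ha : ∀ i, S₂.a (e i) = S.a i)
    (hd : S₂.Distinct) (u : Γ) (ψ : Additive K₂ →+ O) :
    sOn (emb := emb) χ h O u (S₂.op O ψ) = S₂.op O (sOn (emb := emb) χ h O u ψ) := by
  have key : ∀ φ : Additive (kerSub χ) →+ O,
      castAdd h O ((kerSys S χ hS).op O φ) = S₂.op O (castAdd h O φ) :=
    fun φ => op_cast hemb h (kerSys S χ hS) S₂ e ha hd φ
  have key' : ∀ ψ' : Additive K₂ →+ O,
      (castAdd h O).symm (S₂.op O ψ') = (kerSys S χ hS).op O ((castAdd h O).symm ψ') := by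
    intro ψ'
    rw [AddEquiv.symm_apply_eq, key, AddEquiv.apply_symm_apply]
  rw [sOn_apply, sOn_apply, key', dia_kerSys_op hemb S χ hS u, key]

/-- **`s_u s_l` is the operator of ANY one-representative system on `K₂` with representative
`emb d`, `χ (l * u) = χ d`** (e.g. the diamond `D` of a cyclic step through an intermediate group) -/
theorem sOn_sOn_eq (hemb : Function.Injective emb) (u l d : Γ) (hd : χ (l * u) = χ d)
    (D₂ : CosetSys emb K₂ K₂) [Unique D₂.ι] (ha : D₂.a default = emb ((d : Γ) : H))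
    (ψ : Additive K₂ →+ O) :
    sOn (emb := emb) χ h O u (sOn (emb := emb) χ h O l ψ) = D₂.op O ψ := by
  rw [sOn_apply, sOn_apply, AddEquiv.symm_apply_apply, dia_dia χ u l d hd,
    op_cast_unit hemb h (diaK emb χ d) D₂ (by rw [ha]; rfl), AddEquiv.apply_symm_apply]

/-- the linear form of `sOn_sOn_eq`, against `CycInst.opLin` -/
theorem sOn_comp_sOn_eq (hemb : Function.Injective emb) (u l d : Γ) (hd : χ (l * u) = χ d)
    (D₂ : CosetSys emb K₂ K₂) [Unique D₂.ι] (ha : D₂.a default = emb ((d : Γ) : H)) :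
    sOn (emb := emb) χ h O u ∘ₗ sOn (emb := emb) χ h O l = opLin O D₂ :=
  LinearMap.ext fun ψ => sOn_sOn_eq χ h O hemb u l d hd D₂ ha ψ

/-- the linear form of `sOn_comm` -/
theorem sOn_comp_opLin (hemb : Function.Injective emb) (S : CosetSys emb Γ Γ) (hS : Compat S χ)
    (S₂ : CosetSys emb K₂ K₂) (e : S.ι ≃ S₂.ι) (ha : ∀ i, S₂.a (e i) = S.a i)
    (hd : S₂.Distinct) (u : Γ) :
    sOn (emb := emb) χ h O u ∘ₗ opLin O S₂ = opLin O S₂ ∘ₗ sOn (emb := emb) χ h O u :=
  LinearMap.ext fun ψ => sOn_comm χ h O hemb S hS S₂ e ha hd u ψ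

end Outer

end Fermat.Agent.GE8.SQ3.OuterConj
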