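/-
GATE-E (S59) / RISK-6 = node SQ3, **the CONCRETE ASSEMBLY of `Final.CoreStmt` modulo the cyclic step**
(helper46).  ONE instantiation of helper90's `CoreAbs.core_abs` at

* `K = kerSub (rho2 N) = Γ₀(N) ∩ Γ(2)` (helper95 `Hecke2`, `K2Plug.isK2_kerSub_rho2`),
* `e = Delta.conjDₗ` : `Hom(K, O) ≃ₗ Hom(Γ₀(N*2*2), O)` (helper42), `a₄ a₂ = LevelGen.actN` at `N*2*2`, `N*2`,
* `T_s = heckeK` (helper95 `K2Plug.conjD_heckeK` : transported to `cohT` at level `N*2*2`),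
* `s₁ = ⟨T⟩` (`= HalfLevel.s1Sys`, `s1Sys_op_eq`), `s₂ = ⟨l⟩` for ANY `l ∈ Γ₀(N)` with `ρ(l)² = 1`
  (`OuterConj.dia_dia_self`, `KerSys.dia_kerSys_op`),
* `res = HalfLevel.resHK` (`exists_res_eq`, `resHK_cohT`),

for ANY cyclic step `S : CycStep O Hom(K, O) L0 3` with `S.D = ⟨l · T⟩` and `S.t = T_{s₀} − (pr s₀ + 1)`
(= the closed forms `cycStepK_D`, `cycStepK_t` of helper33's `CycInst.cycStepK`; the concrete leaf is
helper90's `Leaf.exists_cycStep`).  `core_of_cycStep` is the conclusion of `Final.CoreStmt`.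
-/
import Mathlib
import Fermat.Agent.GE8.SQ3.CoreAbs
import Fermat.Agent.GE8.SQ3.K2Plug
import Fermat.Agent.GE8.SQ3.HalfLevel
import Fermat.Agent.GE8.SQ3.OuterConj
import Fermat.Agent.GB.B8.LevelGen

set_option autoImplicit false
set_option linter.unusedSectionVars false
set_option linter.unusedVariables false
set_option linter.style.haveILetI false

open scoped MatrixGroups
open CongruenceSubgroup Matrix Matrix.SpecialLinearGroup ModularCurve.Period
open Fermat.Agent.S16_helper49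
open Fermat.Agent.GM.B
open scoped OnePoint

namespace Fermat.Agent.GE8.SQ3.CoreAsm

open MvPolynomial
open Fermat.Agent.GB.B3 Fermat.Agent.GB.B3.CycInst Fermat.Agent.GB.B3.FreeCyclic
open Fermat.Agent.GB.B8.LevelGen
open Fermat.Agent.GE8.SQ3.Hecke2 Fermat.Agent.GE8.SQ3.Delta Fermat.Agent.GE8.SQ3.K2Plug
open Fermat.Agent.GE8.SQ3.HalfLevel

variable {N : ℕ}

/-! ### the half-level involution is the diamond of `T` -/

/-- `HalfLevel.s1Sys` (conjugation by `uT 1`) is the diamond operator of `T ∈ Γ₀(N)` -/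
theorem s1Sys_op_eq {A : Type*} [AddCommGroup A] (φ : Additive (kerSub (rho2 N)) →+ A) :
    (s1Sys (isK2_kerSub_rho2 N)).op A φ = (diaK embR (rho2 N) (TL N)).op A φ := by
  refine AddMonoidHom.ext fun k => ?_
  obtain ⟨k, rfl⟩ : ∃ k' : kerSub (rho2 N), Additive.ofMul k' = k := ⟨Additive.toMul k, rfl⟩
  rw [s1_apply, diaK_op_apply]
  rfl

/-- `ρ(T)² = 1` in `SL₂(𝔽₂)` -/
theorem rho2_TL_mul_self : rho2 N (TL N * TL N) = 1 := by
  rw [rho2_eq_one_iff]
  have h : (((TL N * TL N : Gamma0 N) : Gamma0 N) : SL(2, ℤ)) = uT 2 := by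
    show ModularGroup.T * ModularGroup.T = uT 2
    rw [← uT_one, uT_mul_uT]
    norm_num
  rw [h]
  constructor
  · refine ⟨1, ?_⟩
    simp [uT, Fermat.Agent.GM.Amalgam.mkZ]
  · refine ⟨0, ?_⟩
    simp [uT, Fermat.Agent.GM.Amalgam.mkZ]

section Main

variable (O : Type) [CommRing O] {σ : Type} (pr : σ → ℕ) (hpr : ∀ s, (pr s).Prime)

/-- the mod-2 Hecke system of the symbol `s` on `K` -/
noncomputable def hK (hprN : ∀ s, ¬ pr s ∣ N * 2 * 2) (s : σ) :
    CosetSys embR (kerSub (rho2 N)) (kerSub (rho2 N)) :=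
  @heckeK N (pr s) ⟨hpr s⟩ (@not_dvd_of_not_dvd_four N (pr s) ⟨hpr s⟩ (hprN s))
    (@ne_two_of_not_dvd_four N (pr s) ⟨hpr s⟩ (hprN s))

/-- **(K4)**: the `δ`-transport turns the symbol `X s` at level `N*2*2` into `hK s` -/
theorem act4_X (hN2 : ¬ 2 ∣ N) (hprN : ∀ s, ¬ pr s ∣ N * 2 * 2) (s : σ)
    (x : Additive (kerSub (rho2 N)) →+ O) :
    actN O pr hpr (N * 2 * 2) (X s) (conjDₗ O (isK2_kerSub_rho2 N) hN2 x)
      = conjDₗ O (isK2_kerSub_rho2 N) hN2 ((hK pr hpr hprN s).op O x) := by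
  haveI : Fact (pr s).Prime := ⟨hpr s⟩
  rw [actN_X_of_not_dvd O pr hpr s (hprN s), conjDₗ_apply, conjDₗ_apply]
  exact (conjD_heckeK hN2 (hprN s) x).symm

theorem not_dvd_two (hprN : ∀ s, ¬ pr s ∣ N * 2 * 2) (s : σ) : ¬ pr s ∣ N * 2 :=
  fun h => hprN s (Dvd.dvd.mul_right h 2)

/-- **(K3)**: restriction from level `N*2` turns the symbol `X s` into `hK s` -/
theorem res_act2_X (hN2 : ¬ 2 ∣ N) (hprN : ∀ s, ¬ pr s ∣ N * 2 * 2) (s : σ)
    (y : Additive (Gamma0 (N * 2)) →+ O) :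
    (resHK (isK2_kerSub_rho2 N) hN2).op O (actN O pr hpr (N * 2) (X s) y)
      = (hK pr hpr hprN s).op O ((resHK (isK2_kerSub_rho2 N) hN2).op O y) := by
  haveI : Fact (pr s).Prime := ⟨hpr s⟩
  rw [actN_X_of_not_dvd O pr hpr s (not_dvd_two pr hprN s)]
  exact resHK_cohT (isK2_kerSub_rho2 N) hN2 (not_dvd_two pr hprN s) (hK pr hpr hprN s)
    (Equiv.refl _) (fun x => ((eps x : ℕ) : ℤ)) (fun x => heckeK_a _ _ x) y

/-- **(K2)**: every diamond operator of `Γ₀(N)` commutes with `hK s` -/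
theorem dia_hK (hprN : ∀ s, ¬ pr s ∣ N * 2 * 2) (s : σ) (d : Gamma0 N)
    (x : Additive (kerSub (rho2 N)) →+ O) :
    (diaK embR (rho2 N) d).op O ((hK pr hpr hprN s).op O x)
      = (hK pr hpr hprN s).op O ((diaK embR (rho2 N) d).op O x) := by
  haveI : Fact (pr s).Prime := ⟨hpr s⟩
  exact dia_kerSys_op embR_injective
    (hecke2Sys (not_dvd_of_not_dvd_four (hprN s))) (rho2 N)
    (hecke2Sys_compat (not_dvd_of_not_dvd_four (hprN s)) (ne_two_of_not_dvd_four (hprN s))) d x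

/-- **the conclusion of `Final.CoreStmt` from ONE cyclic step** on `Hom(K, O)`, `K = Γ₀(N) ∩ Γ(2)`,
with `D = ⟨l · T⟩` (`ρ(l)² = 1`) and `t = T_{s₀} − (pr s₀ + 1)`. -/
theorem core_of_cycStep (hN2 : ¬ 2 ∣ N) (hprN : ∀ s, ¬ pr s ∣ N * 2 * 2) (t : MvPolynomial σ O)
    (hkill : ∀ φ : Additive (Gamma0 (N * 2)) →+ O, actN O pr hpr (N * 2) t φ = 0)
    (s₀ : σ) (l : Gamma0 N) (hl : rho2 N (l * l) = 1)
    {L0 : Type*} [AddCommGroup L0] [Module O L0]
    (S : CycStep O (Additive (kerSub (rho2 N)) →+ O) L0 3)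
    (hSD : ∀ x, S.D x = (diaK embR (rho2 N) (l * TL N)).op O x)
    (hSt : ∀ x, S.t x = (hK pr hpr hprN s₀).op O x - (pr s₀ + 1) • x)
    (x : Additive (Gamma0 (N * 2 * 2)) →+ O) :
    ∃ u : Additive (Gamma0 (N * 2 * 2)) →+ O,
      actN O pr hpr (N * 2 * 2) (t * (X s₀ - C (((pr s₀ + 1 : ℕ) : O))) * t) x = (3 : O) • u := by
  refine CoreAbs.core_abs (actN O pr hpr (N * 2 * 2)) (actN O pr hpr (N * 2))
    (conjDₗ O (isK2_kerSub_rho2 N) hN2) S
    (opLin O (diaK embR (rho2 N) (TL N))) (opLin O (diaK embR (rho2 N) l))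
    (opLin O (resHK (isK2_kerSub_rho2 N) hN2)) ?_ ?_ ?_ ?_ ?_ ?_ ?_ s₀ (((pr s₀ + 1 : ℕ) : O)) ?_
    t hkill x
  · -- `D = s₁ ∘ s₂`
    intro x
    rw [hSD, opLin_apply, opLin_apply, dia_mul]
  · -- `s₁² = 1`
    intro x
    rw [opLin_apply, opLin_apply]
    exact OuterConj.dia_dia_self (rho2 N) (TL N) rho2_TL_mul_self x
  · -- `s₂² = 1`
    intro x
    rw [opLin_apply, opLin_apply]
    exact OuterConj.dia_dia_self (rho2 N) l hl x
  · -- the half
    intro x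
    obtain ⟨y, hy, -⟩ := exists_res_eq (isK2_kerSub_rho2 N) hN2 x
    exact ⟨y, by rw [opLin_apply, opLin_apply, hy, s1Sys_op_eq]⟩
  · -- `s₁` commutes with the symbols
    intro s x
    rw [act4_X O pr hpr hN2 hprN, act4_X O pr hpr hN2 hprN, LinearEquiv.symm_apply_apply,
      opLin_apply, opLin_apply, dia_hK]
  · -- `s₂` commutes with the symbols
    intro s x
    rw [act4_X O pr hpr hN2 hprN, act4_X O pr hpr hN2 hprN, LinearEquiv.symm_apply_apply,
      opLin_apply, opLin_apply, dia_hK]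
  · -- `res` intertwines
    intro s y
    rw [opLin_apply, opLin_apply, res_act2_X O pr hpr hN2 hprN, act4_X O pr hpr hN2 hprN]
  · -- `S.t = T_{s₀} − (pr s₀ + 1)`
    intro x
    rw [map_sub, LinearMap.sub_apply, act4_X O pr hpr hN2 hprN, MvPolynomial.algHom_C,
      Algebra.algebraMap_eq_smul_one, LinearMap.smul_apply, Module.End.one_apply, hSt, map_sub,
      ← map_smul, Nat.cast_smul_eq_nsmul]

end Main

end Fermat.Agent.GE8.SQ3.CoreAsm
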