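/-
GATE-E (S59) / RISK-6 / node **SQ3**, slice (K1), concrete half (helper33): **the cyclic step of
order `3` for `K = Γ₀(N) ∩ Γ(2) ◁ G²`** (`N` odd, a prime `r ≡ 2 (3)` dividing `N`), and the
resulting **killer statement on `Hom(K, O)` with NO `CycStep` in the statement**.

* `red2`, `rho2 N : Γ₀(N) →* SL₂(𝔽₂)`, `mem_kerSub_rho2_iff` (`= Delta.IsK2 N (kerSub (rho2 N))` unfolded);
* `eps`, `sgn2 : SL₂(𝔽₂) →* Multiplicative (ZMod 2)` (the sign of `S₃`), `card_ker_sgn2`, `comm_ker_sgn2`;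
* `tauU N = T`, `tauL N = (1 0; N 1)`, `d0 N = tauU N * tauL N` (order `3` mod `K`);
* `cycStepGamma0 : CycStep O Hom(kerSub (rho2 N), O) Hom(kerSub (sgn2 ∘ rho2 N), O) 3` (`CycInst.cycStepK`),
  with `cycStepGamma0_D`, `cycStepGamma0_t`;
* **`killer_Gamma0`** : `P` commuting with `s_u`, `s_l` (conjugation by `T`, `(1 0; N 1)`) and with
  `T^K` (`kerSys S₀ (rho2 N) h₀`), `P (x + s_u x) ∈ 3 L`, `P (x + s_l x) ∈ 3 L` ⟹
  `P ((T^K - card ι) (P x)) ∈ 3 L`;  **`killer_Gamma0'`** : the same from `P (x + s_u x) ∈ 3 L` alone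
  (`s_l = D⁻¹ s_u D`).
-/
import Mathlib
import Fermat.Agent.GE8.SQ3.CycInst
import Fermat.Agent.GE8.SQ3.KillerOfCyc
import Fermat.Agent.GE8.CaseB3.UFree

set_option autoImplicit false
set_option linter.unusedSectionVars false
set_option linter.style.haveILetI false

open scoped MatrixGroups
open CongruenceSubgroup

namespace Fermat.Agent.GE8.SQ3.CycInstGamma0

open Fermat.Agent.GM.B Fermat.Agent.GB.B3 Fermat.Agent.GB.B3.FreeCyclic
  Fermat.Agent.GB.B3.CycInst Fermat.Agent.GE8.SQ3.CycInst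

/-! ### the sign character of `SL₂(𝔽₂) = S₃` -/

/-- the sign of `S₃ = SL₂(𝔽₂)`, additively: `(a b; c d) ↦ b + c + (a + 1)(d + 1)` -/
def eps (M : SL(2, ZMod 2)) : ZMod 2 := M 0 1 + M 1 0 + (M 0 0 + 1) * (M 1 1 + 1)

theorem eps_mul : ∀ M N : SL(2, ZMod 2), eps (M * N) = eps M + eps N := by decide

theorem eps_one : eps 1 = 0 := by decide

/-- **the sign character** `SL₂(𝔽₂) →* Multiplicative (ZMod 2)` -/
def sgn2 : SL(2, ZMod 2) →* Multiplicative (ZMod 2) where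
  toFun M := Multiplicative.ofAdd (eps M)
  map_one' := by rw [eps_one]; rfl
  map_mul' M N := by rw [eps_mul]; rfl

theorem sgn2_apply (M : SL(2, ZMod 2)) : sgn2 M = Multiplicative.ofAdd (eps M) := rfl

theorem mem_ker_sgn2 (M : SL(2, ZMod 2)) : M ∈ sgn2.ker ↔ eps M = 0 := Iff.rfl

instance decMemKerSgn2 : DecidablePred (· ∈ sgn2.ker) := fun M =>
  decidable_of_iff (eps M = 0) (mem_ker_sgn2 M).symm

theorem card_ker_sgn2 : Fintype.card sgn2.ker = 3 := by decide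

theorem comm_ker_sgn2 : ∀ a b : sgn2.ker, a * b = b * a := by decide

/-- odd elements are involutions -/
theorem mul_self_of_eps : ∀ M : SL(2, ZMod 2), eps M = 1 → M * M = 1 := by decide

/-- the product of two distinct odd elements is not `1` -/
theorem mul_ne_one_of_eps : ∀ M M' : SL(2, ZMod 2), eps M = 1 → eps M' = 1 → M ≠ M' →
    M * M' ≠ 1 := by decide

/-! ### reduction modulo `2` -/

/-- reduction modulo `2` -/
def red2 : SL(2, ℤ) →* SL(2, ZMod 2) :=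
  Matrix.SpecialLinearGroup.map (Int.castRingHom (ZMod 2))

theorem red2_apply (g : SL(2, ℤ)) (i j : Fin 2) : red2 g i j = ((g i j : ℤ) : ZMod 2) := by
  unfold red2
  rw [Matrix.SpecialLinearGroup.map_apply_coe, RingHom.mapMatrix_apply, Matrix.map_apply,
    Int.coe_castRingHom]

/-- reduction modulo `2` on `Γ₀(N)` -/
def rho2 (N : ℕ) : Gamma0 N →* SL(2, ZMod 2) := red2.comp (Gamma0 N).subtype

theorem rho2_apply (N : ℕ) (g : Gamma0 N) : rho2 N g = red2 (g : SL(2, ℤ)) := rfl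

theorem zmod2_of_mul_eq_one : ∀ a d : ZMod 2, a * d = 1 → a = 1 ∧ d = 1 := by decide

/-- `red2 g = 1` iff the off-diagonal entries are even -/
theorem red2_eq_one_iff (g : SL(2, ℤ)) : red2 g = 1 ↔ (2 : ℤ) ∣ g 0 1 ∧ (2 : ℤ) ∣ g 1 0 := by
  constructor
  · intro h
    have h01 := congrArg (fun M : SL(2, ZMod 2) => M 0 1) h
    have h10 := congrArg (fun M : SL(2, ZMod 2) => M 1 0) h
    simp only [red2_apply] at h01 h10
    have e01 : (1 : SL(2, ZMod 2)) 0 1 = 0 := by decide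
    have e10 : (1 : SL(2, ZMod 2)) 1 0 = 0 := by decide
    rw [e01] at h01
    rw [e10] at h10
    exact ⟨(ZMod.intCast_zmod_eq_zero_iff_dvd _ 2).1 h01, (ZMod.intCast_zmod_eq_zero_iff_dvd _ 2).1 h10⟩
  · rintro ⟨h01, h10⟩
    have hb : ((g 0 1 : ℤ) : ZMod 2) = 0 := (ZMod.intCast_zmod_eq_zero_iff_dvd _ 2).2 h01
    have hc : ((g 1 0 : ℤ) : ZMod 2) = 0 := (ZMod.intCast_zmod_eq_zero_iff_dvd _ 2).2 h10
    have hdet : g 0 0 * g 1 1 - g 0 1 * g 1 0 = 1 := by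
      have h1 := Matrix.SpecialLinearGroup.det_coe g
      rw [Matrix.det_fin_two] at h1
      exact h1
    have hdet2 : ((g 0 0 : ℤ) : ZMod 2) * ((g 1 1 : ℤ) : ZMod 2) = 1 := by
      have h2 : ((g 0 0 * g 1 1 - g 0 1 * g 1 0 : ℤ) : ZMod 2) = 1 := by rw [hdet]; simp
      push_cast at h2
      rw [hb, zero_mul, sub_zero] at h2
      exact h2
    obtain ⟨ha, hd⟩ := zmod2_of_mul_eq_one _ _ hdet2
    apply Matrix.SpecialLinearGroup.ext
    intro i j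
    rw [red2_apply]
    fin_cases i <;> fin_cases j
    · show ((g 0 0 : ℤ) : ZMod 2) = (1 : SL(2, ZMod 2)) 0 0
      rw [ha]; decide
    · show ((g 0 1 : ℤ) : ZMod 2) = (1 : SL(2, ZMod 2)) 0 1
      rw [hb]; decide
    · show ((g 1 0 : ℤ) : ZMod 2) = (1 : SL(2, ZMod 2)) 1 0
      rw [hc]; decide
    · show ((g 1 1 : ℤ) : ZMod 2) = (1 : SL(2, ZMod 2)) 1 1
      rw [hd]; decide

/-- **`K = ker (rho2 N) = Γ₀(N) ∩ Γ(2)`** by membership (`= Delta.IsK2 N (kerSub (rho2 N))`) -/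
theorem mem_kerSub_rho2_iff (N : ℕ) (g : SL(2, ℤ)) :
    g ∈ kerSub (rho2 N) ↔ g ∈ Gamma0 N ∧ (2 : ℤ) ∣ g 0 1 ∧ (2 : ℤ) ∣ g 1 0 := by
  constructor
  · rintro ⟨g', hg', rfl⟩
    have h1 : red2 (g' : SL(2, ℤ)) = 1 := hg'
    exact ⟨g'.2, (red2_eq_one_iff _).1 h1⟩
  · rintro ⟨hg, h2⟩
    exact ⟨⟨g, hg⟩, (red2_eq_one_iff g).2 h2, rfl⟩

theorem neg_one_mem_kerSub_rho2 (N : ℕ) : (-1 : SL(2, ℤ)) ∈ kerSub (rho2 N) := by
  rw [mem_kerSub_rho2_iff]
  refine ⟨?_, ?_, ?_⟩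
  · rw [Gamma0_mem]
    simp
  · simp
  · simp

/-! ### the two transpositions and the element of order `3` -/

/-- `u = T = (1 1; 0 1) ∈ Γ₀(N)` -/
def tauU (N : ℕ) : Gamma0 N := ⟨ModularGroup.T, by
  rw [Gamma0_mem, ModularGroup.coe_T]
  simp⟩

/-- the matrix `(1 0; N 1)` -/
def lMat (N : ℕ) : SL(2, ℤ) := ⟨!![1, 0; (N : ℤ), 1], by simp [Matrix.det_fin_two]⟩

/-- `l = (1 0; N 1) ∈ Γ₀(N)` -/
def tauL (N : ℕ) : Gamma0 N := ⟨lMat N, by
  rw [Gamma0_mem]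
  simp [lMat]⟩

@[simp] theorem coe_tauU (N : ℕ) : ((tauU N : Gamma0 N) : SL(2, ℤ)) = ModularGroup.T := rfl

@[simp] theorem coe_tauL (N : ℕ) : ((tauL N : Gamma0 N) : SL(2, ℤ)) = lMat N := rfl

theorem eps_rho2_tauU (N : ℕ) : eps (rho2 N (tauU N)) = 1 := by
  unfold eps
  rw [rho2_apply, red2_apply, red2_apply, red2_apply, red2_apply, coe_tauU, ModularGroup.coe_T]
  simp
  decide

theorem natCast_zmod2_of_odd {N : ℕ} (hN : ¬ 2 ∣ N) : ((N : ℤ) : ZMod 2) = 1 := by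
  have h1 : N % 2 = 1 := by omega
  have h2 : ((N : ℤ) : ZMod 2) = ((N : ℕ) : ZMod 2) := by push_cast; rfl
  rw [h2, ← ZMod.natCast_mod, h1]
  rfl

theorem eps_rho2_tauL {N : ℕ} (hN : ¬ 2 ∣ N) : eps (rho2 N (tauL N)) = 1 := by
  unfold eps
  rw [rho2_apply, red2_apply, red2_apply, red2_apply, red2_apply, coe_tauL]
  have e00 : (lMat N) 0 0 = 1 := rfl
  have e01 : (lMat N) 0 1 = 0 := rfl
  have e10 : (lMat N) 1 0 = (N : ℤ) := rfl
  have e11 : (lMat N) 1 1 = 1 := rfl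
  rw [e00, e01, e10, e11, natCast_zmod2_of_odd hN]
  decide

theorem rho2_tauU_ne_tauL {N : ℕ} (hN : ¬ 2 ∣ N) : rho2 N (tauU N) ≠ rho2 N (tauL N) := by
  intro h
  have h10 := congrArg (fun M : SL(2, ZMod 2) => M 1 0) h
  simp only [rho2_apply, red2_apply, coe_tauU, coe_tauL, ModularGroup.coe_T] at h10
  have e10 : (lMat N) 1 0 = (N : ℤ) := rfl
  rw [e10, natCast_zmod2_of_odd hN] at h10
  simp at h10

theorem rho2_tauU_mul_self (N : ℕ) : rho2 N (tauU N * tauU N) = 1 := by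
  rw [map_mul]
  exact mul_self_of_eps _ (eps_rho2_tauU N)

theorem rho2_tauL_mul_self {N : ℕ} (hN : ¬ 2 ∣ N) : rho2 N (tauL N * tauL N) = 1 := by
  rw [map_mul]
  exact mul_self_of_eps _ (eps_rho2_tauL hN)

/-- `d0 = u l ∈ Γ₀(N)` -/
def d0G (N : ℕ) : Gamma0 N := tauU N * tauL N

theorem sgn2_rho2_d0G {N : ℕ} (hN : ¬ 2 ∣ N) : (sgn2.comp (rho2 N)) (d0G N) = 1 := by
  show sgn2 (rho2 N (tauU N * tauL N)) = 1
  rw [map_mul, map_mul, sgn2_apply, sgn2_apply, eps_rho2_tauU, eps_rho2_tauL hN]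
  rfl

theorem rho2_d0G_ne_one {N : ℕ} (hN : ¬ 2 ∣ N) : rho2 N (d0G N) ≠ 1 := by
  show rho2 N (tauU N * tauL N) ≠ 1
  rw [map_mul]
  exact mul_ne_one_of_eps _ _ (eps_rho2_tauU N) (eps_rho2_tauL hN) (rho2_tauU_ne_tauL hN)

/-- `d0` as an element of `G² = ker (sgn2 ∘ rho2)` -/
def d0K {N : ℕ} (hN : ¬ 2 ∣ N) : kerSub (sgn2.comp (rho2 N)) :=
  kerMk (sgn2.comp (rho2 N)) (d0G N) (sgn2_rho2_d0G hN)

theorem kerIncl_d0K {N : ℕ} (hN : ¬ 2 ∣ N) :
    kerIncl (sgn2.comp (rho2 N)) (d0K hN) = tauU N * tauL N := rfl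

theorem chiU_d0K_ne_one {N : ℕ} (hN : ¬ 2 ∣ N) : chiU (rho2 N) sgn2 (d0K hN) ≠ 1 := by
  intro h
  exact rho2_d0G_ne_one hN ((chiU_eq_one_iff (rho2 N) sgn2 _).1 h)

theorem orderOf_chiU_d0K {N : ℕ} (hN : ¬ 2 ∣ N) : orderOf (chiU (rho2 N) sgn2 (d0K hN)) = 3 := by
  haveI : Fact (Nat.Prime 3) := ⟨Nat.prime_three⟩
  refine orderOf_eq_prime ?_ (chiU_d0K_ne_one hN)
  rw [← card_ker_sgn2]
  exact pow_card_eq_one

/-- a section of `chiU` by powers of `d0` -/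
theorem exists_rep {N : ℕ} (hN : ¬ 2 ∣ N) :
    ∃ r : sgn2.ker → kerSub (sgn2.comp (rho2 N)), ∀ δ, chiU (rho2 N) sgn2 (r δ) = δ := by
  haveI : Fact (Nat.Prime 3) := ⟨Nat.prime_three⟩
  have hc : Nat.card sgn2.ker = 3 := by rw [Nat.card_eq_fintype_card, card_ker_sgn2]
  have hmem : ∀ δ : sgn2.ker, δ ∈ Subgroup.zpowers (chiU (rho2 N) sgn2 (d0K hN)) := fun δ =>
    mem_zpowers_of_prime_card hc (chiU_d0K_ne_one hN)
  refine ⟨fun δ => d0K hN ^ (Classical.choose (Subgroup.mem_zpowers_iff.1 (hmem δ))), fun δ => ?_⟩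
  rw [map_zpow]
  exact Classical.choose_spec (Subgroup.mem_zpowers_iff.1 (hmem δ))

/-- the section -/
noncomputable def rep {N : ℕ} (hN : ¬ 2 ∣ N) : sgn2.ker → kerSub (sgn2.comp (rho2 N)) :=
  Classical.choose (exists_rep hN)

theorem chiU_rep {N : ℕ} (hN : ¬ 2 ∣ N) (δ : sgn2.ker) :
    chiU (rho2 N) sgn2 (rep hN δ) = δ :=
  Classical.choose_spec (exists_rep hN) δ

/-! ### finite index -/

/-- kernels of homomorphisms into finite groups have finite index in the ambient group -/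
theorem finiteIndex_kerSub {H : Type*} [Group H] {Γ₀ : Subgroup H} [Γ₀.FiniteIndex]
    {Sg : Type} [Group Sg] [Finite Sg] (ρ : Γ₀ →* Sg) : (kerSub ρ).FiniteIndex := by
  constructor
  unfold kerSub
  rw [Subgroup.index_map_subtype]
  exact mul_ne_zero Subgroup.FiniteIndex.index_ne_zero Subgroup.FiniteIndex.index_ne_zero

instance finiteIndex_K (N : ℕ) [NeZero N] : (kerSub (rho2 N)).FiniteIndex :=
  finiteIndex_kerSub (rho2 N)

instance finiteIndex_G2 (N : ℕ) [NeZero N] : (kerSub (sgn2.comp (rho2 N))).FiniteIndex :=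
  finiteIndex_kerSub (sgn2.comp (rho2 N))

instance finiteIndex_K' (N : ℕ) [NeZero N] : (kerSub (chiU (rho2 N) sgn2)).FiniteIndex := by
  rw [kerSub_chiU]
  infer_instance

/-! ### the cyclic step -/

section Step

variable {G : Type*} [Group G] {emb : SL(2, ℤ) →* G} (hemb : Function.Injective emb)
variable (N : ℕ) [NeZero N] (hN : ¬ 2 ∣ N) {r₀ : ℕ} (hr₀ : r₀.Prime) (hr₀N : r₀ ∣ N)
  (hr₀3 : r₀ % 3 = 2)
  (S₀ : CosetSys emb (Gamma0 N) (Gamma0 N)) (h₀ : Compat S₀ (rho2 N))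
  (O : Type*) [CommRing O] [Module.IsTorsionFree ℤ O]

theorem three_mul_eq_zero (a : O) (h : ((3 : ℕ) : O) * a = 0) : a = 0 := by
  have h1 : (3 : ℤ) • a = 0 := by
    rw [zsmul_eq_mul]
    exact_mod_cast h
  exact (smul_eq_zero.1 h1).resolve_left (by norm_num)

/-- **the cyclic step of order `3` for `K = Γ₀(N) ∩ Γ(2) ◁ G²`** -/
noncomputable def cycStepGamma0 :
    CycStep O (Additive (kerSub (rho2 N)) →+ O)
      (Additive (kerSub (sgn2.comp (rho2 N))) →+ O) 3 :=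
  letI : Fintype (SL(2, ℤ) ⧸ kerSub (sgn2.comp (rho2 N))) :=
    (kerSub (sgn2.comp (rho2 N))).fintypeQuotientOfFiniteIndex
  letI : DecidableEq (SL(2, ℤ) ⧸ kerSub (sgn2.comp (rho2 N))) := Classical.decEq _
  letI : Fintype (SL(2, ℤ) ⧸ kerSub (chiU (rho2 N) sgn2)) :=
    (kerSub (chiU (rho2 N) sgn2)).fintypeQuotientOfFiniteIndex
  letI : DecidableEq (SL(2, ℤ) ⧸ kerSub (chiU (rho2 N) sgn2)) := Classical.decEq _
  cycStepK hemb (rho2 N) sgn2 S₀ h₀ O 3 (d0K hN) (rep hN) (chiU_rep hN) comm_ker_sgn2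
    (orderOf_chiU_d0K hN) card_ker_sgn2 (three_mul_eq_zero O) (neg_one_mem_kerSub_rho2 N)
    (by norm_num)
    (Or.inr (Fermat.Agent.GE8.CaseB3.UFree.no_conj_U_mem hr₀ hr₀N hr₀3 (le_refl _)))

/-- `D` = conjugation by `d0 = u l` -/
theorem cycStepGamma0_D :
    (cycStepGamma0 hemb N hN hr₀ hr₀N hr₀3 S₀ h₀ O).D
      = opLin O (diaK emb (rho2 N) (tauU N * tauL N)) := by
  letI : Fintype (SL(2, ℤ) ⧸ kerSub (sgn2.comp (rho2 N))) :=
    (kerSub (sgn2.comp (rho2 N))).fintypeQuotientOfFiniteIndex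
  letI : DecidableEq (SL(2, ℤ) ⧸ kerSub (sgn2.comp (rho2 N))) := Classical.decEq _
  letI : Fintype (SL(2, ℤ) ⧸ kerSub (chiU (rho2 N) sgn2)) :=
    (kerSub (chiU (rho2 N) sgn2)).fintypeQuotientOfFiniteIndex
  letI : DecidableEq (SL(2, ℤ) ⧸ kerSub (chiU (rho2 N) sgn2)) := Classical.decEq _
  exact cycStepK_D hemb (rho2 N) sgn2 S₀ h₀ O 3 (d0K hN) (rep hN) (chiU_rep hN) comm_ker_sgn2
    (orderOf_chiU_d0K hN) card_ker_sgn2 (three_mul_eq_zero O) (neg_one_mem_kerSub_rho2 N)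
    (by norm_num)
    (Or.inr (Fermat.Agent.GE8.CaseB3.UFree.no_conj_U_mem hr₀ hr₀N hr₀3 (le_refl _)))

/-- `t = T^K - card ι` -/
theorem cycStepGamma0_t :
    (cycStepGamma0 hemb N hN hr₀ hr₀N hr₀3 S₀ h₀ O).t
      = opLin O (kerSys S₀ (rho2 N) h₀) - Fintype.card S₀.ι • LinearMap.id := by
  letI : Fintype (SL(2, ℤ) ⧸ kerSub (sgn2.comp (rho2 N))) :=
    (kerSub (sgn2.comp (rho2 N))).fintypeQuotientOfFiniteIndex
  letI : DecidableEq (SL(2, ℤ) ⧸ kerSub (sgn2.comp (rho2 N))) := Classical.decEq _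
  letI : Fintype (SL(2, ℤ) ⧸ kerSub (chiU (rho2 N) sgn2)) :=
    (kerSub (chiU (rho2 N) sgn2)).fintypeQuotientOfFiniteIndex
  letI : DecidableEq (SL(2, ℤ) ⧸ kerSub (chiU (rho2 N) sgn2)) := Classical.decEq _
  exact cycStepK_t hemb (rho2 N) sgn2 S₀ h₀ O 3 (d0K hN) (rep hN) (chiU_rep hN) comm_ker_sgn2
    (orderOf_chiU_d0K hN) card_ker_sgn2 (three_mul_eq_zero O) (neg_one_mem_kerSub_rho2 N)
    (by norm_num)
    (Or.inr (Fermat.Agent.GE8.CaseB3.UFree.no_conj_U_mem hr₀ hr₀N hr₀3 (le_refl _)))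

/-- `t0 = T^{G²} - card ι` -/
theorem cycStepGamma0_t0 :
    (cycStepGamma0 hemb N hN hr₀ hr₀N hr₀3 S₀ h₀ O).t0
      = opLin O (kerSys S₀ (sgn2.comp (rho2 N)) (compat_comp (rho2 N) sgn2 h₀))
          - Fintype.card S₀.ι • LinearMap.id := rfl

end Step

/-! ### the killer on `Hom(K, O)` -/

section Killer

variable {G : Type*} [Group G] {emb : SL(2, ℤ) →* G} (hemb : Function.Injective emb)
variable (N : ℕ) [NeZero N] (hN : ¬ 2 ∣ N) {r₀ : ℕ} (hr₀ : r₀.Prime) (hr₀N : r₀ ∣ N)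
  (hr₀3 : r₀ % 3 = 2)
  (S₀ : CosetSys emb (Gamma0 N) (Gamma0 N)) (h₀ : Compat S₀ (rho2 N))
  (O : Type*) [CommRing O] [Module.IsTorsionFree ℤ O]

include hemb hN hr₀ hr₀N hr₀3 in
/-- **the killer of level `4N` on `Hom(K, O)`**, `K = Γ₀(N) ∩ Γ(2)`: if `P` commutes with the two
conjugations `s_u`, `s_l` (`u = T`, `l = (1 0; N 1)`) and with `T^K`, and `P (1 + s_u)`, `P (1 + s_l)`
map into `3 · Hom(K, O)`, then so does `P (T^K - card ι) P`. -/
theorem killer_Gamma0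
    (P : (Additive (kerSub (rho2 N)) →+ O) →ₗ[O] (Additive (kerSub (rho2 N)) →+ O))
    (hPu : ∀ x, P ((diaK emb (rho2 N) (tauU N)).op O x)
      = (diaK emb (rho2 N) (tauU N)).op O (P x))
    (hPl : ∀ x, P ((diaK emb (rho2 N) (tauL N)).op O x)
      = (diaK emb (rho2 N) (tauL N)).op O (P x))
    (hPT : ∀ x, P ((kerSys S₀ (rho2 N) h₀).op O x) = (kerSys S₀ (rho2 N) h₀).op O (P x))
    (hu : ∀ x, ∃ u, P (x + (diaK emb (rho2 N) (tauU N)).op O x) = (3 : O) • u)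
    (hl : ∀ x, ∃ u, P (x + (diaK emb (rho2 N) (tauL N)).op O x) = (3 : O) • u)
    (x : Additive (kerSub (rho2 N)) →+ O) :
    ∃ u, P ((kerSys S₀ (rho2 N) h₀).op O (P x) - Fintype.card S₀.ι • P x) = (3 : O) • u := by
  have ht : ∀ y, (cycStepGamma0 hemb N hN hr₀ hr₀N hr₀3 S₀ h₀ O).t y
      = (kerSys S₀ (rho2 N) h₀).op O y - Fintype.card S₀.ι • y := by
    intro y
    rw [cycStepGamma0_t]
    rfl
  have hcomm : ∀ (d : Gamma0 N) y, (cycStepGamma0 hemb N hN hr₀ hr₀N hr₀3 S₀ h₀ O).t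
      ((diaK emb (rho2 N) d).op O y)
      = (diaK emb (rho2 N) d).op O ((cycStepGamma0 hemb N hN hr₀ hr₀N hr₀3 S₀ h₀ O).t y) := by
    intro d y
    rw [ht, ht, map_sub, map_nsmul, dia_kerSys_op hemb S₀ (rho2 N) h₀ d y]
  have key := Fermat.Agent.GE8.SQ3.KillerOfCyc.killer_of_cycStep
    (cycStepGamma0 hemb N hN hr₀ hr₀N hr₀3 S₀ h₀ O)
    (opLin O (diaK emb (rho2 N) (tauL N))) (opLin O (diaK emb (rho2 N) (tauU N))) P
    (fun y => by
      rw [cycStepGamma0_D, opLin_apply, opLin_apply, opLin_apply, dia_mul'])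
    hPl hPu (fun y => hcomm (tauL N) y) (fun y => hcomm (tauU N) y)
    (fun y => by rw [ht, ht, map_sub, map_nsmul, hPT])
    hl hu x
  rwa [ht] at key

include hemb hN hr₀ hr₀N hr₀3 in
/-- **the killer from ONE half**: `s_l = D⁻¹ s_u D`, so `P (1 + s_u) ⊆ 3 Hom` suffices. -/
theorem killer_Gamma0'
    (P : (Additive (kerSub (rho2 N)) →+ O) →ₗ[O] (Additive (kerSub (rho2 N)) →+ O))
    (hPu : ∀ x, P ((diaK emb (rho2 N) (tauU N)).op O x)
      = (diaK emb (rho2 N) (tauU N)).op O (P x))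
    (hPl : ∀ x, P ((diaK emb (rho2 N) (tauL N)).op O x)
      = (diaK emb (rho2 N) (tauL N)).op O (P x))
    (hPT : ∀ x, P ((kerSys S₀ (rho2 N) h₀).op O x) = (kerSys S₀ (rho2 N) h₀).op O (P x))
    (hu : ∀ x, ∃ u, P (x + (diaK emb (rho2 N) (tauU N)).op O x) = (3 : O) • u)
    (x : Additive (kerSub (rho2 N)) →+ O) :
    ∃ u, P ((kerSys S₀ (rho2 N) h₀).op O (P x) - Fintype.card S₀.ι • P x) = (3 : O) • u := by
  refine killer_Gamma0 hemb N hN hr₀ hr₀N hr₀3 S₀ h₀ O P hPu hPl hPT hu (fun z => ?_) x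
  -- `D = s_l s_u` has order `3`
  have hD3 : ∀ w : Additive (kerSub (rho2 N)) →+ O,
      (diaK emb (rho2 N) (tauL N)).op O ((diaK emb (rho2 N) (tauU N)).op O
        ((diaK emb (rho2 N) (tauL N)).op O ((diaK emb (rho2 N) (tauU N)).op O
          ((diaK emb (rho2 N) (tauL N)).op O ((diaK emb (rho2 N) (tauU N)).op O w))))) = w := by
    intro w
    have h3 := LinearMap.congr_fun (cycStepGamma0 hemb N hN hr₀ hr₀N hr₀3 S₀ h₀ O).D_pow w
    rw [pow_succ, pow_succ, pow_one, Module.End.mul_apply, Module.End.mul_apply,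
      Module.End.one_apply, cycStepGamma0_D, opLin_apply, opLin_apply, opLin_apply, dia_mul',
      dia_mul', dia_mul'] at h3
    exact h3
  have hll : ∀ w : Additive (kerSub (rho2 N)) →+ O,
      (diaK emb (rho2 N) (tauL N)).op O ((diaK emb (rho2 N) (tauL N)).op O w) = w :=
    fun w => dia_dia_of_mul_mem_ker (rho2 N) (tauL N) (rho2_tauL_mul_self hN) w
  have huu : ∀ w : Additive (kerSub (rho2 N)) →+ O,
      (diaK emb (rho2 N) (tauU N)).op O ((diaK emb (rho2 N) (tauU N)).op O w) = w :=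
    fun w => dia_dia_of_mul_mem_ker (rho2 N) (tauU N) (rho2_tauU_mul_self N) w
  -- `s_u s_l s_u s_l s_u = s_l`
  have hkey : (diaK emb (rho2 N) (tauU N)).op O ((diaK emb (rho2 N) (tauL N)).op O
        ((diaK emb (rho2 N) (tauU N)).op O ((diaK emb (rho2 N) (tauL N)).op O
          ((diaK emb (rho2 N) (tauU N)).op O z)))) = (diaK emb (rho2 N) (tauL N)).op O z := by
    have h1 := congrArg ((diaK emb (rho2 N) (tauL N)).op O) (hD3 z)
    rw [hll] at h1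
    exact h1
  -- `z + s_l z = s_u s_l (y + s_u y)`, `y = s_l s_u z`
  obtain ⟨v, hv⟩ := hu ((diaK emb (rho2 N) (tauL N)).op O ((diaK emb (rho2 N) (tauU N)).op O z))
  refine ⟨(diaK emb (rho2 N) (tauU N)).op O ((diaK emb (rho2 N) (tauL N)).op O v), ?_⟩
  have e : z + (diaK emb (rho2 N) (tauL N)).op O z
      = (diaK emb (rho2 N) (tauU N)).op O ((diaK emb (rho2 N) (tauL N)).op O
        ((diaK emb (rho2 N) (tauL N)).op O ((diaK emb (rho2 N) (tauU N)).op O z)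
          + (diaK emb (rho2 N) (tauU N)).op O
            ((diaK emb (rho2 N) (tauL N)).op O ((diaK emb (rho2 N) (tauU N)).op O z)))) := by
    rw [map_add, map_add, hll, huu, hkey]
  rw [e, hPu, hPl, hv]
  have hsm : ∀ (d : Gamma0 N) (w : Additive (kerSub (rho2 N)) →+ O),
      (diaK emb (rho2 N) d).op O ((3 : O) • w) = (3 : O) • (diaK emb (rho2 N) d).op O w := by
    intro d w
    exact (opLin O (diaK emb (rho2 N) d)).map_smul (3 : O) w
  rw [hsm, hsm]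

end Killer

end Fermat.Agent.GE8.SQ3.CycInstGamma0
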