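/-
GATE-E (S59) / RISK-6 / node **SQ3**, slice (K1), concrete half, file 2 (helper33): the cyclic step of
order `3` for `K = Γ₀(N) ∩ Γ(2) ◁ G²` **with `D` = conjugation by ANY `d ∈ G²` of order `3` mod `K`**, and
the instance `d = l u` (`u = T`, `l = (1 0; N 1)`), for which

  `D = s_u ∘ s_l`,  `s_u = ⟨T⟩` OUTER

— the order wanted by `CoreAbs.core_abs` (`hD : S.D x = s₁ (s₂ x)` with the index-`2` half
`x + s₁ x ∈ range res` for `s₁ = ` conjugation by `T`, `HalfLevel`).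
(`CycInstGamma0.cycStepGamma0` has `d = u l`, `D = s_l ∘ s_u`.)

* `orderOf_chiU_of_ne_one`, `exists_rep_of`, `repOf`, `chiU_repOf`;
* `cycStepOf … d hd`, `cycStepOf_D`, `cycStepOf_t`, `cycStepOf_t0`;
* `d0K'`, **`cycStepGamma0'`**, `cycStepGamma0'_D_apply : D x = s_u (s_l x)`, `cycStepGamma0'_t_apply`,
  `s_u_s_u`, `s_l_s_l`, `s_u_comm`, `s_l_comm` (the binders `hD hs₁ hs₂` and the `K`-side of
  `hs₁X hs₂X ht` of `core_abs`).
-/
import Mathlib
import Fermat.Agent.GE8.SQ3.CycInstGamma0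

set_option autoImplicit false
set_option linter.unusedSectionVars false
set_option linter.style.haveILetI false

open scoped MatrixGroups
open CongruenceSubgroup

namespace Fermat.Agent.GE8.SQ3.CycInstGamma0b

open Fermat.Agent.GM.B Fermat.Agent.GB.B3 Fermat.Agent.GB.B3.FreeCyclic
  Fermat.Agent.GB.B3.CycInst Fermat.Agent.GE8.SQ3.CycInst Fermat.Agent.GE8.SQ3.CycInstGamma0

/-! ### any element of order `3` modulo `K` -/

section Of

variable {N : ℕ} (d : kerSub (sgn2.comp (rho2 N))) (hd : chiU (rho2 N) sgn2 d ≠ 1)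

include hd in
theorem orderOf_chiU_of_ne_one : orderOf (chiU (rho2 N) sgn2 d) = 3 := by
  haveI : Fact (Nat.Prime 3) := ⟨Nat.prime_three⟩
  refine orderOf_eq_prime ?_ hd
  rw [← card_ker_sgn2]
  exact pow_card_eq_one

include hd in
/-- a section of `chiU` by powers of `d` -/
theorem exists_rep_of :
    ∃ r : sgn2.ker → kerSub (sgn2.comp (rho2 N)), ∀ δ, chiU (rho2 N) sgn2 (r δ) = δ := by
  haveI : Fact (Nat.Prime 3) := ⟨Nat.prime_three⟩
  have hc : Nat.card sgn2.ker = 3 := by rw [Nat.card_eq_fintype_card, card_ker_sgn2]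
  have hmem : ∀ δ : sgn2.ker, δ ∈ Subgroup.zpowers (chiU (rho2 N) sgn2 d) := fun δ =>
    mem_zpowers_of_prime_card hc hd
  refine ⟨fun δ => d ^ (Classical.choose (Subgroup.mem_zpowers_iff.1 (hmem δ))), fun δ => ?_⟩
  rw [map_zpow]
  exact Classical.choose_spec (Subgroup.mem_zpowers_iff.1 (hmem δ))

/-- the section -/
noncomputable def repOf : sgn2.ker → kerSub (sgn2.comp (rho2 N)) :=
  Classical.choose (exists_rep_of d hd)

theorem chiU_repOf (δ : sgn2.ker) : chiU (rho2 N) sgn2 (repOf d hd δ) = δ :=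
  Classical.choose_spec (exists_rep_of d hd) δ

end Of

section StepOf

variable {G : Type*} [Group G] {emb : SL(2, ℤ) →* G} (hemb : Function.Injective emb)
variable (N : ℕ) [NeZero N] {r₀ : ℕ} (hr₀ : r₀.Prime) (hr₀N : r₀ ∣ N) (hr₀3 : r₀ % 3 = 2)
  (S₀ : CosetSys emb (Gamma0 N) (Gamma0 N)) (h₀ : Compat S₀ (rho2 N))
  (O : Type*) [CommRing O] [Module.IsTorsionFree ℤ O]
  (d : kerSub (sgn2.comp (rho2 N))) (hd : chiU (rho2 N) sgn2 d ≠ 1)

/-- **the cyclic step of order `3` with `D` = conjugation by `d`** -/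
noncomputable def cycStepOf :
    CycStep O (Additive (kerSub (rho2 N)) →+ O)
      (Additive (kerSub (sgn2.comp (rho2 N))) →+ O) 3 :=
  letI : Fintype (SL(2, ℤ) ⧸ kerSub (sgn2.comp (rho2 N))) :=
    (kerSub (sgn2.comp (rho2 N))).fintypeQuotientOfFiniteIndex
  letI : DecidableEq (SL(2, ℤ) ⧸ kerSub (sgn2.comp (rho2 N))) := Classical.decEq _
  letI : Fintype (SL(2, ℤ) ⧸ kerSub (chiU (rho2 N) sgn2)) :=
    (kerSub (chiU (rho2 N) sgn2)).fintypeQuotientOfFiniteIndex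
  letI : DecidableEq (SL(2, ℤ) ⧸ kerSub (chiU (rho2 N) sgn2)) := Classical.decEq _
  cycStepK hemb (rho2 N) sgn2 S₀ h₀ O 3 d (repOf d hd) (chiU_repOf d hd) comm_ker_sgn2
    (orderOf_chiU_of_ne_one d hd) card_ker_sgn2 (three_mul_eq_zero O)
    (neg_one_mem_kerSub_rho2 N) (by norm_num)
    (Or.inr (Fermat.Agent.GE8.CaseB3.UFree.no_conj_U_mem hr₀ hr₀N hr₀3 (le_refl _)))

theorem cycStepOf_D :
    (cycStepOf hemb N hr₀ hr₀N hr₀3 S₀ h₀ O d hd).D
      = opLin O (diaK emb (rho2 N) (kerIncl (sgn2.comp (rho2 N)) d)) := by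
  letI : Fintype (SL(2, ℤ) ⧸ kerSub (sgn2.comp (rho2 N))) :=
    (kerSub (sgn2.comp (rho2 N))).fintypeQuotientOfFiniteIndex
  letI : DecidableEq (SL(2, ℤ) ⧸ kerSub (sgn2.comp (rho2 N))) := Classical.decEq _
  letI : Fintype (SL(2, ℤ) ⧸ kerSub (chiU (rho2 N) sgn2)) :=
    (kerSub (chiU (rho2 N) sgn2)).fintypeQuotientOfFiniteIndex
  letI : DecidableEq (SL(2, ℤ) ⧸ kerSub (chiU (rho2 N) sgn2)) := Classical.decEq _
  exact cycStepK_D hemb (rho2 N) sgn2 S₀ h₀ O 3 d (repOf d hd) (chiU_repOf d hd) comm_ker_sgn2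
    (orderOf_chiU_of_ne_one d hd) card_ker_sgn2 (three_mul_eq_zero O)
    (neg_one_mem_kerSub_rho2 N) (by norm_num)
    (Or.inr (Fermat.Agent.GE8.CaseB3.UFree.no_conj_U_mem hr₀ hr₀N hr₀3 (le_refl _)))

theorem cycStepOf_t :
    (cycStepOf hemb N hr₀ hr₀N hr₀3 S₀ h₀ O d hd).t
      = opLin O (kerSys S₀ (rho2 N) h₀) - Fintype.card S₀.ι • LinearMap.id := by
  letI : Fintype (SL(2, ℤ) ⧸ kerSub (sgn2.comp (rho2 N))) :=
    (kerSub (sgn2.comp (rho2 N))).fintypeQuotientOfFiniteIndex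
  letI : DecidableEq (SL(2, ℤ) ⧸ kerSub (sgn2.comp (rho2 N))) := Classical.decEq _
  letI : Fintype (SL(2, ℤ) ⧸ kerSub (chiU (rho2 N) sgn2)) :=
    (kerSub (chiU (rho2 N) sgn2)).fintypeQuotientOfFiniteIndex
  letI : DecidableEq (SL(2, ℤ) ⧸ kerSub (chiU (rho2 N) sgn2)) := Classical.decEq _
  exact cycStepK_t hemb (rho2 N) sgn2 S₀ h₀ O 3 d (repOf d hd) (chiU_repOf d hd) comm_ker_sgn2
    (orderOf_chiU_of_ne_one d hd) card_ker_sgn2 (three_mul_eq_zero O)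
    (neg_one_mem_kerSub_rho2 N) (by norm_num)
    (Or.inr (Fermat.Agent.GE8.CaseB3.UFree.no_conj_U_mem hr₀ hr₀N hr₀3 (le_refl _)))

theorem cycStepOf_t0 :
    (cycStepOf hemb N hr₀ hr₀N hr₀3 S₀ h₀ O d hd).t0
      = opLin O (kerSys S₀ (sgn2.comp (rho2 N)) (compat_comp (rho2 N) sgn2 h₀))
          - Fintype.card S₀.ι • LinearMap.id := rfl

end StepOf

/-! ### the instance `d = l u` -/

/-- `d0' = l u ∈ Γ₀(N)` -/
def d0G' (N : ℕ) : Gamma0 N := tauL N * tauU N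

theorem sgn2_rho2_d0G' {N : ℕ} (hN : ¬ 2 ∣ N) : (sgn2.comp (rho2 N)) (d0G' N) = 1 := by
  show sgn2 (rho2 N (tauL N * tauU N)) = 1
  rw [map_mul, map_mul, sgn2_apply, sgn2_apply, eps_rho2_tauU, eps_rho2_tauL hN]
  rfl

theorem rho2_d0G'_ne_one {N : ℕ} (hN : ¬ 2 ∣ N) : rho2 N (d0G' N) ≠ 1 := by
  show rho2 N (tauL N * tauU N) ≠ 1
  rw [map_mul]
  exact mul_ne_one_of_eps _ _ (eps_rho2_tauL hN) (eps_rho2_tauU N) (rho2_tauU_ne_tauL hN).symm

/-- `d0'` as an element of `G²` -/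
def d0K' {N : ℕ} (hN : ¬ 2 ∣ N) : kerSub (sgn2.comp (rho2 N)) :=
  kerMk (sgn2.comp (rho2 N)) (d0G' N) (sgn2_rho2_d0G' hN)

theorem kerIncl_d0K' {N : ℕ} (hN : ¬ 2 ∣ N) :
    kerIncl (sgn2.comp (rho2 N)) (d0K' hN) = tauL N * tauU N := rfl

theorem chiU_d0K'_ne_one {N : ℕ} (hN : ¬ 2 ∣ N) : chiU (rho2 N) sgn2 (d0K' hN) ≠ 1 := by
  intro h
  exact rho2_d0G'_ne_one hN ((chiU_eq_one_iff (rho2 N) sgn2 _).1 h)

section Step'

variable {G : Type*} [Group G] {emb : SL(2, ℤ) →* G} (hemb : Function.Injective emb)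
variable (N : ℕ) [NeZero N] (hN : ¬ 2 ∣ N) {r₀ : ℕ} (hr₀ : r₀.Prime) (hr₀N : r₀ ∣ N)
  (hr₀3 : r₀ % 3 = 2)
  (S₀ : CosetSys emb (Gamma0 N) (Gamma0 N)) (h₀ : Compat S₀ (rho2 N))
  (O : Type*) [CommRing O] [Module.IsTorsionFree ℤ O]

/-- **the cyclic step with `D = s_u ∘ s_l`** (`s_u` = conjugation by `T` OUTER) -/
noncomputable def cycStepGamma0' :
    CycStep O (Additive (kerSub (rho2 N)) →+ O)
      (Additive (kerSub (sgn2.comp (rho2 N))) →+ O) 3 :=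
  cycStepOf hemb N hr₀ hr₀N hr₀3 S₀ h₀ O (d0K' hN) (chiU_d0K'_ne_one hN)

/-- **`D x = s_u (s_l x)`** -/
theorem cycStepGamma0'_D_apply (x : Additive (kerSub (rho2 N)) →+ O) :
    (cycStepGamma0' hemb N hN hr₀ hr₀N hr₀3 S₀ h₀ O).D x
      = opLin O (diaK emb (rho2 N) (tauU N)) (opLin O (diaK emb (rho2 N) (tauL N)) x) := by
  unfold cycStepGamma0'
  rw [cycStepOf_D, kerIncl_d0K', opLin_apply, opLin_apply, opLin_apply, dia_mul']

/-- **`t x = T^K x - card ι • x`** -/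
theorem cycStepGamma0'_t_apply (x : Additive (kerSub (rho2 N)) →+ O) :
    (cycStepGamma0' hemb N hN hr₀ hr₀N hr₀3 S₀ h₀ O).t x
      = (kerSys S₀ (rho2 N) h₀).op O x - Fintype.card S₀.ι • x := by
  unfold cycStepGamma0'
  rw [cycStepOf_t]
  rfl

end Step'

/-! ### the two involutions -/

section Invol

variable {G : Type*} [Group G] {emb : SL(2, ℤ) →* G} (hemb : Function.Injective emb)
variable (N : ℕ) (O : Type*) [CommRing O]

theorem s_u_s_u (x : Additive (kerSub (rho2 N)) →+ O) :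
    opLin O (diaK emb (rho2 N) (tauU N)) (opLin O (diaK emb (rho2 N) (tauU N)) x) = x :=
  dia_dia_of_mul_mem_ker (rho2 N) (tauU N) (rho2_tauU_mul_self N) x

theorem s_l_s_l (hN : ¬ 2 ∣ N) (x : Additive (kerSub (rho2 N)) →+ O) :
    opLin O (diaK emb (rho2 N) (tauL N)) (opLin O (diaK emb (rho2 N) (tauL N)) x) = x :=
  dia_dia_of_mul_mem_ker (rho2 N) (tauL N) (rho2_tauL_mul_self hN) x

include hemb in
/-- every conjugation by `τ ∈ Γ₀(N)` commutes with every restricted Hecke system on `K` -/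
theorem s_comm (S₁ : CosetSys emb (Gamma0 N) (Gamma0 N)) (h₁ : Compat S₁ (rho2 N)) (τ : Gamma0 N)
    (x : Additive (kerSub (rho2 N)) →+ O) :
    opLin O (diaK emb (rho2 N) τ) ((kerSys S₁ (rho2 N) h₁).op O x)
      = (kerSys S₁ (rho2 N) h₁).op O (opLin O (diaK emb (rho2 N) τ) x) :=
  dia_kerSys_op hemb S₁ (rho2 N) h₁ τ x

end Invol

end Fermat.Agent.GE8.SQ3.CycInstGamma0b
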