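/-
GATE-E (S59) / RISK-6 = node SQ3, slice (G1)+(G2) (helper33, per helper90 board 8035): **the
generator-level equivariance inputs of `CoreAbs.core_abs` on the `K`-side**, at

  `e := Delta.conjDₗ O (isK2_kerSub_rho2 N) hN2 : Hom(K, O) ≃ₗ[O] Hom(Γ₀(N*2*2), O)`,
  `a₄ := LevelGen.actN O pr hpr (N*2*2)`,  `K = kerSub (Hecke2.rho2 N)`.

* `actN_X_conjD` : `a₄ (X s) (e φ) = e (T_ℓ^K φ)`, `ℓ = pr s ∤ N*2*2`, `T_ℓ^K = K2Plug.heckeK`;
* **`conj_comm_gen`** (`hs₁X`, `hs₂X` of `core_abs`): for EVERY `τ ∈ Γ₀(N)`, `s_τ := opLin O (diaK embR (rho2 N) τ)`: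
  `a₄ (X s) (e (s_τ x)) = e (s_τ (e.symm (a₄ (X s) (e x))))`;
* **`t_eq_gen`** (`ht` of `core_abs`): if `S.t = opLin O (heckeK …) - (ℓ + 1) • id` (the closed form of
  `Leaf.exists_cycStep`), then `e (S.t x) = a₄ (X s₀ - C ((pr s₀ + 1 : ℕ) : O)) (e x)`.
-/
import Mathlib
import Fermat.Agent.GE8.SQ3.K2Plug
import Fermat.Agent.GB.B3.CycInst
import Fermat.Agent.GB.B8.LevelGen

set_option autoImplicit false
set_option linter.unusedSectionVars false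
set_option linter.style.haveILetI false

open scoped MatrixGroups
open CongruenceSubgroup

noncomputable section

namespace Fermat.Agent.GE8.SQ3.GenComm

open MvPolynomial
open Fermat.Agent.GM.B Fermat.Agent.GB.B3 Fermat.Agent.GB.B3.CycInst
open Fermat.Agent.GE8.SQ3.Hecke2 Fermat.Agent.GE8.SQ3.Delta Fermat.Agent.GE8.SQ3.K2Plug
open Fermat.Agent.GB.B8.LevelGen

variable (N : ℕ) (hN2 : ¬ 2 ∣ N) (O : Type) [CommRing O]
  {σ : Type} (pr : σ → ℕ) (hpr : ∀ s, (pr s).Prime)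

/-- **`a₄ (X s) ∘ e = e ∘ T_ℓ^K`** -/
theorem actN_X_conjD (s : σ) (hs : ¬ pr s ∣ N * 2 * 2)
    (φ : Additive (kerSub (rho2 N)) →+ O) :
    haveI : Fact (pr s).Prime := ⟨hpr s⟩
    actN O pr hpr (N * 2 * 2) (X s) (conjDₗ O (isK2_kerSub_rho2 N) hN2 φ)
      = conjDₗ O (isK2_kerSub_rho2 N) hN2
        ((heckeK (not_dvd_of_not_dvd_four hs) (ne_two_of_not_dvd_four hs)).op O φ) := by
  haveI : Fact (pr s).Prime := ⟨hpr s⟩
  rw [actN_X_of_not_dvd O pr hpr s hs, conjDₗ_apply, conjDₗ_apply, conjD_heckeK hN2 hs φ]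

/-- **the generator-level commutation of the outer conjugations** (`hs₁X`, `hs₂X` of `core_abs`) -/
theorem conj_comm_gen (s : σ) (hs : ¬ pr s ∣ N * 2 * 2) (τ : Gamma0 N)
    (x : Additive (kerSub (rho2 N)) →+ O) :
    actN O pr hpr (N * 2 * 2) (X s)
        (conjDₗ O (isK2_kerSub_rho2 N) hN2 (opLin O (diaK embR (rho2 N) τ) x))
      = conjDₗ O (isK2_kerSub_rho2 N) hN2 (opLin O (diaK embR (rho2 N) τ)
          ((conjDₗ O (isK2_kerSub_rho2 N) hN2).symm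
            (actN O pr hpr (N * 2 * 2) (X s) (conjDₗ O (isK2_kerSub_rho2 N) hN2 x)))) := by
  haveI : Fact (pr s).Prime := ⟨hpr s⟩
  rw [actN_X_conjD N hN2 O pr hpr s hs, actN_X_conjD N hN2 O pr hpr s hs,
    LinearEquiv.symm_apply_apply, opLin_apply, opLin_apply]
  congr 1
  exact (dia_kerSys_op embR_injective (hecke2Sys (not_dvd_of_not_dvd_four hs)) (rho2 N)
    (hecke2Sys_compat (not_dvd_of_not_dvd_four hs) (ne_two_of_not_dvd_four hs)) τ x).symm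

/-- **`S.t` is the action of `X s₀ - (pr s₀ + 1)`** (`ht` of `core_abs`), from the closed form of
`Leaf.exists_cycStep` -/
theorem t_eq_gen (s₀ : σ) (hs : ¬ pr s₀ ∣ N * 2 * 2)
    (t : (Additive (kerSub (rho2 N)) →+ O) →ₗ[O] (Additive (kerSub (rho2 N)) →+ O))
    (ht : haveI : Fact (pr s₀).Prime := ⟨hpr s₀⟩
      t = opLin O (heckeK (not_dvd_of_not_dvd_four hs) (ne_two_of_not_dvd_four hs))
        - (pr s₀ + 1) • LinearMap.id)
    (x : Additive (kerSub (rho2 N)) →+ O) :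
    conjDₗ O (isK2_kerSub_rho2 N) hN2 (t x)
      = actN O pr hpr (N * 2 * 2) (X s₀ - C (((pr s₀ + 1 : ℕ) : O)))
        (conjDₗ O (isK2_kerSub_rho2 N) hN2 x) := by
  haveI : Fact (pr s₀).Prime := ⟨hpr s₀⟩
  have hC : (C (((pr s₀ + 1 : ℕ) : O)) : MvPolynomial σ O)
      = algebraMap O (MvPolynomial σ O) (((pr s₀ + 1 : ℕ) : O)) := rfl
  have hL : t x = (heckeK (not_dvd_of_not_dvd_four hs) (ne_two_of_not_dvd_four hs)).op O x
      - (pr s₀ + 1) • x := by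
    rw [ht]
    rfl
  have hR : actN O pr hpr (N * 2 * 2) (X s₀ - C (((pr s₀ + 1 : ℕ) : O)))
        (conjDₗ O (isK2_kerSub_rho2 N) hN2 x)
      = actN O pr hpr (N * 2 * 2) (X s₀) (conjDₗ O (isK2_kerSub_rho2 N) hN2 x)
        - (((pr s₀ + 1 : ℕ) : O)) • conjDₗ O (isK2_kerSub_rho2 N) hN2 x := by
    rw [map_sub, LinearMap.sub_apply, hC, AlgHom.commutes, Module.algebraMap_end_apply]
  rw [hL, hR, actN_X_conjD N hN2 O pr hpr s₀ hs, map_sub, map_nsmul, Nat.cast_smul_eq_nsmul]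

end Fermat.Agent.GE8.SQ3.GenComm
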