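/-
GATE-E (S59) / RISK-6 / SQ3 (helper94), file F1: **the involution lemma**.

Context (board 7857 + helper94's route): `Γ = Γ₀(L)`, `L` odd, `K = Γ ∩ Γ(2)`, `Γ/K = S₃`,
`P` = the non-Eisenstein part of `Hom(K, O)` (`O` a DVR over `ℤ₃`), `D` = conjugation by an element
of order `3` modulo `K`, `τ` = conjugation by an element inducing a transposition.  One cyclic step of
order `3` (`GE8/CaseB3/CycPlug3.cycStepSL3` + `GB/B3/LocSummand.summandOfLoc`) gives
`Ĥ⁰(⟨D⟩, P) = 0` (`CycStep.Summand.tate_zero`).  Then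

  **`P ≠ 0` ⟹ `τ` has a nonzero fixed vector in `P`**

(`= Hom(K⟨τ⟩, O)_𝔪 ≠ 0`: level `4L` ⟹ level `2L` modulo `3`).  Proof: if `τ` has no nonzero fixed
vector in `P` then `τ = -1` on `P` (`x + τ x` is fixed); `τ D τ = D⁻¹` then forces `D x = D² x`,
i.e. `D = 1` on `P`; so the norm `1 + D + D²` is `3` on `P`, and `Ĥ⁰ = 0` gives `P = 3 P`, hence
`P = 0` by Nakayama.

* `tau_eq_neg`, `D_eq_self` : the two linear-algebra steps;
* `eq_bot_of_no_fixed`, `exists_fixed_ne_zero` : abstract form (any commutative ring `O` with `3` in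
  the Jacobson radical, `P` finitely generated);
* `exists_fixed_of_summand` : the consumer form on a `FreeCyclic.CycStep O L L0 3` with a
  `Summand`.
-/
import Mathlib
import Fermat.Agent.GB.B3.FreeCyclic

set_option autoImplicit false
set_option linter.unusedSectionVars false

namespace Fermat.Agent.GE8.SQ3.Invol

section Abstract

variable {O : Type*} [CommRing O] {L : Type*} [AddCommGroup L] [Module O L]
variable (P : Submodule O L) (D τ : L →ₗ[O] L)

/-- an involution without nonzero fixed vector in `P` is `-1` on `P` -/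
theorem tau_eq_neg (hτP : ∀ x ∈ P, τ x ∈ P) (hτ2 : ∀ x ∈ P, τ (τ x) = x)
    (hfix : ∀ x ∈ P, τ x = x → x = 0) : ∀ x ∈ P, τ x = -x := by
  intro x hx
  have h1 : τ (x + τ x) = x + τ x := by
    rw [map_add, hτ2 x hx, add_comm]
  have h2 := hfix (x + τ x) (P.add_mem hx (hτP x hx)) h1
  exact (neg_eq_of_add_eq_zero_right h2).symm

/-- if moreover `τ D τ = D²` and `D³ = 1` on `P`, then `D = 1` on `P` -/
theorem D_eq_self (hDP : ∀ x ∈ P, D x ∈ P) (hτP : ∀ x ∈ P, τ x ∈ P)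
    (hτ2 : ∀ x ∈ P, τ (τ x) = x) (hD3 : ∀ x ∈ P, D (D (D x)) = x)
    (hrel : ∀ x ∈ P, τ (D (τ x)) = D (D x))
    (hfix : ∀ x ∈ P, τ x = x → x = 0) : ∀ x ∈ P, D x = x := by
  have hneg := tau_eq_neg P τ hτP hτ2 hfix
  intro x hx
  -- `D x = D (D x)`
  have h1 : D x = D (D x) := by
    have h2 := hrel x hx
    rw [hneg x hx, map_neg, map_neg, hneg (D x) (hDP x hx), neg_neg] at h2
    exact h2
  -- apply `D` twice more
  have h3 : D (D x) = D (D (D x)) := congrArg D h1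
  rw [hD3 x hx] at h3
  rw [h1, h3]

/-- **the involution lemma, contrapositive form**: with `Ĥ⁰(⟨D⟩, P) = 0` and `3` in the Jacobson
radical, an involution `τ` with `τ D τ = D⁻¹` and no nonzero fixed vector in `P` forces `P = 0`. -/
theorem eq_bot_of_no_fixed (hfg : P.FG) (h3 : (3 : O) ∈ (⊥ : Ideal O).jacobson)
    (hDP : ∀ x ∈ P, D x ∈ P) (hτP : ∀ x ∈ P, τ x ∈ P)
    (hτ2 : ∀ x ∈ P, τ (τ x) = x) (hD3 : ∀ x ∈ P, D (D (D x)) = x)
    (hrel : ∀ x ∈ P, τ (D (τ x)) = D (D x))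
    (htate : ∀ x ∈ P, D x = x → ∃ y ∈ P, x = y + D y + D (D y))
    (hfix : ∀ x ∈ P, τ x = x → x = 0) : P = ⊥ := by
  have hD := D_eq_self P D τ hDP hτP hτ2 hD3 hrel hfix
  refine Submodule.eq_bot_of_le_smul_of_le_jacobson_bot (Ideal.span {(3 : O)}) P hfg ?_ ?_
  · intro x hx
    obtain ⟨y, hy, hxy⟩ := htate x hx (hD x hx)
    rw [hD y hy, hD y hy] at hxy
    have h : x = (3 : O) • y := by
      rw [hxy]
      have : (3 : O) • y = y + y + y := by
        rw [show (3 : O) = 1 + 1 + 1 by norm_num, add_smul, add_smul, one_smul]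
      rw [this]
    rw [h]
    exact Submodule.smul_mem_smul (Ideal.subset_span rfl) hy
  · rw [Ideal.span_le]
    rintro _ rfl
    exact h3

/-- **the involution lemma**: `P ≠ 0` ⟹ `τ` has a nonzero fixed vector in `P`. -/
theorem exists_fixed_ne_zero (hfg : P.FG) (h3 : (3 : O) ∈ (⊥ : Ideal O).jacobson)
    (hDP : ∀ x ∈ P, D x ∈ P) (hτP : ∀ x ∈ P, τ x ∈ P)
    (hτ2 : ∀ x ∈ P, τ (τ x) = x) (hD3 : ∀ x ∈ P, D (D (D x)) = x)
    (hrel : ∀ x ∈ P, τ (D (τ x)) = D (D x))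
    (htate : ∀ x ∈ P, D x = x → ∃ y ∈ P, x = y + D y + D (D y))
    (hP : P ≠ ⊥) : ∃ x ∈ P, x ≠ 0 ∧ τ x = x := by
  by_contra hcon
  refine hP (eq_bot_of_no_fixed P D τ hfg h3 hDP hτP hτ2 hD3 hrel htate ?_)
  intro x hx hτx
  by_contra hx0
  exact hcon ⟨x, hx, hx0, hτx⟩

/-- local form: `3 ∈ 𝔪_O`. -/
theorem exists_fixed_ne_zero_of_local [IsLocalRing O] (hfg : P.FG)
    (h3 : (3 : O) ∈ IsLocalRing.maximalIdeal O)
    (hDP : ∀ x ∈ P, D x ∈ P) (hτP : ∀ x ∈ P, τ x ∈ P)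
    (hτ2 : ∀ x ∈ P, τ (τ x) = x) (hD3 : ∀ x ∈ P, D (D (D x)) = x)
    (hrel : ∀ x ∈ P, τ (D (τ x)) = D (D x))
    (htate : ∀ x ∈ P, D x = x → ∃ y ∈ P, x = y + D y + D (D y))
    (hP : P ≠ ⊥) : ∃ x ∈ P, x ≠ 0 ∧ τ x = x := by
  refine exists_fixed_ne_zero P D τ hfg ?_ hDP hτP hτ2 hD3 hrel htate hP
  rw [IsLocalRing.jacobson_eq_maximalIdeal ⊥ bot_ne_top]
  exact h3

end Abstract

section Cyc

open Fermat.Agent.GB.B3.FreeCyclic

variable {O : Type*} [CommRing O] [IsDomain O] [IsPrincipalIdealRing O] [IsLocalRing O]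
variable {L L0 : Type*} [AddCommGroup L] [Module O L] [Module.Free O L] [Module.Finite O L]
  [AddCommGroup L0] [Module O L0] [Module.Free O L0] [Module.Finite O L0]

/-- **consumer form**: on the non-Eisenstein summand `P` of a cyclic step of order `3` over a
local principal domain `O` of residue characteristic `3` (`3 ≠ 0` in `O`), an involution `τ` of `L`
stabilising `P` with `τ D τ = D²` on `P` has a nonzero fixed vector in `P` as soon as `P ≠ 0`. -/
theorem exists_fixed_of_summand {S : CycStep O L L0 3} (Z : S.Summand) (h30 : ((3 : ℕ) : O) ≠ 0)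
    (h3 : (3 : O) ∈ IsLocalRing.maximalIdeal O) (τ : L →ₗ[O] L)
    (hτP : ∀ x ∈ Z.P, τ x ∈ Z.P) (hτ2 : ∀ x ∈ Z.P, τ (τ x) = x)
    (hrel : ∀ x ∈ Z.P, τ (S.D (τ x)) = S.D (S.D x))
    (hP : Z.P ≠ ⊥) : ∃ x ∈ Z.P, x ≠ 0 ∧ τ x = x := by
  have hD3 : ∀ x : L, S.D (S.D (S.D x)) = x := by
    intro x
    have h := congrArg (fun f : L →ₗ[O] L => f x) S.D_pow
    simp only [Module.End.one_apply] at h
    have e : (S.D ^ 3) x = S.D (S.D (S.D x)) := by
      simp [pow_succ, Module.End.mul_apply]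
    rw [← e]
    exact h
  refine exists_fixed_ne_zero_of_local Z.P S.D τ ?_ h3 Z.D_P hτP hτ2 (fun x _ => hD3 x) hrel ?_ hP
  · exact (IsNoetherian.noetherian (R := O) (M := L) Z.P)
  · intro x hx hDx
    obtain ⟨y, hy, hxy⟩ := Z.tate_zero h30 hx hDx
    refine ⟨y, hy, ?_⟩
    rw [hxy, S.norm_apply]
    simp [Finset.sum_range_succ, pow_succ, Module.End.mul_apply]

end Cyc

end Fermat.Agent.GE8.SQ3.Invol
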