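/-
GATE-E / RISK-6 = **SQ3** (`p = 3`, level `4L ⟹ 2L`), helper10's ruling (board 7897, item (A')):
`GE8/SQ3/ResInv.lean` (helper7) — Mathlib only, abstract ambient group `G`.

For subgroups `K ≤ H` of `G` and `τ ∈ H` with `τ K τ⁻¹ ⊆ K` and `H = K ∪ K τ` (so `K` is normal of
index `≤ 2` in `H`; `τ ∉ K` is never needed), and a commutative ring `O`:

* `resLin O hKH : Hom(H, O) →ₗ[O] Hom(K, O)` — restriction;
* `conjLin O K γ hγ : Hom(K, O) →ₗ[O] Hom(K, O)` — conjugation, `(conjLin γ φ)(k) = φ (γ k γ⁻¹)`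
  (the spelling of `GB/B3/KerSys.diaK_op_apply`); `conjLin_of_mem` (`γ ∈ K` acts trivially),
  `conjLin_mul`, `conjLin_one`, `conjLin_inv_conjLin`, `conjLinEquiv`;
* `conjRep O Γ K hn : Γ →* Module.End O Hom(K, O)` — the LEFT action `(γ • φ)(k) = φ (γ⁻¹ k γ)` of a
  subgroup `Γ` normalising `K`; `conjRep_of_mem` (trivial on `K`), `conjRepQ` (the action of the
  quotient `Γ ⧸ K`, e.g. `S₃ = Γ₀(L)/(Γ₀(L) ∩ Γ(2))`);
* `conjLin_resLin` : restrictions from `H` are `τ`-invariant;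
* `resLin_injective` : restriction is injective when `O` has no `2`-torsion;
* **`exists_resLin_eq`** : when `2 u = 1` in `O`, every `τ`-invariant `φ : K → O` is the restriction
  of `extHom … φ : H → O`, `h ↦ u · φ (h²)`;  **`mem_range_resLin_iff`**, `range_resLin`;
* `coresLin` : the transfer `Hom(K, O) → Hom(H, O)` (`= ext ∘ (1 + τ)`), with
  `resLin_coresLin : res ∘ cores = 1 + τ` and `coresLin_resLin : cores ∘ res = 2`.
-/
import Mathlib

set_option autoImplicit false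

namespace Fermat.Agent.GE8.SQ3.ResInv

variable {G : Type*} [Group G] (O : Type*) [CommRing O]

/-! ### restriction -/

section Res

variable {K H : Subgroup G}

/-- restriction `Hom(H, O) → Hom(K, O)` for `K ≤ H` -/
def resLin (hKH : K ≤ H) : (Additive H →+ O) →ₗ[O] (Additive K →+ O) where
  toFun ψ := ψ.comp (MonoidHom.toAdditive (Subgroup.inclusion hKH))
  map_add' _ _ := rfl
  map_smul' _ _ := rfl

theorem resLin_apply (hKH : K ≤ H) (ψ : Additive H →+ O) (k : K) :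
    resLin O hKH ψ (Additive.ofMul k) = ψ (Additive.ofMul (Subgroup.inclusion hKH k)) := rfl

end Res

/-! ### conjugation -/

section Conj

variable (K : Subgroup G)

/-- conjugation by `γ` on `K`, `k ↦ γ k γ⁻¹` -/
def conjMul (γ : G) (hγ : ∀ k ∈ K, γ * k * γ⁻¹ ∈ K) : K →* K where
  toFun k := ⟨γ * k * γ⁻¹, hγ k k.2⟩
  map_one' := Subtype.ext (by simp)
  map_mul' a b := Subtype.ext (by simp [mul_assoc])

/-- conjugation on `Hom(K, O)`: `(conjLin γ φ)(k) = φ (γ k γ⁻¹)` -/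
def conjLin (γ : G) (hγ : ∀ k ∈ K, γ * k * γ⁻¹ ∈ K) :
    (Additive K →+ O) →ₗ[O] (Additive K →+ O) where
  toFun φ := φ.comp (MonoidHom.toAdditive (conjMul K γ hγ))
  map_add' _ _ := rfl
  map_smul' _ _ := rfl

theorem conjLin_apply (γ : G) (hγ : ∀ k ∈ K, γ * k * γ⁻¹ ∈ K) (φ : Additive K →+ O) (k : K) :
    conjLin O K γ hγ φ (Additive.ofMul k)
      = φ (Additive.ofMul (⟨γ * k * γ⁻¹, hγ k k.2⟩ : K)) := rfl

/-- elements of `K` act trivially -/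
theorem conjLin_of_mem (γ : G) (hγK : γ ∈ K) (hγ : ∀ k ∈ K, γ * k * γ⁻¹ ∈ K) :
    conjLin O K γ hγ = LinearMap.id := by
  refine LinearMap.ext fun φ => AddMonoidHom.ext fun k => ?_
  obtain ⟨k, rfl⟩ : ∃ k' : K, Additive.ofMul k' = k := ⟨Additive.toMul k, rfl⟩
  rw [conjLin_apply, LinearMap.id_apply]
  have e : (⟨γ * k * γ⁻¹, hγ k k.2⟩ : K) = ⟨γ, hγK⟩ * k * (⟨γ, hγK⟩ : K)⁻¹ := Subtype.ext rfl
  rw [e, ofMul_mul, ofMul_mul, ofMul_inv, map_add, map_add, map_neg]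
  abel

theorem conjLin_one (h1 : ∀ k ∈ K, (1 : G) * k * (1 : G)⁻¹ ∈ K) :
    conjLin O K 1 h1 = LinearMap.id :=
  conjLin_of_mem O K 1 K.one_mem h1

/-- `conj (γ γ') = conj γ' ∘ conj γ` (a RIGHT action, as for `KerSys.dia_mul`) -/
theorem conjLin_mul (γ γ' : G) (hγ : ∀ k ∈ K, γ * k * γ⁻¹ ∈ K) (hγ' : ∀ k ∈ K, γ' * k * γ'⁻¹ ∈ K)
    (hγγ' : ∀ k ∈ K, (γ * γ') * k * (γ * γ')⁻¹ ∈ K) (φ : Additive K →+ O) :
    conjLin O K (γ * γ') hγγ' φ = conjLin O K γ' hγ' (conjLin O K γ hγ φ) := by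
  refine AddMonoidHom.ext fun k => ?_
  obtain ⟨k, rfl⟩ : ∃ k' : K, Additive.ofMul k' = k := ⟨Additive.toMul k, rfl⟩
  rw [conjLin_apply, conjLin_apply, conjLin_apply]
  congr 2
  apply Subtype.ext
  show γ * γ' * (k : G) * (γ * γ')⁻¹ = γ * (γ' * (k : G) * γ'⁻¹) * γ⁻¹
  group

/-- the membership proof is irrelevant -/
theorem conjLin_congr {γ γ' : G} (h : γ = γ') (hγ : ∀ k ∈ K, γ * k * γ⁻¹ ∈ K)
    (hγ' : ∀ k ∈ K, γ' * k * γ'⁻¹ ∈ K) : conjLin O K γ hγ = conjLin O K γ' hγ' := by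
  subst h
  rfl

theorem conjLin_inv_conjLin (γ : G) (hγ : ∀ k ∈ K, γ * k * γ⁻¹ ∈ K)
    (hγ' : ∀ k ∈ K, γ⁻¹ * k * γ⁻¹⁻¹ ∈ K) (φ : Additive K →+ O) :
    conjLin O K γ⁻¹ hγ' (conjLin O K γ hγ φ) = φ := by
  have h1 : ∀ k ∈ K, (γ * γ⁻¹) * k * (γ * γ⁻¹)⁻¹ ∈ K := by
    intro k hk
    simpa using hk
  rw [← conjLin_mul O K γ γ⁻¹ hγ hγ' h1 φ,
    conjLin_congr O K (mul_inv_cancel γ) h1 (by intro k hk; simpa using hk), conjLin_one]
  rfl

theorem conjLin_conjLin_inv (γ : G) (hγ : ∀ k ∈ K, γ * k * γ⁻¹ ∈ K)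
    (hγ' : ∀ k ∈ K, γ⁻¹ * k * γ⁻¹⁻¹ ∈ K) (φ : Additive K →+ O) :
    conjLin O K γ hγ (conjLin O K γ⁻¹ hγ' φ) = φ := by
  have h1 : ∀ k ∈ K, (γ⁻¹ * γ) * k * (γ⁻¹ * γ)⁻¹ ∈ K := by
    intro k hk
    simpa using hk
  rw [← conjLin_mul O K γ⁻¹ γ hγ' hγ h1 φ,
    conjLin_congr O K (inv_mul_cancel γ) h1 (by intro k hk; simpa using hk), conjLin_one]
  rfl

/-- an element with square in `K` acts as an involution (`hc : cᵢ ∘ cᵢ = 1`) -/
theorem conjLin_conjLin_of_sq_mem (τ : G) (hτ : ∀ k ∈ K, τ * k * τ⁻¹ ∈ K) (hτ2 : τ * τ ∈ K)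
    (φ : Additive K →+ O) : conjLin O K τ hτ (conjLin O K τ hτ φ) = φ := by
  have h2 : ∀ k ∈ K, (τ * τ) * k * (τ * τ)⁻¹ ∈ K := fun k hk => by
    have e : τ * τ * k * (τ * τ)⁻¹ = τ * (τ * k * τ⁻¹) * τ⁻¹ := by group
    rw [e]
    exact hτ _ (hτ k hk)
  rw [← conjLin_mul O K τ τ hτ hτ h2 φ, conjLin_of_mem O K (τ * τ) hτ2 h2, LinearMap.id_apply]

/-- **conjugate involutions have conjugate invariants**: if `φ` is invariant under `γ τ γ⁻¹` then
`conjLin γ φ` is invariant under `τ`  (the three `Hᵢ ⊇ K` of index `2` are `Γ`-conjugate). -/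
theorem conjLin_conjLin_of_conj_invariant (γ τ : G) (hγ : ∀ k ∈ K, γ * k * γ⁻¹ ∈ K)
    (hτ : ∀ k ∈ K, τ * k * τ⁻¹ ∈ K) (hγτ : ∀ k ∈ K, (γ * τ * γ⁻¹) * k * (γ * τ * γ⁻¹)⁻¹ ∈ K)
    (φ : Additive K →+ O) (hφ : conjLin O K (γ * τ * γ⁻¹) hγτ φ = φ) :
    conjLin O K τ hτ (conjLin O K γ hγ φ) = conjLin O K γ hγ φ := by
  have h1 : ∀ k ∈ K, (γ * τ) * k * (γ * τ)⁻¹ ∈ K := fun k hk => by
    have e : γ * τ * k * (γ * τ)⁻¹ = γ * (τ * k * τ⁻¹) * γ⁻¹ := by group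
    rw [e]
    exact hγ _ (hτ k hk)
  have h2 : ∀ k ∈ K, ((γ * τ * γ⁻¹) * γ) * k * ((γ * τ * γ⁻¹) * γ)⁻¹ ∈ K := fun k hk => by
    have e : ((γ * τ * γ⁻¹) * γ) * k * ((γ * τ * γ⁻¹) * γ)⁻¹ = γ * (τ * k * τ⁻¹) * γ⁻¹ := by group
    rw [e]
    exact hγ _ (hτ k hk)
  rw [← conjLin_mul O K γ τ hγ hτ h1 φ,
    conjLin_congr O K (show γ * τ = (γ * τ * γ⁻¹) * γ by group) h1 h2,
    conjLin_mul O K (γ * τ * γ⁻¹) γ hγτ hγ h2 φ, hφ]

/-- conjugation as an `O`-linear automorphism of `Hom(K, O)` -/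
def conjLinEquiv (γ : G) (hγ : ∀ k ∈ K, γ * k * γ⁻¹ ∈ K) (hγ' : ∀ k ∈ K, γ⁻¹ * k * γ⁻¹⁻¹ ∈ K) :
    (Additive K →+ O) ≃ₗ[O] (Additive K →+ O) :=
  { conjLin O K γ hγ with
    invFun := conjLin O K γ⁻¹ hγ'
    left_inv := conjLin_inv_conjLin O K γ hγ hγ'
    right_inv := conjLin_conjLin_inv O K γ hγ hγ' }

theorem conjLinEquiv_apply (γ : G) (hγ : ∀ k ∈ K, γ * k * γ⁻¹ ∈ K)
    (hγ' : ∀ k ∈ K, γ⁻¹ * k * γ⁻¹⁻¹ ∈ K) (φ : Additive K →+ O) :
    conjLinEquiv O K γ hγ hγ' φ = conjLin O K γ hγ φ := rfl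

end Conj

/-! ### the action of a normalising subgroup `Γ`, and of `Γ ⧸ K` -/

section Rep

variable (Γ K : Subgroup G) (hn : ∀ γ ∈ Γ, ∀ k ∈ K, γ * k * γ⁻¹ ∈ K)

/-- **the (left) conjugation action** of `Γ` on `Hom(K, O)`: `(γ • φ)(k) = φ (γ⁻¹ k γ)` -/
def conjRep : Γ →* Module.End O (Additive K →+ O) where
  toFun γ := conjLin O K ((γ : G)⁻¹) (hn _ (Γ.inv_mem γ.2))
  map_one' := by
    have h1 : ∀ k ∈ K, (1 : G) * k * (1 : G)⁻¹ ∈ K := by
      intro k hk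
      simpa using hk
    rw [conjLin_congr O K (show (((1 : Γ) : G))⁻¹ = 1 by simp) _ h1, conjLin_one]
    rfl
  map_mul' γ γ' := by
    refine LinearMap.ext fun φ => ?_
    rw [Module.End.mul_apply]
    rw [conjLin_congr O K (show (((γ * γ' : Γ) : G))⁻¹ = (γ' : G)⁻¹ * (γ : G)⁻¹ by simp) _
      (hn _ (Γ.mul_mem (Γ.inv_mem γ'.2) (Γ.inv_mem γ.2)))]
    exact conjLin_mul O K _ _ (hn _ (Γ.inv_mem γ'.2)) (hn _ (Γ.inv_mem γ.2)) _ φ

theorem conjRep_eq (γ : Γ) :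
    conjRep O Γ K hn γ = conjLin O K ((γ : G)⁻¹) (hn _ (Γ.inv_mem γ.2)) := rfl

theorem conjRep_apply (γ : Γ) (φ : Additive K →+ O) (k : K) :
    conjRep O Γ K hn γ φ (Additive.ofMul k)
      = φ (Additive.ofMul (⟨(γ : G)⁻¹ * k * (γ : G)⁻¹⁻¹, hn _ (Γ.inv_mem γ.2) k k.2⟩ : K)) := rfl

/-- `K` acts trivially -/
theorem conjRep_of_mem (γ : Γ) (hγ : (γ : G) ∈ K) : conjRep O Γ K hn γ = 1 := by
  rw [conjRep_eq, conjLin_of_mem O K _ (K.inv_mem hγ)]
  rfl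

/-- **the action of the quotient** `Γ ⧸ K` on `Hom(K, O)` -/
def conjRepQ [(K.subgroupOf Γ).Normal] :
    Γ ⧸ K.subgroupOf Γ →* Module.End O (Additive K →+ O) :=
  QuotientGroup.lift (K.subgroupOf Γ) (conjRep O Γ K hn) (fun γ hγ =>
    conjRep_of_mem O Γ K hn γ (Subgroup.mem_subgroupOf.mp hγ))

theorem conjRepQ_mk [(K.subgroupOf Γ).Normal] (γ : Γ) :
    conjRepQ O Γ K hn (QuotientGroup.mk γ) = conjRep O Γ K hn γ := rfl

end Rep

/-! ### index two: restriction is injective with image the `τ`-invariants -/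

section Index2

variable {K H : Subgroup G} (hKH : K ≤ H) (τ : G) (hτH : τ ∈ H)
  (hτ : ∀ k ∈ K, τ * k * τ⁻¹ ∈ K) (hidx : ∀ h ∈ H, h ∈ K ∨ h * τ⁻¹ ∈ K)

include hτH hidx in
theorem tau_sq_mem : τ * τ ∈ K := by
  rcases hidx (τ * τ) (H.mul_mem hτH hτH) with h | h
  · exact h
  · rw [mul_inv_cancel_right] at h
    exact K.mul_mem h h

include hτ hidx in
/-- `K` is normal in `H` -/
theorem conj_mem_of_mem {h : G} (hh : h ∈ H) {k : G} (hk : k ∈ K) : h * k * h⁻¹ ∈ K := by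
  rcases hidx h hh with h1 | h1
  · exact K.mul_mem (K.mul_mem h1 hk) (K.inv_mem h1)
  · have e : h * k * h⁻¹ = (h * τ⁻¹) * (τ * k * τ⁻¹) * (h * τ⁻¹)⁻¹ := by group
    rw [e]
    exact K.mul_mem (K.mul_mem h1 (hτ k hk)) (K.inv_mem h1)

include hτH hτ hidx in
/-- squares of elements of `H` lie in `K` -/
theorem sq_mem {h : G} (hh : h ∈ H) : h * h ∈ K := by
  rcases hidx h hh with h1 | h1
  · exact K.mul_mem h1 h1
  · have e : h * h = (h * τ⁻¹) * (τ * (h * τ⁻¹) * τ⁻¹) * (τ * τ) := by group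
    rw [e]
    exact K.mul_mem (K.mul_mem h1 (hτ _ h1)) (tau_sq_mem τ hτH hidx)

include hτH in
/-- restrictions from `H` are `τ`-invariant -/
theorem conjLin_resLin (ψ : Additive H →+ O) :
    conjLin O K τ hτ (resLin O hKH ψ) = resLin O hKH ψ := by
  refine AddMonoidHom.ext fun k => ?_
  obtain ⟨k, rfl⟩ : ∃ k' : K, Additive.ofMul k' = k := ⟨Additive.toMul k, rfl⟩
  rw [conjLin_apply, resLin_apply, resLin_apply]
  have e : Subgroup.inclusion hKH (⟨τ * k * τ⁻¹, hτ k k.2⟩ : K)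
      = (⟨τ, hτH⟩ : H) * Subgroup.inclusion hKH k * (⟨τ, hτH⟩ : H)⁻¹ := Subtype.ext rfl
  rw [e, ofMul_mul, ofMul_mul, ofMul_inv, map_add, map_add, map_neg]
  abel

include hτH hτ hidx in
/-- **restriction is injective** when `O` has no `2`-torsion -/
theorem resLin_injective (h2 : ∀ a : O, 2 * a = 0 → a = 0) :
    Function.Injective (resLin O hKH) := by
  rw [injective_iff_map_eq_zero]
  intro ψ hψ
  refine AddMonoidHom.ext fun h => ?_
  obtain ⟨h, rfl⟩ : ∃ h' : H, Additive.ofMul h' = h := ⟨Additive.toMul h, rfl⟩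
  rw [AddMonoidHom.zero_apply]
  apply h2
  have hsq : (h : G) * (h : G) ∈ K := sq_mem τ hτH hτ hidx h.2
  have h1 := DFunLike.congr_fun hψ (Additive.ofMul (⟨(h : G) * (h : G), hsq⟩ : K))
  rw [resLin_apply, AddMonoidHom.zero_apply] at h1
  have e : Subgroup.inclusion hKH (⟨(h : G) * (h : G), hsq⟩ : K) = h * h := Subtype.ext rfl
  rw [e, ofMul_mul, map_add] at h1
  rw [two_mul]
  exact h1

/-! #### the extension of an invariant homomorphism -/

open Classical in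
/-- `φ` extended by zero to `G` (bookkeeping device) -/
noncomputable def ext0 (φ : Additive K →+ O) (g : G) : O :=
  if hg : g ∈ K then φ (Additive.ofMul (⟨g, hg⟩ : K)) else 0

theorem ext0_of_mem (φ : Additive K →+ O) {g : G} (hg : g ∈ K) :
    ext0 O φ g = φ (Additive.ofMul (⟨g, hg⟩ : K)) := dif_pos hg

theorem ext0_mul (φ : Additive K →+ O) {x y : G} (hx : x ∈ K) (hy : y ∈ K) :
    ext0 O φ (x * y) = ext0 O φ x + ext0 O φ y := by
  rw [ext0_of_mem O φ hx, ext0_of_mem O φ hy, ext0_of_mem O φ (K.mul_mem hx hy), ← map_add]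
  rfl

theorem ext0_one (φ : Additive K →+ O) : ext0 O φ (1 : G) = 0 := by
  have h := ext0_mul O φ K.one_mem K.one_mem
  rw [mul_one] at h
  exact left_eq_add.mp h

theorem ext0_inv (φ : Additive K →+ O) {x : G} (hx : x ∈ K) :
    ext0 O φ x⁻¹ = - ext0 O φ x := by
  have h := ext0_mul O φ hx (K.inv_mem hx)
  rw [mul_inv_cancel, ext0_one] at h
  exact eq_neg_of_add_eq_zero_right h.symm

theorem ext0_add (φ φ' : Additive K →+ O) (g : G) :
    ext0 O (φ + φ') g = ext0 O φ g + ext0 O φ' g := by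
  by_cases hg : g ∈ K
  · rw [ext0_of_mem O _ hg, ext0_of_mem O _ hg, ext0_of_mem O _ hg]
    rfl
  · unfold ext0
    rw [dif_neg hg, dif_neg hg, dif_neg hg, add_zero]

theorem ext0_smul (c : O) (φ : Additive K →+ O) (g : G) :
    ext0 O (c • φ) g = c * ext0 O φ g := by
  by_cases hg : g ∈ K
  · rw [ext0_of_mem O _ hg, ext0_of_mem O _ hg]
    rfl
  · unfold ext0
    rw [dif_neg hg, dif_neg hg, mul_zero]

theorem ext0_conjLin (γ : G) (hγ : ∀ k ∈ K, γ * k * γ⁻¹ ∈ K) (φ : Additive K →+ O) {k : G}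
    (hk : k ∈ K) : ext0 O (conjLin O K γ hγ φ) k = ext0 O φ (γ * k * γ⁻¹) := by
  rw [ext0_of_mem O _ hk, ext0_of_mem O _ (hγ k hk)]
  rfl

variable {φ : Additive K →+ O} (hφ : conjLin O K τ hτ φ = φ)

include hτ hidx hφ in
/-- a `τ`-invariant `φ` is invariant under conjugation by `H` -/
theorem ext0_conj {h : G} (hh : h ∈ H) {k : G} (hk : k ∈ K) :
    ext0 O φ (h * k * h⁻¹) = ext0 O φ k := by
  have hτk : ∀ k ∈ K, ext0 O φ (τ * k * τ⁻¹) = ext0 O φ k := by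
    intro k hk
    rw [← ext0_conjLin O τ hτ φ hk, hφ]
  rcases hidx h hh with h1 | h1
  · rw [ext0_mul O φ (K.mul_mem h1 hk) (K.inv_mem h1), ext0_mul O φ h1 hk, ext0_inv O φ h1]
    abel
  · have e : h * k * h⁻¹ = (h * τ⁻¹) * (τ * k * τ⁻¹) * (h * τ⁻¹)⁻¹ := by group
    rw [e, ext0_mul O φ (K.mul_mem h1 (hτ k hk)) (K.inv_mem h1), ext0_mul O φ h1 (hτ k hk),
      ext0_inv O φ h1, hτk k hk]
    abel

include hτ hidx hφ in
/-- commutators of `H` lie in `K` and are killed by a `τ`-invariant `φ` -/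
theorem ext0_comm {a b : G} (ha : a ∈ H) (hb : b ∈ H) :
    a⁻¹ * b * a * b⁻¹ ∈ K ∧ ext0 O φ (a⁻¹ * b * a * b⁻¹) = 0 := by
  have hcm := fun {h : G} (hh : h ∈ H) {k : G} (hk : k ∈ K) =>
    conj_mem_of_mem τ hτ hidx hh hk
  have hcj := fun {h : G} (hh : h ∈ H) {k : G} (hk : k ∈ K) =>
    ext0_conj O τ hτ hidx hφ hh hk
  rcases hidx b hb with hbK | hbK
  · -- `b ∈ K`
    have e : a⁻¹ * b * a * b⁻¹ = (a⁻¹ * b * a⁻¹⁻¹) * b⁻¹ := by group
    have hm : a⁻¹ * b * a⁻¹⁻¹ ∈ K := hcm (H.inv_mem ha) hbK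
    rw [e]
    refine ⟨K.mul_mem hm (K.inv_mem hbK), ?_⟩
    rw [ext0_mul O φ hm (K.inv_mem hbK), hcj (H.inv_mem ha) hbK, ext0_inv O φ hbK, add_neg_cancel]
  · rcases hidx a ha with haK | haK
    · -- `a ∈ K`
      have e : a⁻¹ * b * a * b⁻¹ = a⁻¹ * (b * a * b⁻¹) := by group
      have hm : b * a * b⁻¹ ∈ K := hcm hb haK
      rw [e]
      refine ⟨K.mul_mem (K.inv_mem haK) hm, ?_⟩
      rw [ext0_mul O φ (K.inv_mem haK) hm, hcj hb haK, ext0_inv O φ haK, neg_add_cancel]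
    · -- neither: `k := b a⁻¹ ∈ K`
      have hk : b * a⁻¹ ∈ K := by
        have e : b * a⁻¹ = (b * τ⁻¹) * (a * τ⁻¹)⁻¹ := by group
        rw [e]
        exact K.mul_mem hbK (K.inv_mem haK)
      have e : a⁻¹ * b * a * b⁻¹ = (a⁻¹ * (b * a⁻¹) * a⁻¹⁻¹) * (b * a⁻¹)⁻¹ := by group
      have hm : a⁻¹ * (b * a⁻¹) * a⁻¹⁻¹ ∈ K := hcm (H.inv_mem ha) hk
      rw [e]
      refine ⟨K.mul_mem hm (K.inv_mem hk), ?_⟩
      rw [ext0_mul O φ hm (K.inv_mem hk), hcj (H.inv_mem ha) hk, ext0_inv O φ hk, add_neg_cancel]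

include hτH hτ hidx hφ in
/-- `h ↦ φ (h²)` is additive on `H` -/
theorem ext0_sq_mul {a b : G} (ha : a ∈ H) (hb : b ∈ H) :
    ext0 O φ ((a * b) * (a * b)) = ext0 O φ (a * a) + ext0 O φ (b * b) := by
  obtain ⟨hc, hc0⟩ := ext0_comm O τ hτ hidx hφ ha hb
  have haa : a * a ∈ K := sq_mem τ hτH hτ hidx ha
  have hbb : b * b ∈ K := sq_mem τ hτH hτ hidx hb
  have e : (a * b) * (a * b) = (a * a) * (a⁻¹ * b * a * b⁻¹) * (b * b) := by group
  rw [e, ext0_mul O φ (K.mul_mem haa hc) hbb, ext0_mul O φ haa hc, hc0, add_zero]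

/-- **the extension** `h ↦ u · φ (h²)` of a `τ`-invariant `φ : K → O` to `H` (`u = 1/2`) -/
noncomputable def extHom (u : O) : Additive H →+ O :=
  AddMonoidHom.mk'
    (fun h => u * ext0 O φ (((Additive.toMul h : H) : G) * ((Additive.toMul h : H) : G)))
    (by
      intro a b
      show u * ext0 O φ ((((Additive.toMul a * Additive.toMul b : H)) : G)
        * (((Additive.toMul a * Additive.toMul b : H)) : G)) = _
      rw [Subgroup.coe_mul,
        ext0_sq_mul O τ hτH hτ hidx hφ (Additive.toMul a).2 (Additive.toMul b).2, mul_add])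

theorem extHom_apply (u : O) (h : H) :
    extHom O τ hτH hτ hidx hφ u (Additive.ofMul h) = u * ext0 O φ ((h : G) * (h : G)) := rfl

/-- the extension restricts to `φ` when `2 u = 1` -/
theorem resLin_extHom (u : O) (hu : 2 * u = 1) :
    resLin O hKH (extHom O τ hτH hτ hidx hφ u) = φ := by
  refine AddMonoidHom.ext fun k => ?_
  obtain ⟨k, rfl⟩ : ∃ k' : K, Additive.ofMul k' = k := ⟨Additive.toMul k, rfl⟩
  rw [resLin_apply, extHom_apply]
  show u * ext0 O φ ((k : G) * (k : G)) = _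
  rw [ext0_mul O φ k.2 k.2, ext0_of_mem O φ k.2, ← two_mul, ← mul_assoc, mul_comm u 2, hu, one_mul]

include hτH hidx in
/-- **every `τ`-invariant homomorphism `K → O` is a restriction from `H`** (`2` invertible) -/
theorem exists_resLin_eq (u : O) (hu : 2 * u = 1) (φ : Additive K →+ O)
    (hφ : conjLin O K τ hτ φ = φ) : ∃ ψ : Additive H →+ O, resLin O hKH ψ = φ :=
  ⟨extHom O τ hτH hτ hidx hφ u, resLin_extHom O hKH τ hτH hτ hidx hφ u hu⟩

include hτH hidx in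
/-- **the image of restriction is exactly the `τ`-invariants** -/
theorem mem_range_resLin_iff (u : O) (hu : 2 * u = 1) (φ : Additive K →+ O) :
    φ ∈ LinearMap.range (resLin O hKH) ↔ conjLin O K τ hτ φ = φ := by
  constructor
  · rintro ⟨ψ, rfl⟩
    exact conjLin_resLin O hKH τ hτH hτ ψ
  · intro hφ
    exact exists_resLin_eq O hKH τ hτH hτ hidx u hu φ hφ

include hτH hidx in
theorem range_resLin (u : O) (hu : 2 * u = 1) :
    LinearMap.range (resLin O hKH) = LinearMap.eqLocus (conjLin O K τ hτ) LinearMap.id := by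
  ext φ
  rw [mem_range_resLin_iff O hKH τ hτH hτ hidx u hu φ, LinearMap.mem_eqLocus, LinearMap.id_apply]

end Index2

/-! ### the transfer in index two -/

section Cores

variable {K H : Subgroup G} (hKH : K ≤ H) (τ : G) (hτH : τ ∈ H)
  (hτ : ∀ k ∈ K, τ * k * τ⁻¹ ∈ K) (hidx : ∀ h ∈ H, h ∈ K ∨ h * τ⁻¹ ∈ K)

include hτH hidx in
/-- `φ + τ φ` is `τ`-invariant -/
theorem conjLin_add_conjLin (φ : Additive K →+ O) :
    conjLin O K τ hτ (φ + conjLin O K τ hτ φ) = φ + conjLin O K τ hτ φ := by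
  have h2 : ∀ k ∈ K, (τ * τ) * k * (τ * τ)⁻¹ ∈ K := fun k hk => by
    have e : τ * τ * k * (τ * τ)⁻¹ = τ * (τ * k * τ⁻¹) * τ⁻¹ := by group
    rw [e]
    exact hτ _ (hτ k hk)
  rw [map_add, ← conjLin_mul O K τ τ hτ hτ h2 φ,
    conjLin_of_mem O K (τ * τ) (tau_sq_mem τ hτH hidx) h2, LinearMap.id_apply, add_comm]

/-- **the transfer** `Hom(K, O) → Hom(H, O)`, `cores φ = ext (φ + τ φ)`, i.e.
`(cores φ)(h) = u · (φ (h²) + φ (τ h² τ⁻¹))`  (`u = 1/2`) -/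
noncomputable def coresLin (u : O) : (Additive K →+ O) →ₗ[O] (Additive H →+ O) where
  toFun φ := extHom O τ hτH hτ hidx (conjLin_add_conjLin O τ hτH hτ hidx φ) u
  map_add' φ φ' := by
    refine AddMonoidHom.ext fun h => ?_
    obtain ⟨h, rfl⟩ : ∃ h' : H, Additive.ofMul h' = h := ⟨Additive.toMul h, rfl⟩
    have e : (φ + φ') + conjLin O K τ hτ (φ + φ')
        = (φ + conjLin O K τ hτ φ) + (φ' + conjLin O K τ hτ φ') := by
      rw [map_add]
      abel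
    rw [AddMonoidHom.add_apply, extHom_apply, extHom_apply, extHom_apply, ← mul_add, ← ext0_add, e]
  map_smul' c φ := by
    refine AddMonoidHom.ext fun h => ?_
    obtain ⟨h, rfl⟩ : ∃ h' : H, Additive.ofMul h' = h := ⟨Additive.toMul h, rfl⟩
    have e : c • φ + conjLin O K τ hτ (c • φ) = c • (φ + conjLin O K τ hτ φ) := by
      rw [map_smul, smul_add]
    rw [RingHom.id_apply, AddMonoidHom.smul_apply, extHom_apply, extHom_apply, e, ext0_smul,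
      smul_eq_mul]
    ring

theorem coresLin_apply (u : O) (φ : Additive K →+ O) (h : H) :
    coresLin O τ hτH hτ hidx u φ (Additive.ofMul h)
      = u * ext0 O (φ + conjLin O K τ hτ φ) ((h : G) * (h : G)) := rfl

/-- `res ∘ cores = 1 + τ` -/
theorem resLin_coresLin (u : O) (hu : 2 * u = 1) (φ : Additive K →+ O) :
    resLin O hKH (coresLin O τ hτH hτ hidx u φ) = φ + conjLin O K τ hτ φ :=
  resLin_extHom O hKH τ hτH hτ hidx (conjLin_add_conjLin O τ hτH hτ hidx φ) u hu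

/-- `cores ∘ res = 2` -/
theorem coresLin_resLin (u : O) (hu : 2 * u = 1) (ψ : Additive H →+ O) :
    coresLin O τ hτH hτ hidx u (resLin O hKH ψ) = (2 : O) • ψ := by
  apply resLin_injective O hKH τ hτH hτ hidx (fun a ha => by
    have e : a = u * (2 * a) := by rw [← mul_assoc, mul_comm u 2, hu, one_mul]
    rw [e, ha, mul_zero])
  rw [resLin_coresLin O hKH τ hτH hτ hidx u hu, conjLin_resLin O hKH τ hτH hτ ψ, map_smul,
    two_smul]

/-- a `τ`-invariant `φ` is `res (u · cores φ)` -/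
theorem resLin_smul_coresLin (u : O) (hu : 2 * u = 1) (φ : Additive K →+ O)
    (hφ : conjLin O K τ hτ φ = φ) :
    resLin O hKH (u • coresLin O τ hτH hτ hidx u φ) = φ := by
  rw [map_smul, resLin_coresLin O hKH τ hτH hτ hidx u hu, hφ, ← two_smul O φ, smul_smul,
    mul_comm u 2, hu, one_smul]

end Cores

end Fermat.Agent.GE8.SQ3.ResInv
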