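/-
GATE-E / RISK-6, SQ3 (helper54): **the `S₃` trick, abstractly.**  Mathlib + `GB/B3/FreeCyclic` only.

The missing level lowering of the engine at `p = 3` is `ResMod₃(4L) ⟹ ResMod₃(2L)` (`L` odd, prime
to `3`; helper10, board 7857).  Group theory: `Γ = Γ₀(L)`, `K = Γ ∩ Γ(2) ◁ Γ`, `Γ/K = S₃ = ⟨σ, τ⟩`,
`H = K⟨τ⟩ = Γ ∩ Γ₀(2)`, `G² = K⟨σ⟩`; `K ≅ Γ₀(4L)` and `H ≅ Γ₀(2L)` (conjugation by `diag(2,1)`).
On `V = Hom(K, O)` let `D = conj σ`, `E = conj τ`, and let `P` be the part of `V` localised at a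
non-Eisenstein maximal ideal.

* if the localised part of `Hom(H, O)` vanishes, then `E = -1` on `P`
  (`res ∘ cores = 1 + E` for the index-two step `K ◁ H`): `neg_of_res_cores`, `neg_of_P0_eq_bot`;
* then every transposition acts by `-1`, so `D = E ∘ (D E D⁻¹) = +1` on `P` (`τ · στσ⁻¹ = σ` in
  `S₃`, used in the form `E D E = D²`): `D_eq_self_of_neg`;
* but `P` is FREE over `O[C₃]` (one cyclic step of order `3` for `K ◁ G²`, helper95's
  `FreeCyclic.CycStep`, `rank_O P = 3 · rank_O P0`), so `D = 1` on `P` forces `P = 0`: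
  `eq_bot_of_D_eq_self`.

**`eq_bot_of_two_three`** : the three steps together.  `P0 = Hom(G², O)_𝔪` is never interpreted.
-/
import Mathlib
import Fermat.Agent.GB.B3.FreeCyclic

set_option autoImplicit false
set_option linter.unusedSectionVars false
set_option linter.unusedVariables false

namespace Fermat.Agent.GE8.SQ3.S3Trick

open Module Fermat.Agent.GB.B3.FreeCyclic

/-! ### the index-two step: a transposition acts by `-1` -/

section Two

variable {O : Type*} [CommRing O] {L L0' : Type*} [AddCommGroup L] [Module O L]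
  [AddCommGroup L0'] [Module O L0']

/-- **the index-two step, minimal form**: if `res ∘ cores = 1 + E` and `cores` maps `P` into a
submodule `P0 = ⊥` (the localised part of `Hom(H, O)` vanishes), then `E = -1` on `P`. -/
theorem neg_of_res_cores (E : L →ₗ[O] L) (res : L0' →ₗ[O] L) (cores : L →ₗ[O] L0')
    (hrc : ∀ x, res (cores x) = x + E x) (P : Submodule O L) (P0 : Submodule O L0')
    (hcP : ∀ x ∈ P, cores x ∈ P0) (hP0 : P0 = ⊥) : ∀ x ∈ P, E x = -x := by
  intro x hx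
  have h0 : cores x = 0 := by
    have h := hcP x hx
    rw [hP0] at h
    exact (Submodule.mem_bot O).mp h
  have h1 := hrc x
  rw [h0, map_zero] at h1
  exact (neg_eq_of_add_eq_zero_right h1.symm).symm

/-- **the index-two step, `CycStep` form** (`q = 2`). -/
theorem neg_of_P0_eq_bot {S₂ : CycStep O L L0' 2} (Z₂ : S₂.Summand) (hP0 : Z₂.P0 = ⊥) :
    ∀ x ∈ Z₂.P, S₂.D x = -x := by
  refine neg_of_res_cores S₂.D S₂.res S₂.cores (fun x => ?_) Z₂.P Z₂.P0 Z₂.cores_P hP0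
  rw [S₂.res_cores, Finset.sum_range_succ, Finset.sum_range_one, pow_zero, pow_one,
    Module.End.one_apply]

end Two

/-! ### the `S₃` relation: `D = 1` on `P` -/

section Three

variable {O : Type*} [CommRing O] {L L0 : Type*} [AddCommGroup L] [Module O L]
  [AddCommGroup L0] [Module O L0]

/-- **the `S₃` trick**: `D³ = 1`, `E D E = D²` (`τστ = σ⁻¹`), `E = -1` on a `D`-stable `P`
⟹ `D = 1` on `P`. -/
theorem D_eq_self_of_neg (D E : L →ₗ[O] L) (hD3 : D ^ 3 = 1)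
    (hrel : ∀ x, E (D (E x)) = (D ^ 2) x) (P : Submodule O L) (hDP : ∀ x ∈ P, D x ∈ P)
    (hneg : ∀ x ∈ P, E x = -x) : ∀ x ∈ P, D x = x := by
  intro x hx
  have h1 : E (D (E x)) = D x := by
    rw [hneg x hx, map_neg, map_neg, hneg (D x) (hDP x hx), neg_neg]
  have h2 : D x = (D ^ 2) x := h1.symm.trans (hrel x)
  have e1 : (D ^ 2) x = D (D x) := by rw [pow_two, Module.End.mul_apply]
  have e2 : (D ^ 3) x = D ((D ^ 2) x) := by rw [pow_succ', Module.End.mul_apply]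
  have h3 : (D ^ 2) x = x := by
    calc (D ^ 2) x = D (D x) := e1
      _ = D ((D ^ 2) x) := congrArg D h2
      _ = (D ^ 3) x := e2.symm
      _ = x := by rw [hD3, Module.End.one_apply]
  exact h2.trans h3

end Three

/-! ### freeness over `O[C_q]`: `D = 1` on `P` forces `P = 0` -/

section Free

variable {O : Type*} [CommRing O] [IsDomain O] [IsPrincipalIdealRing O]
variable {L L0 : Type*} [AddCommGroup L] [Module O L] [Module.Free O L] [Module.Finite O L]
  [AddCommGroup L0] [Module O L0] [Module.Free O L0] [Module.Finite O L0]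

/-- **a cyclic step of order `p ^ n > 1` with `D = 1` on the non-Eisenstein summand `P` has
`P = 0`** (`P` is free over `O[X]/(X^(p^n) - 1)`: `rank_O P = p ^ n · rank_O P0`, and
`cores : P/(D-1)P ≃ P0`). -/
theorem eq_bot_of_D_eq_self (ϖ : O) (hϖ0 : ϖ ≠ 0) [hmax : (Ideal.span {ϖ}).IsMaximal]
    (p n : ℕ) (hp : p.Prime) (hn : n ≠ 0) (hpϖ : (p : O) ∈ Ideal.span {ϖ})
    (hq : ((p ^ n : ℕ) : O) ≠ 0) {S : CycStep O L L0 (p ^ n)} (Z : S.Summand)
    (hD : ∀ x ∈ Z.P, S.D x = x) : Z.P = ⊥ := by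
  have hrank := CycStep.Summand.finrank_eq ϖ hϖ0 p n hp hpϖ hq Z
  -- `cores : P ≃ P0`
  have hinj : Function.Injective Z.coresP := by
    rw [injective_iff_map_eq_zero]
    intro x hx
    have hx' : S.cores (x : L) = 0 := congrArg Subtype.val hx
    obtain ⟨y, hy, hxy⟩ := Z.ker_cores_on x.2 hx'
    apply Subtype.ext
    rw [hxy, hD y hy, sub_self]
    rfl
  have hsurj : Function.Surjective Z.coresP := by
    intro x0
    obtain ⟨x, hx, hxx0⟩ := Z.cores_surjOn x0.2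
    exact ⟨⟨x, hx⟩, Subtype.ext hxx0⟩
  have heq : finrank O Z.P = finrank O Z.P0 :=
    (LinearEquiv.ofBijective Z.coresP ⟨hinj, hsurj⟩).finrank_eq
  -- `rank P0 = p ^ n · rank P0` with `p ^ n ≥ 2`
  have h2 : 2 ≤ p ^ n := by
    calc 2 ≤ p := hp.two_le
      _ = p ^ 1 := (pow_one p).symm
      _ ≤ p ^ n := Nat.pow_le_pow_right hp.pos (Nat.one_le_iff_ne_zero.mpr hn)
  have h0 : finrank O Z.P0 = 0 := by
    rw [heq] at hrank
    by_contra hne
    have hpos : 0 < finrank O Z.P0 := Nat.pos_of_ne_zero hne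
    have : finrank O Z.P0 < p ^ n * finrank O Z.P0 := by
      calc finrank O Z.P0 = 1 * finrank O Z.P0 := (one_mul _).symm
        _ < p ^ n * finrank O Z.P0 := Nat.mul_lt_mul_of_pos_right (by omega) hpos
    omega
  rw [h0] at heq
  exact Submodule.finrank_eq_zero.mp heq

end Free

/-! ### the three steps together -/

section Main

variable {O : Type*} [CommRing O] [IsDomain O] [IsPrincipalIdealRing O]
variable {L L0 L0' : Type*} [AddCommGroup L] [Module O L] [Module.Free O L] [Module.Finite O L]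
  [AddCommGroup L0] [Module O L0] [Module.Free O L0] [Module.Finite O L0]
  [AddCommGroup L0'] [Module O L0']

/-- **SQ3, abstract form.**  `S` = the cyclic step of order `3` for `K ◁ G²` over `O` (`3 ∈ (ϖ)`),
`Z` its non-Eisenstein summand; `E` = conjugation by a transposition, `E D E = D²`; `res₂`,
`cores₂` = restriction and corestriction of the index-two step `K ◁ H`, `res₂ ∘ cores₂ = 1 + E`,
`cores₂ P ⊆ P0₂`.  If `P0₂ = ⊥` (the level `2L` does not occur) then `P = ⊥` (the level `4L` does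
not occur). -/
theorem eq_bot_of_two_three (ϖ : O) (hϖ0 : ϖ ≠ 0) [hmax : (Ideal.span {ϖ}).IsMaximal]
    (h3ϖ : ((3 : ℕ) : O) ∈ Ideal.span {ϖ}) (h3 : (((3 : ℕ) ^ 1 : ℕ) : O) ≠ 0)
    {S : CycStep O L L0 (3 ^ 1)} (Z : S.Summand)
    (E : L →ₗ[O] L) (hrel : ∀ x, E (S.D (E x)) = (S.D ^ 2) x)
    (res₂ : L0' →ₗ[O] L) (cores₂ : L →ₗ[O] L0') (hrc : ∀ x, res₂ (cores₂ x) = x + E x)
    (P0₂ : Submodule O L0') (hcP : ∀ x ∈ Z.P, cores₂ x ∈ P0₂) (hP0₂ : P0₂ = ⊥) :
    Z.P = ⊥ := by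
  have hneg := neg_of_res_cores E res₂ cores₂ hrc Z.P P0₂ hcP hP0₂
  have hD3 : S.D ^ 3 = 1 := S.D_pow
  have hD := D_eq_self_of_neg S.D E hD3 hrel Z.P Z.D_P hneg
  exact eq_bot_of_D_eq_self ϖ hϖ0 3 1 Nat.prime_three one_ne_zero h3ϖ h3 Z hD

/-- `eq_bot_of_two_three` for a step indexed by the literal `3`. -/
theorem eq_bot_of_two_three' (ϖ : O) (hϖ0 : ϖ ≠ 0) [hmax : (Ideal.span {ϖ}).IsMaximal]
    (h3ϖ : ((3 : ℕ) : O) ∈ Ideal.span {ϖ}) (h3 : ((3 : ℕ) : O) ≠ 0)
    {S : CycStep O L L0 3} (Z : S.Summand)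
    (E : L →ₗ[O] L) (hrel : ∀ x, E (S.D (E x)) = (S.D ^ 2) x)
    (res₂ : L0' →ₗ[O] L) (cores₂ : L →ₗ[O] L0') (hrc : ∀ x, res₂ (cores₂ x) = x + E x)
    (P0₂ : Submodule O L0') (hcP : ∀ x ∈ Z.P, cores₂ x ∈ P0₂) (hP0₂ : P0₂ = ⊥) :
    Z.P = ⊥ :=
  eq_bot_of_two_three (S := S) ϖ hϖ0 h3ϖ (by simpa using h3) Z E hrel res₂ cores₂ hrc P0₂ hcP
    hP0₂

end Main

end Fermat.Agent.GE8.SQ3.S3Trick
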